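import Mathlib

/-!
# Galois extensions of commutative rings with cyclic group of order three

`Gal3 s` says that `A → B` is a Galois extension of commutative rings with group `⟨s⟩`, `s ^ 3 = 1`
(in the sense of Chase, Harrison and Rosenberg).  It covers at once unramified inert extensions
and split extensions `B = A × A × A`, fields and rings of integers, and it is stable under base
change.  Contents: the trace is surjective, Hilbert's theorem 90 for semilocal `A` (for `GL₁`) and
for local `A` (for `GL₂`), surjectivity of the norm on units for finite `A` and for complete `A`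
with finite residue ring, and descent for modules.
-/

set_option autoImplicit false

open scoped TensorProduct

namespace Fermat.Agent.LT.Loc

/-- Galois extension of commutative rings with cyclic group of order three. -/
structure Gal3 {A B : Type*} [CommRing A] [CommRing B] [Algebra A B] (s : B ≃ₐ[A] B) : Prop where
  cube : ∀ b, s (s (s b)) = b
  inj : Function.Injective (algebraMap A B)
  fixed : ∀ b, s b = b → ∃ a, algebraMap A B a = b
  dual : ∃ (n : ℕ) (x y : Fin n → B), ∑ i, x i * y i = 1 ∧
    ∑ i, x i * s (y i) = 0 ∧ ∑ i, x i * s (s (y i)) = 0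

namespace Gal3

variable {A B : Type*} [CommRing A] [CommRing B] [Algebra A B] {s : B ≃ₐ[A] B}

theorem exists_tr (h : Gal3 s) (b : B) : ∃ a, algebraMap A B a = b + s b + s (s b) :=
  h.fixed _ (by rw [map_add, map_add, h.cube]; ring)

theorem exists_nm (h : Gal3 s) (b : B) : ∃ a, algebraMap A B a = b * s b * s (s b) :=
  h.fixed _ (by rw [map_mul, map_mul, h.cube]; ring)

/-- the trace, as a function -/
noncomputable def trFun (h : Gal3 s) (b : B) : A := (h.exists_tr b).choose

theorem algebraMap_trFun (h : Gal3 s) (b : B) :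
    algebraMap A B (h.trFun b) = b + s b + s (s b) := (h.exists_tr b).choose_spec

/-- the norm, as a function -/
noncomputable def nmFun (h : Gal3 s) (b : B) : A := (h.exists_nm b).choose

theorem algebraMap_nmFun (h : Gal3 s) (b : B) :
    algebraMap A B (h.nmFun b) = b * s b * s (s b) := (h.exists_nm b).choose_spec

/-- the trace -/
noncomputable def tr (h : Gal3 s) : B →ₗ[A] A where
  toFun := h.trFun
  map_add' b b' := by
    apply h.inj
    rw [map_add, h.algebraMap_trFun, h.algebraMap_trFun, h.algebraMap_trFun]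
    simp only [map_add]
    ring
  map_smul' a b := by
    apply h.inj
    rw [h.algebraMap_trFun, RingHom.id_apply, smul_eq_mul, map_mul,
      h.algebraMap_trFun, map_smul, map_smul]
    simp only [Algebra.smul_def]
    ring

theorem algebraMap_tr (h : Gal3 s) (b : B) :
    algebraMap A B (h.tr b) = b + s b + s (s b) := h.algebraMap_trFun b

/-- the norm -/
noncomputable def nm (h : Gal3 s) : B →* A where
  toFun := h.nmFun
  map_one' := by
    apply h.inj
    rw [h.algebraMap_nmFun]
    simp
  map_mul' b b' := by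
    apply h.inj
    rw [map_mul, h.algebraMap_nmFun, h.algebraMap_nmFun, h.algebraMap_nmFun]
    simp only [map_mul]
    ring

theorem algebraMap_nm (h : Gal3 s) (b : B) :
    algebraMap A B (h.nm b) = b * s b * s (s b) := h.algebraMap_nmFun b

theorem nm_algebraMap (h : Gal3 s) (a : A) : h.nm (algebraMap A B a) = a ^ 3 := by
  apply h.inj
  rw [h.algebraMap_nm, AlgEquiv.commutes, AlgEquiv.commutes, map_pow]
  ring

theorem nm_s (h : Gal3 s) (b : B) : h.nm (s b) = h.nm b := by
  apply h.inj
  rw [h.algebraMap_nm, h.algebraMap_nm, h.cube]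
  ring

theorem isUnit_iff (h : Gal3 s) (b : B) : IsUnit b ↔ IsUnit (h.nm b) := by
  constructor
  · intro hb
    exact hb.map h.nm
  · intro hb
    have h1 := hb.map (algebraMap A B)
    rw [h.algebraMap_nm, mul_assoc] at h1
    exact isUnit_of_mul_isUnit_left h1

theorem sum_dual (h : Gal3 s) : ∃ (n : ℕ) (x y : Fin n → B), (∑ i, x i * y i = 1 ∧
    ∑ i, x i * s (y i) = 0 ∧ ∑ i, x i * s (s (y i)) = 0) ∧
    ∀ b, b = ∑ i, h.tr (y i * b) • x i := by
  obtain ⟨n, x, y, h1, h2, h3⟩ := h.dual
  refine ⟨n, x, y, ⟨h1, h2, h3⟩, fun b => ?_⟩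
  have : ∑ i, h.tr (y i * b) • x i = (∑ i, x i * y i) * b + (∑ i, x i * s (y i)) * s b +
      (∑ i, x i * s (s (y i))) * s (s b) := by
    rw [Finset.sum_mul, Finset.sum_mul, Finset.sum_mul, ← Finset.sum_add_distrib,
      ← Finset.sum_add_distrib]
    refine Finset.sum_congr rfl fun i _ => ?_
    rw [Algebra.smul_def, h.algebraMap_tr]
    simp only [map_mul]
    ring
  rw [this, h1, h2, h3]
  ring

theorem finite (h : Gal3 s) : Module.Finite A B := by
  classical
  obtain ⟨n, x, y, -, hb⟩ := h.sum_dual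
  refine ⟨⟨Finset.univ.image x, ?_⟩⟩
  rw [eq_top_iff]
  intro b _
  rw [hb b]
  refine Submodule.sum_mem _ fun i _ => Submodule.smul_mem _ _ (Submodule.subset_span ?_)
  simp

/-- the trace is surjective -/
theorem tr_surj (h : Gal3 s) : ∃ c, h.tr c = 1 := by
  obtain ⟨n, x, y, -, hb⟩ := h.sum_dual
  have hfin := h.finite
  let J : Ideal A := LinearMap.range h.tr
  have h1 : (⊤ : Submodule A B) ≤ J • (⊤ : Submodule A B) := by
    intro b _
    rw [hb b]
    refine Submodule.sum_mem _ fun i _ => Submodule.smul_mem_smul ?_ Submodule.mem_top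
    exact ⟨_, rfl⟩
  obtain ⟨r, hr, hr'⟩ := Submodule.exists_sub_one_mem_and_smul_eq_zero_of_fg_of_le_smul J
    (⊤ : Submodule A B) hfin.1 h1
  have h2 : r = 0 := by
    apply h.inj
    have := hr' 1 Submodule.mem_top
    rwa [Algebra.smul_def, mul_one, ← map_zero (algebraMap A B)] at this
  subst h2
  have h3 : (1 : A) ∈ J := by
    have := J.neg_mem hr
    simpa using this
  exact h3

theorem exists_tr_one (h : Gal3 s) : ∃ c, c + s c + s (s c) = 1 := by
  obtain ⟨c, hc⟩ := h.tr_surj
  exact ⟨c, by rw [← h.algebraMap_tr, hc, map_one]⟩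

theorem map_eq_smul_top (I : Ideal A) :
    (I.map (algebraMap A B)).restrictScalars A = I • (⊤ : Submodule A B) := by
  rw [Ideal.smul_top_eq_map]

theorem tr_mem (h : Gal3 s) (I : Ideal A) {b : B} (hb : b ∈ I.map (algebraMap A B)) :
    h.tr b ∈ I := by
  have hb' : b ∈ I • (⊤ : Submodule A B) := by
    rw [← map_eq_smul_top]
    exact hb
  induction hb' using Submodule.smul_induction_on' with
  | smul r hr n hn =>
    rw [map_smul, smul_eq_mul]
    exact I.mul_mem_right _ hr
  | add x hx y hy hx' hy' =>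
    rw [map_add]
    exact I.add_mem (hx' (by rw [← map_eq_smul_top] at hx; exact hx))
      (hy' (by rw [← map_eq_smul_top] at hy; exact hy))

theorem mem_of_map (h : Gal3 s) (I : Ideal A) {a : A}
    (ha : algebraMap A B a ∈ I.map (algebraMap A B)) : a ∈ I := by
  obtain ⟨c, hc⟩ := h.tr_surj
  have h1 := h.tr_mem I (Ideal.mul_mem_left _ c ha)
  rwa [mul_comm, ← Algebra.smul_def, map_smul, hc, smul_eq_mul, mul_one] at h1

/-- there is a maximal ideal over each maximal ideal -/
theorem exists_maximal_over (h : Gal3 s) (m : Ideal A) [hm : m.IsMaximal] :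
    ∃ n : Ideal B, n.IsMaximal ∧ n.comap (algebraMap A B) = m := by
  have h1 : m.map (algebraMap A B) ≠ ⊤ := by
    intro h1
    apply hm.ne_top
    rw [Ideal.eq_top_iff_one]
    apply h.mem_of_map m
    rw [h1]
    exact Submodule.mem_top
  obtain ⟨n, hn, hle⟩ := Ideal.exists_le_maximal _ h1
  refine ⟨n, hn, ?_⟩
  refine (hm.eq_of_le ?_ (Ideal.map_le_iff_le_comap.1 hle)).symm
  have := hn.isPrime
  exact (Ideal.comap_isPrime (algebraMap A B) n).ne_top

/-! ### Hilbert's theorem 90 -/

/-- the twisted trace -/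
def twist (s : B ≃ₐ[A] B) (u : B) (a : B) : B := a + u * s a + u * s u * s (s a)

theorem twist_eq (h : Gal3 s) {u : B} (hu : u * s u * s (s u) = 1) (a : B) :
    twist s u a = u * s (twist s u a) := by
  simp only [twist, map_add, map_mul, h.cube]
  linear_combination (-a) * hu

theorem twist_sum {ι : Type*} (t : Finset ι) (u : B) (e : ι → A) (a : ι → B) :
    twist s u (∑ i ∈ t, e i • a i) = ∑ i ∈ t, e i • twist s u (a i) := by
  simp only [twist, map_sum, map_smul, Finset.mul_sum, smul_add, Finset.sum_add_distrib,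
    mul_smul_comm]

/-- an element with `t = u * s t` lies in a prime `n` if and only if its norm does -/
theorem nm_mem_iff (h : Gal3 s) {u t : B} (ht : t = u * s t) (n : Ideal B) [hn : n.IsPrime] :
    h.nm t ∈ n.comap (algebraMap A B) ↔ t ∈ n := by
  rw [Ideal.mem_comap, h.algebraMap_nm]
  constructor
  · intro h1
    have h2 : s t ∈ n → t ∈ n := fun h2 => by
      rw [ht]
      exact n.mul_mem_left _ h2
    have h3 : s (s t) ∈ n → s t ∈ n := fun h3 => by
      have : s t = s u * s (s t) := by rw [← map_mul, ← ht]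
      rw [this]
      exact n.mul_mem_left _ h3
    rcases hn.mem_or_mem h1 with h4 | h4
    · rcases hn.mem_or_mem h4 with h5 | h5
      · exact h5
      · exact h2 h5
    · exact h2 (h3 h4)
  · intro h1
    exact n.mul_mem_right _ (n.mul_mem_right _ h1)

/-- **Hilbert's theorem 90** for semilocal rings. -/
theorem hilbert90 (h : Gal3 s) [Finite (MaximalSpectrum A)] {u : B}
    (hu : u * s u * s (s u) = 1) : ∃ b : Bˣ, (b : B) = u * s b := by
  classical
  have := Fintype.ofFinite (MaximalSpectrum A)
  obtain ⟨n, x, y, ⟨h1, h2, h3⟩, -⟩ := h.sum_dual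
  have hsum : ∑ i, x i * twist s u (y i) = 1 := by
    have : ∑ i, x i * twist s u (y i) = (∑ i, x i * y i) + u * (∑ i, x i * s (y i)) +
        u * s u * (∑ i, x i * s (s (y i))) := by
      rw [Finset.mul_sum, Finset.mul_sum, ← Finset.sum_add_distrib, ← Finset.sum_add_distrib]
      refine Finset.sum_congr rfl fun i _ => ?_
      simp only [twist]
      ring
    rw [this, h1, h2, h3]
    ring
  have key : ∀ m : MaximalSpectrum A, ∃ i, h.nm (twist s u (y i)) ∉ m.asIdeal := by
    intro m
    by_contra hcon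
    push Not at hcon
    have hm := m.isMaximal
    obtain ⟨N, hN, hNm⟩ := h.exists_maximal_over m.asIdeal
    have hN' := hN.isPrime
    apply hN.ne_top
    rw [Ideal.eq_top_iff_one, ← hsum]
    refine Ideal.sum_mem _ fun i _ => N.mul_mem_left _ ?_
    rw [← h.nm_mem_iff (h.twist_eq hu (y i)) N, hNm]
    exact hcon i
  choose idx hidx using key
  have hcrt : ∀ m₀ : MaximalSpectrum A, ∃ e : A, ∀ m : MaximalSpectrum A,
      e - (if m = m₀ then 1 else 0) ∈ m.asIdeal := by
    intro m₀
    refine Ideal.exists_forall_sub_mem_ideal (I := fun m : MaximalSpectrum A => m.asIdeal) ?_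
      (fun m => if m = m₀ then 1 else 0)
    intro m m' hne
    have := m.isMaximal
    have := m'.isMaximal
    exact Ideal.isCoprime_of_isMaximal (MaximalSpectrum.ext_iff.ne.mp hne)
  choose e he using hcrt
  have hT := twist_sum (s := s) Finset.univ u e (fun m => y (idx m))
  set t := twist s u (∑ m, e m • y (idx m)) with ht
  have htu : t = u * s t := h.twist_eq hu _
  have hunit : IsUnit (h.nm t) := by
    by_contra hcon
    obtain ⟨m, hm, hmem⟩ := exists_max_ideal_of_mem_nonunits hcon
    obtain ⟨N, hN, hNm⟩ := h.exists_maximal_over m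
    have hN' := hN.isPrime
    rw [← hNm, h.nm_mem_iff htu] at hmem
    apply hidx ⟨m, hm⟩
    change _ ∈ m
    have hiff := h.nm_mem_iff (h.twist_eq hu (y (idx ⟨m, hm⟩))) N
    rw [hNm] at hiff
    refine hiff.2 ?_
    have hmemN : ∀ a ∈ m, ∀ b : B, a • b ∈ N := by
      intro a ha b
      rw [Algebra.smul_def]
      rw [← hNm] at ha
      exact N.mul_mem_right _ ha
    have h4 : t - twist s u (y (idx ⟨m, hm⟩)) ∈ N := by
      have : t - twist s u (y (idx ⟨m, hm⟩)) = ∑ m', (e m' - (if m' = ⟨m, hm⟩ then 1 else 0)) •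
          twist s u (y (idx m')) := by
        rw [hT]
        simp only [sub_smul, Finset.sum_sub_distrib, ite_smul, one_smul, zero_smul]
        simp
      rw [this]
      refine Ideal.sum_mem _ fun m' _ => hmemN _ ?_ _
      have := he m' ⟨m, hm⟩
      simpa [eq_comm] using this
    have := N.sub_mem hmem h4
    simpa using this
  rw [← h.isUnit_iff] at hunit
  exact ⟨hunit.unit, htu⟩

/-! ### Base change -/

section Tensor

variable (A' : Type*) [CommRing A'] [Algebra A A']

/-- base change of an automorphism -/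
noncomputable def baseChange (s : B ≃ₐ[A] B) : (A' ⊗[A] B) ≃ₐ[A'] (A' ⊗[A] B) :=
  Algebra.TensorProduct.congr (AlgEquiv.refl : A' ≃ₐ[A'] A') s

@[simp] theorem baseChange_tmul (s : B ≃ₐ[A] B) (a : A') (b : B) :
    baseChange A' s (a ⊗ₜ b) = a ⊗ₜ s b := by
  simp [baseChange]

/-- base change of the trace -/
theorem exists_baseChange_tr (h : Gal3 s) : ∃ t : (A' ⊗[A] B) →ₗ[A'] A',
    (∀ a b, t (a ⊗ₜ b) = h.tr b • a) ∧
    ∀ z, algebraMap A' (A' ⊗[A] B) (t z) =
      z + baseChange A' s z + baseChange A' s (baseChange A' s z) := by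
  let t : (A' ⊗[A] B) →ₗ[A'] A' :=
    (TensorProduct.AlgebraTensorModule.rid A A' A').toLinearMap ∘ₗ
      TensorProduct.AlgebraTensorModule.map (LinearMap.id : A' →ₗ[A'] A') h.tr
  have ht : ∀ a b, t (a ⊗ₜ b) = h.tr b • a := fun a b => by simp [t]
  refine ⟨t, ht, fun z => ?_⟩
  induction z using TensorProduct.induction_on with
  | zero => simp
  | tmul a b =>
    rw [ht, baseChange_tmul, baseChange_tmul, ← TensorProduct.tmul_add, ← TensorProduct.tmul_add,
      ← h.algebraMap_tr, Algebra.TensorProduct.algebraMap_apply,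
      Algebra.algebraMap_eq_smul_one (R := A) (A := B), ← TensorProduct.smul_tmul]
    rfl
  | add x y hx hy =>
    simp only [map_add, hx, hy]
    abel

/-- Galois extensions are stable under base change. -/
theorem tensor (h : Gal3 s) : Gal3 (baseChange A' s) := by
  obtain ⟨t, ht, ht'⟩ := h.exists_baseChange_tr A'
  obtain ⟨c, hc⟩ := h.tr_surj
  refine ⟨?_, ?_, ?_, ?_⟩
  · intro b
    induction b using TensorProduct.induction_on with
    | zero => simp
    | tmul a b => simp only [baseChange_tmul, h.cube]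
    | add x y hx hy => rw [map_add, map_add, map_add, hx, hy]
  · intro a a' haa
    have h1 : ∀ a : A', t ((1 ⊗ₜ c) * algebraMap A' (A' ⊗[A] B) a) = a := fun a => by
      rw [Algebra.TensorProduct.algebraMap_apply, Algebra.TensorProduct.tmul_mul_tmul, ht]
      simp [hc]
    rw [← h1 a, ← h1 a', haa]
  · intro z hz
    refine ⟨t ((1 ⊗ₜ c) * z), ?_⟩
    rw [ht', map_mul, map_mul, hz, hz, ← add_mul, ← add_mul, ← ht' (1 ⊗ₜ c), ht, hc, one_smul,
      map_one, one_mul]
  · obtain ⟨n, x, y, h1, h2, h3⟩ := h.dual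
    refine ⟨n, fun i => 1 ⊗ₜ x i, fun i => 1 ⊗ₜ y i, ?_, ?_, ?_⟩
    · simp only [Algebra.TensorProduct.tmul_mul_tmul, mul_one]
      rw [← TensorProduct.tmul_sum, h1]
      rfl
    · simp only [baseChange_tmul, Algebra.TensorProduct.tmul_mul_tmul, mul_one]
      rw [← TensorProduct.tmul_sum, h2, TensorProduct.tmul_zero]
    · simp only [baseChange_tmul, Algebra.TensorProduct.tmul_mul_tmul, mul_one]
      rw [← TensorProduct.tmul_sum, h3, TensorProduct.tmul_zero]

theorem nm_one_tmul (h : Gal3 s) (b : B) :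
    (h.tensor A').nm (1 ⊗ₜ b) = algebraMap A A' (h.nm b) := by
  apply (h.tensor A').inj
  rw [(h.tensor A').algebraMap_nm, baseChange_tmul, baseChange_tmul,
    Algebra.TensorProduct.tmul_mul_tmul, Algebra.TensorProduct.tmul_mul_tmul, mul_one, mul_one,
    ← h.algebraMap_nm, Algebra.TensorProduct.algebraMap_apply,
    Algebra.algebraMap_eq_smul_one (R := A) (A := B), ← TensorProduct.smul_tmul,
    Algebra.algebraMap_eq_smul_one (R := A) (A := A')]
  rfl

end Tensor

/-! ### Surjectivity of the norm -/

/-- The norm of a Galois extension of finite rings is surjective on units. -/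
theorem nm_surj_finite (h : Gal3 s) [Finite A] (a : Aˣ) : ∃ b : Bˣ, h.nm b = a := by
  have := h.finite
  have hB : Finite B := Module.finite_of_finite A
  let N : Bˣ →* Aˣ := Units.map h.nm
  let D : Bˣ →* Bˣ :=
    { toFun := fun b => b * (Units.map (s : B →* B) b)⁻¹
      map_one' := by simp
      map_mul' := fun b b' => by
        rw [map_mul, mul_inv]
        exact mul_mul_mul_comm _ _ _ _ }
  have hD : ∀ b : Bˣ, b ∈ D.ker ↔ s b = b := fun b => by
    rw [MonoidHom.mem_ker]
    change b * (Units.map (s : B →* B) b)⁻¹ = 1 ↔ _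
    rw [mul_inv_eq_one, Units.ext_iff]
    exact eq_comm
  have h1 : N.ker ≤ D.range := by
    intro u hu
    rw [MonoidHom.mem_ker] at hu
    have hu' : (u : B) * s u * s (s u) = 1 := by
      rw [← h.algebraMap_nm]
      have : h.nm u = 1 := congrArg Units.val hu
      rw [this, map_one]
    obtain ⟨b, hb⟩ := h.hilbert90 hu'
    refine ⟨b, ?_⟩
    change b * (Units.map (s : B →* B) b)⁻¹ = u
    rw [mul_inv_eq_iff_eq_mul, Units.ext_iff]
    exact hb
  have h2 : Nat.card D.ker = Nat.card Aˣ := by
    refine (Nat.card_congr (Equiv.ofBijective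
      (fun a : Aˣ => (⟨Units.map (algebraMap A B : A →* B) a, ?_⟩ : D.ker)) ⟨?_, ?_⟩)).symm
    · rw [hD]
      exact s.commutes _
    · intro a a' haa
      rw [Subtype.mk.injEq, Units.ext_iff] at haa
      exact Units.ext (h.inj haa)
    · rintro ⟨b, hb⟩
      rw [hD] at hb
      obtain ⟨a, ha⟩ := h.fixed _ hb
      have hb' : s (b⁻¹ : Bˣ) = (b⁻¹ : Bˣ) := by
        have h3 : Units.map (s : B →* B) b = b := Units.ext hb
        have h4 := congrArg (fun z : Bˣ => ((z⁻¹ : Bˣ) : B)) h3
        simpa using h4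
      obtain ⟨a', ha'⟩ := h.fixed _ hb'
      have h5 : a * a' = 1 := by
        apply h.inj
        rw [map_mul, ha, ha', map_one, Units.mul_inv]
      refine ⟨⟨a, a', h5, by rw [mul_comm, h5]⟩, ?_⟩
      rw [Subtype.mk.injEq, Units.ext_iff]
      exact ha
  have h3 : Nat.card N.ker * Nat.card N.range = Nat.card Bˣ := by
    rw [← Subgroup.index_ker, Subgroup.card_mul_index]
  have h4 : Nat.card D.ker * Nat.card D.range = Nat.card Bˣ := by
    rw [← Subgroup.index_ker, Subgroup.card_mul_index]
  have h5 : Nat.card N.ker ≤ Nat.card D.range := Subgroup.card_le_of_le h1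
  have h6 : Nat.card Aˣ ≤ Nat.card N.range := by
    rw [← h2]
    have h7 : 0 < Nat.card D.range := Nat.card_pos
    have h8 : Nat.card D.ker * Nat.card D.range ≤ Nat.card N.range * Nat.card D.range := by
      rw [h4, ← h3, mul_comm]
      exact Nat.mul_le_mul_left _ h5
    exact Nat.le_of_mul_le_mul_right h8 h7
  have h7 : N.range = ⊤ := by
    apply Subgroup.eq_top_of_le_card
    exact h6
  have h8 : a ∈ N.range := by rw [h7]; exact Subgroup.mem_top _
  obtain ⟨b, hb⟩ := h8
  exact ⟨b, congrArg Units.val hb⟩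

end Gal3

/-- a module with a finite dual basis over an adically complete ring is adically complete -/
theorem isAdicComplete_of_dual {R M : Type*} [CommRing R] [AddCommGroup M] [Module R M]
    (I : Ideal R) [IsAdicComplete I R] {n : ℕ} (x : Fin n → M) (φ : Fin n → M →ₗ[R] R)
    (hx : ∀ m, m = ∑ i, φ i m • x i) : IsAdicComplete I M := by
  have hmem : ∀ (k : ℕ) (m : M) (i : Fin n), m ∈ (I ^ k • ⊤ : Submodule R M) →
      φ i m ∈ I ^ k := by
    intro k m i hm
    induction hm using Submodule.smul_induction_on' with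
    | smul r hr n hn =>
      rw [map_smul, smul_eq_mul]
      exact Ideal.mul_mem_right _ _ hr
    | add x hx y hy hx' hy' =>
      rw [map_add]
      exact Ideal.add_mem _ hx' hy'
  refine { haus' := ?_, prec' := ?_ }
  · intro m hm
    rw [hx m]
    refine Finset.sum_eq_zero fun i _ => ?_
    have : φ i m = 0 := by
      apply IsHausdorff.haus (I := I) (M := R) inferInstance
      intro k
      rw [SModEq.zero, smul_eq_mul, Ideal.mul_top]
      apply hmem
      rw [← SModEq.zero]
      exact hm k
    rw [this, zero_smul]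
  · intro f hf
    have : ∀ i, ∃ L : R, ∀ k, φ i (f k) ≡ L [SMOD (I ^ k • ⊤ : Submodule R R)] := by
      intro i
      apply IsPrecomplete.prec (I := I) (M := R) inferInstance
      intro k l hkl
      rw [SModEq.sub_mem, smul_eq_mul, Ideal.mul_top, ← map_sub]
      apply hmem
      rw [← SModEq.sub_mem]
      exact hf hkl
    choose L hL using this
    refine ⟨∑ i, L i • x i, fun k => ?_⟩
    rw [SModEq.sub_mem]
    rw [hx (f k), ← Finset.sum_sub_distrib]
    refine Submodule.sum_mem _ fun i _ => ?_
    rw [← sub_smul]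
    refine Submodule.smul_mem_smul ?_ Submodule.mem_top
    have := hL i k
    rwa [SModEq.sub_mem, smul_eq_mul, Ideal.mul_top] at this

namespace Gal3

variable {A B : Type*} [CommRing A] [CommRing B] [Algebra A B] {s : B ≃ₐ[A] B}

theorem isAdicComplete (h : Gal3 s) (I : Ideal A) [IsAdicComplete I A] : IsAdicComplete I B := by
  obtain ⟨n, x, y, -, hb⟩ := h.sum_dual
  exact isAdicComplete_of_dual I x (fun i => h.tr ∘ₗ LinearMap.mulLeft A (y i)) hb

theorem s_mem (I : Ideal A) {b : B} (hb : b ∈ I.map (algebraMap A B)) :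
    s b ∈ I.map (algebraMap A B) := by
  have h1 := Ideal.mem_map_of_mem (s : B →+* B) hb
  rw [Ideal.map_map] at h1
  have h2 : ((s : B →+* B).comp (algebraMap A B)) = algebraMap A B := by
    ext a
    exact s.commutes a
  rwa [h2] at h1

theorem nm_sub_mem (h : Gal3 s) (I : Ideal A) {b b' : B}
    (hb : b - b' ∈ I.map (algebraMap A B)) : h.nm b - h.nm b' ∈ I := by
  apply h.mem_of_map
  rw [map_sub, h.algebraMap_nm, h.algebraMap_nm]
  have h1 := s_mem (s := s) I hb
  have h2 := s_mem (s := s) I h1
  rw [map_sub] at h1 h2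
  rw [map_sub] at h2
  have : b * s b * s (s b) - b' * s b' * s (s b') =
      (b - b') * (s b * s (s b)) + (s b - s b') * (b' * s (s b)) +
      (s (s b) - s (s b')) * (b' * s b') := by ring
  rw [this]
  exact Ideal.add_mem _ (Ideal.add_mem _ (Ideal.mul_mem_right _ _ hb)
    (Ideal.mul_mem_right _ _ h1)) (Ideal.mul_mem_right _ _ h2)

/-- The norm of a Galois extension of complete rings is surjective on units. -/
theorem nm_surj_complete (h : Gal3 s) (I : Ideal A) [IsAdicComplete I A] [Finite (A ⧸ I)]
    (a : Aˣ) : ∃ b : Bˣ, h.nm b = a := by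
  -- first approximation
  obtain ⟨b₀, hb₀⟩ : ∃ b : B, h.nm b - a ∈ I := by
    obtain ⟨b', hb'⟩ := (h.tensor (A ⧸ I)).nm_surj_finite
      (Units.map (algebraMap A (A ⧸ I) : A →* (A ⧸ I)) a)
    obtain ⟨b, hb⟩ := Algebra.TensorProduct.includeRight_surjective B
      (Ideal.Quotient.mk_surjective (I := I) : Function.Surjective (algebraMap A (A ⧸ I))) b'
    refine ⟨b, ?_⟩
    rw [← Ideal.Quotient.eq]
    rw [← hb] at hb'
    change (h.tensor (A ⧸ I)).nm (1 ⊗ₜ b) = _ at hb'
    rw [h.nm_one_tmul (A ⧸ I) b] at hb'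
    exact hb'
  obtain ⟨c, hc⟩ := h.tr_surj
  -- one step
  have step : ∀ (n : ℕ) (b : B), h.nm b * (a⁻¹ : Aˣ) - 1 ∈ I ^ (n + 1) →
      ∃ b', h.nm b' * (a⁻¹ : Aˣ) - 1 ∈ I ^ (n + 1 + 1) ∧
        b - b' ∈ (I ^ n).map (algebraMap A B) := by
    intro n b hb
    set e := h.nm b * (a⁻¹ : Aˣ) - 1 with he
    obtain ⟨q, hq⟩ := h.fixed (c * s c + s c * s (s c) + s (s c) * c) (by
      simp only [map_add, map_mul, h.cube]; ring)
    have h1 : h.nm (1 - e • c) = 1 - e + e ^ 2 * q - e ^ 3 * h.nm c := by
      apply h.inj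
      have hc' := h.algebraMap_tr c
      rw [hc, map_one] at hc'
      rw [h.algebraMap_nm]
      simp only [map_sub, map_add, map_mul, map_pow, map_one, hq, Algebra.smul_def,
        h.algebraMap_nm, AlgEquiv.commutes]
      linear_combination (algebraMap A B e) * hc'
    refine ⟨b * (1 - e • c), ?_, ?_⟩
    · have h2 : h.nm (b * (1 - e • c)) * (a⁻¹ : Aˣ) - 1 =
          e ^ 2 * (-1 + q - e * h.nm c + e * q - e ^ 2 * h.nm c) := by
        rw [map_mul, h1]
        have h3 : h.nm b * (a⁻¹ : Aˣ) = 1 + e := by rw [he]; ring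
        linear_combination (1 - e + e ^ 2 * q - e ^ 3 * h.nm c) * h3
      rw [h2]
      refine Ideal.mul_mem_right _ _ ?_
      have h3 : e ^ 2 ∈ I ^ ((n + 1) * 2) := by
        rw [pow_mul]
        exact Ideal.pow_mem_pow hb 2
      exact Ideal.pow_le_pow_right (by omega) h3
    · have h2 : b - b * (1 - e • c) = (b * c) * algebraMap A B e := by
        rw [Algebra.smul_def]; ring
      rw [h2]
      refine Ideal.mul_mem_left _ _ (Ideal.mem_map_of_mem _ ?_)
      exact Ideal.pow_le_pow_right (by omega) hb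
  choose! next hnext using step
  let seq : ℕ → B := fun n => Nat.rec b₀ (fun n b => next n b) n
  have hseq : ∀ n, h.nm (seq n) * (a⁻¹ : Aˣ) - 1 ∈ I ^ (n + 1) := by
    intro n
    induction n with
    | zero =>
      have : h.nm (seq 0) * (a⁻¹ : Aˣ) - 1 = (h.nm b₀ - a) * (a⁻¹ : Aˣ) := by
        rw [sub_mul, Units.mul_inv]
        rfl
      rw [this, zero_add, pow_one]
      exact Ideal.mul_mem_right _ _ hb₀
    | succ n ih => exact (hnext n _ ih).1
  have hdiff : ∀ n, seq n - seq (n + 1) ∈ (I ^ n).map (algebraMap A B) := fun n =>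
    (hnext n _ (hseq n)).2
  have hcompl := h.isAdicComplete I
  have hcauchy : AdicCompletion.IsAdicCauchy I B seq := by
    rw [AdicCompletion.isAdicCauchy_iff]
    intro n
    rw [SModEq.sub_mem, ← map_eq_smul_top]
    exact hdiff n
  obtain ⟨L, hL⟩ := IsPrecomplete.prec (I := I) (M := B) inferInstance hcauchy
  have hnmL : h.nm L = a := by
    rw [← sub_eq_zero]
    apply IsHausdorff.haus (I := I) (M := A) inferInstance
    intro n
    rw [SModEq.zero, smul_eq_mul, Ideal.mul_top]
    have h1 : seq n - L ∈ (I ^ n).map (algebraMap A B) := by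
      have := hL n
      rw [SModEq.sub_mem, ← map_eq_smul_top] at this
      exact this
    have h2 := h.nm_sub_mem _ h1
    have h3 : h.nm (seq n) - a ∈ I ^ n := by
      have : h.nm (seq n) - a = (h.nm (seq n) * (a⁻¹ : Aˣ) - 1) * a := by
        rw [sub_mul, mul_assoc, Units.inv_mul]
        ring
      rw [this]
      exact Ideal.mul_mem_right _ _ (Ideal.pow_le_pow_right (by omega) (hseq n))
    have := Ideal.sub_mem _ h3 h2
    simpa using this
  have hunit : IsUnit L := by
    rw [h.isUnit_iff, hnmL]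
    exact a.isUnit
  exact ⟨hunit.unit, hnmL⟩

/-! ### Hilbert's theorem 90 for `GL₂` over a local base -/

open Matrix in
/-- **Hilbert's theorem 90** for `GL₂` over local rings. -/
theorem hilbert90_two (h : Gal3 s) [IsLocalRing A] {k : Matrix (Fin 2) (Fin 2) B}
    (hk : k * k.map s * (k.map s).map s = 1) :
    ∃ m : Matrix (Fin 2) (Fin 2) B, IsUnit m.det ∧ m = k * m.map s := by
  obtain ⟨n, x, y, ⟨h1, h2, h3⟩, -⟩ := h.sum_dual
  have hmul : ∀ m m' : Matrix (Fin 2) (Fin 2) B, (m * m').map s = m.map s * m'.map s :=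
    fun m m' => Matrix.map_mul
  have hcube : ∀ m : Matrix (Fin 2) (Fin 2) B, ((m.map s).map s).map s = m := fun m => by
    ext i j; simp [h.cube]
  let T : Matrix (Fin 2) (Fin 2) B → Matrix (Fin 2) (Fin 2) B := fun m =>
    m + k * m.map s + k * k.map s * (m.map s).map s
  have hT : ∀ m, T m = k * (T m).map s := by
    intro m
    have : (T m).map s = m.map s + k.map s * (m.map s).map s +
        k.map s * (k.map s).map s * m := by
      have h4 : ∀ m m' : Matrix (Fin 2) (Fin 2) B, (m + m').map s = m.map s + m'.map s :=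
        fun m m' => by ext i j; simp
      simp only [T, h4, hmul, hcube]
    rw [this, Matrix.mul_add, Matrix.mul_add, ← Matrix.mul_assoc, ← Matrix.mul_assoc,
      ← Matrix.mul_assoc, hk, Matrix.one_mul]
    simp only [T]
    abel
  -- columns
  let P : Fin n → Fin 2 → B := fun i j => T (Matrix.diagonal ![y i, 0]) j 0
  let Q : Fin n → Fin 2 → B := fun i j => T (Matrix.diagonal ![0, y i]) j 1
  have hdiag : ∀ a b : B, ((Matrix.diagonal ![a, b]) : Matrix (Fin 2) (Fin 2) B).map s =
      Matrix.diagonal ![s a, s b] := fun a b => by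
    ext i j
    fin_cases i <;> fin_cases j <;> simp [Matrix.diagonal]
  have hT0 : ∀ (a b : B) (j : Fin 2), T (Matrix.diagonal ![a, b]) j 0 =
      (if j = 0 then 1 else 0) * a + k j 0 * s a + (k * k.map s) j 0 * s (s a) := fun a b j => by
    simp only [T, hdiag, Matrix.add_apply, Matrix.mul_diagonal]
    fin_cases j <;> simp
  have hT1 : ∀ (a b : B) (j : Fin 2), T (Matrix.diagonal ![a, b]) j 1 =
      (if j = 1 then 1 else 0) * b + k j 1 * s b + (k * k.map s) j 1 * s (s b) := fun a b j => by
    simp only [T, hdiag, Matrix.add_apply, Matrix.mul_diagonal]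
    fin_cases j <;> simp
  have hcomb : ∀ α β γ : B, ∑ i, x i * (α * y i + β * s (y i) + γ * s (s (y i))) = α := by
    intro α β γ
    have : ∑ i, x i * (α * y i + β * s (y i) + γ * s (s (y i))) =
        α * (∑ i, x i * y i) + β * (∑ i, x i * s (y i)) + γ * (∑ i, x i * s (s (y i))) := by
      rw [Finset.mul_sum, Finset.mul_sum, Finset.mul_sum, ← Finset.sum_add_distrib,
        ← Finset.sum_add_distrib]
      exact Finset.sum_congr rfl fun i _ => by ring
    rw [this, h1, h2, h3]
    ring
  have hP : ∀ j, ∑ i, x i * P i j = if j = 0 then 1 else 0 := by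
    intro j
    simp only [P, hT0]
    exact hcomb _ _ _
  have hQ : ∀ j, ∑ i, x i * Q i j = if j = 1 then 1 else 0 := by
    intro j
    simp only [Q, hT1]
    exact hcomb _ _ _
  have hdet : ∀ i i', (T (Matrix.diagonal ![y i, y i'])).det =
      P i 0 * Q i' 1 - Q i' 0 * P i 1 := by
    intro i i'
    rw [Matrix.det_fin_two]
    simp only [P, Q, hT0, hT1]
  have hsum : ∑ i, ∑ i', x i * x i' * (T (Matrix.diagonal ![y i, y i'])).det = 1 := by
    have : ∑ i, ∑ i', x i * x i' * (T (Matrix.diagonal ![y i, y i'])).det =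
        (∑ i, x i * P i 0) * (∑ i', x i' * Q i' 1) - (∑ i', x i' * Q i' 0) * (∑ i, x i * P i 1) := by
      rw [Finset.sum_mul_sum, mul_comm, Finset.sum_mul_sum, ← Finset.sum_sub_distrib]
      refine Finset.sum_congr rfl fun i _ => ?_
      rw [← Finset.sum_sub_distrib]
      refine Finset.sum_congr rfl fun i' _ => ?_
      rw [hdet]
      ring
    rw [this, hP, hQ, hP, hQ]
    simp
  obtain ⟨N, hN, hNm⟩ := h.exists_maximal_over (IsLocalRing.maximalIdeal A)
  have hN' := hN.isPrime
  obtain ⟨i, i', hi⟩ : ∃ i i', (T (Matrix.diagonal ![y i, y i'])).det ∉ N := by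
    by_contra hcon
    push Not at hcon
    apply hN.ne_top
    rw [Ideal.eq_top_iff_one, ← hsum]
    exact Ideal.sum_mem _ fun i _ => Ideal.sum_mem _ fun i' _ =>
      Ideal.mul_mem_left _ _ (hcon i i')
  refine ⟨T (Matrix.diagonal ![y i, y i']), ?_, hT _⟩
  have hd : (T (Matrix.diagonal ![y i, y i'])).det =
      k.det * s (T (Matrix.diagonal ![y i, y i'])).det := by
    have := congrArg Matrix.det (hT (Matrix.diagonal ![y i, y i']))
    rw [Matrix.det_mul] at this
    rw [AlgEquiv.map_det]
    exact this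
  rw [h.isUnit_iff]
  rw [← h.nm_mem_iff hd N, hNm] at hi
  simpa using hi

/-! ### Descent -/

/-- descent for modules with a semilinear action -/
theorem descent (h : Gal3 s) {V : Type*} [AddCommGroup V] [Module B V] (τ : V →+ V)
    (hτ : ∀ (b : B) (v : V), τ (b • v) = s b • τ v) (h3 : ∀ v, τ (τ (τ v)) = v) (v : V) :
    v ∈ Submodule.span B {w : V | τ w = w} := by
  obtain ⟨n, x, y, ⟨h1, h2, h3'⟩, -⟩ := h.sum_dual
  have : v = ∑ i, x i • (y i • v + τ (y i • v) + τ (τ (y i • v))) := by
    simp only [hτ, smul_add, Finset.sum_add_distrib, smul_smul, ← Finset.sum_smul, h1, h2, h3',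
      one_smul, zero_smul, add_zero]
  rw [this]
  refine Submodule.sum_mem _ fun i _ => Submodule.smul_mem _ _ (Submodule.subset_span ?_)
  simp only [Set.mem_ofPred_eq, map_add, h3]
  abel

end Gal3

end Fermat.Agent.LT.Loc
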