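import Fermat.Agent.LT.Loc.Prod

/-!
# Local matching at the split places

`G = H × H × H` with the cyclic shift `σ`, `K = K' × K' × K'`; the function
`f₁ ⊗ f₂ ⊗ f₃` on `G` matches the convolution `f₁ * f₂ * f₃` on `H`.
-/

set_option autoImplicit false

universe u

namespace Fermat.Agent.LT.Loc

section Conv

variable {H : Type u} [Group H] {K : Subgroup H}

theorem BiInv.mul_right (F : BiInv K) (x : H) {k : H} (hk : k ∈ K) : F.f (x * k) = F.f x := by
  have := F.inv 1 K.one_mem k hk x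
  rwa [one_mul] at this

theorem BiInv.mul_left (F : BiInv K) (x : H) {k : H} (hk : k ∈ K) : F.f (k * x) = F.f x := by
  have := F.inv k hk 1 K.one_mem x
  rwa [mul_one] at this

/-- the function `a ↦ f (a⁻¹ x)` paired with `f'` -/
def BiInv.convAux (F F' : BiInv K) (x : H) : H ⧸ K → ℂ := fun a =>
  Quotient.liftOn' a (fun a => F.f a * F'.f (a⁻¹ * x)) (by
    intro a b hab
    rw [QuotientGroup.leftRel_apply] at hab
    have h1 : b = a * (a⁻¹ * b) := by group
    have h2 : b⁻¹ * x = (a⁻¹ * b)⁻¹ * (a⁻¹ * x) := by group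
    change F.f a * F'.f (a⁻¹ * x) = F.f b * F'.f (b⁻¹ * x)
    rw [h2, F'.mul_left _ (K.inv_mem hab)]
    congr 1
    conv_rhs => rw [h1]
    rw [F.mul_right _ hab])

theorem BiInv.convAux_mk (F F' : BiInv K) (x a : H) :
    F.convAux F' x (a : H ⧸ K) = F.f a * F'.f (a⁻¹ * x) := rfl

/-- convolution -/
noncomputable def BiInv.conv (F F' : BiInv K) : BiInv K where
  f x := ∑ᶠ a : H ⧸ K, F.convAux F' x a
  inv k hk k' hk' x := by
    rw [← finsum_comp_equiv (MulAction.toPerm k : Equiv.Perm (H ⧸ K))]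
    refine finsum_congr fun a => ?_
    induction a using QuotientGroup.induction_on with
    | H a =>
    change F.convAux F' (k * x * k') ((k * a : H) : H ⧸ K) = _
    rw [BiInv.convAux_mk, BiInv.convAux_mk, F.mul_left _ hk]
    have h1 : (k * a)⁻¹ * (k * x * k') = a⁻¹ * x * k' := by group
    rw [h1, F'.mul_right _ hk']

theorem BiInv.conv_f (F F' : BiInv K) (x : H) :
    (F.conv F').f x = ∑ᶠ a : H ⧸ K, F.convAux F' x a := rfl

/-- finite support modulo `K` -/
def BiInv.Fin (F : BiInv K) : Prop := {y : H ⧸ K | ∃ a : H, (a : H ⧸ K) = y ∧ F.f a ≠ 0}.Finite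

theorem BiInv.Fin.finite (F : BiInv K) (hF : F.Fin) (d x : H) :
    {y : H ⧸ K | ∃ a : H, (a : H ⧸ K) = y ∧ F.f (x⁻¹ * d * a) ≠ 0}.Finite := by
  refine (hF.image (fun y => (d⁻¹ * x) • y)).subset ?_
  rintro _ ⟨a, rfl, ha⟩
  refine ⟨((x⁻¹ * d * a : H) : H ⧸ K), ⟨_, rfl, ha⟩, ?_⟩
  change (((d⁻¹ * x) * (x⁻¹ * d * a) : H) : H ⧸ K) = _
  congr 1
  group

end Conv

section Split

variable {G H : Type u} [Group G] [Group H]

/-- `G = H × H × H` with the cyclic shift `σ` -/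
structure Split3 (σ : G →* G) (ι : H →* G) (π : G →* H) : Prop where
  cube : ∀ g, σ (σ (σ g)) = g
  fix : ∀ h, σ (ι h) = ι h
  ret : ∀ h, π (ι h) = h
  inj : ∀ g g', π g = π g' → π (σ g) = π (σ g') → π (σ (σ g)) = π (σ (σ g')) → g = g'
  surj : ∀ a b c, ∃ g, π g = a ∧ π (σ g) = b ∧ π (σ (σ g)) = c

variable {σ : G →* G} {ι : H →* G} {π : G →* H} {K : Subgroup G} {K' : Subgroup H}

/-- `K = K' × K' × K'` -/
def IsProd3 (σ : G →* G) (π : G →* H) (K : Subgroup G) (K' : Subgroup H) : Prop :=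
  ∀ g, g ∈ K ↔ π g ∈ K' ∧ π (σ g) ∈ K' ∧ π (σ (σ g)) ∈ K'

theorem IsProd3.stable (S : Split3 σ ι π) (hK : IsProd3 σ π K K') : ∀ k ∈ K, σ k ∈ K := by
  intro k hk
  obtain ⟨h1, h2, h3⟩ := (hK k).1 hk
  exact (hK _).2 ⟨h2, h3, by rwa [S.cube]⟩

/-- the function `f₁ ⊗ f₂ ⊗ f₃` -/
def tens3 (hK : IsProd3 σ π K K') (F₁ F₂ F₃ : BiInv K') : BiInv K where
  f g := F₁.f (π g) * F₂.f (π (σ g)) * F₃.f (π (σ (σ g)))
  inv k hk k' hk' y := by
    obtain ⟨h1, h2, h3⟩ := (hK k).1 hk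
    obtain ⟨h1', h2', h3'⟩ := (hK k').1 hk'
    simp only [map_mul]
    rw [F₁.inv _ h1 _ h1', F₂.inv _ h2 _ h2', F₃.inv _ h3 _ h3']

theorem tens3_f (hK : IsProd3 σ π K K') (F₁ F₂ F₃ : BiInv K') (g : G) :
    (tens3 hK F₁ F₂ F₃).f g = F₁.f (π g) * F₂.f (π (σ g)) * F₃.f (π (σ (σ g))) := rfl

/-- the first projection `G ⧸ K → H ⧸ K'` -/
def proj3 (hK : IsProd3 σ π K K') : G ⧸ K → H ⧸ K' := fun y =>
  Quotient.liftOn' y (fun g => ((π g : H) : H ⧸ K')) (by
    intro a b hab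
    rw [QuotientGroup.leftRel_apply] at hab
    refine QuotientGroup.eq.2 ?_
    rw [← map_inv, ← map_mul]
    exact ((hK _).1 hab).1)

theorem proj3_mk (hK : IsProd3 σ π K K') (g : G) :
    proj3 hK (g : G ⧸ K) = ((π g : H) : H ⧸ K') := rfl

/-- the second projection -/
def proj3' (hK : IsProd3 σ π K K') : G ⧸ K → H ⧸ K' := fun y =>
  Quotient.liftOn' y (fun g => ((π (σ g) : H) : H ⧸ K')) (by
    intro a b hab
    rw [QuotientGroup.leftRel_apply] at hab
    refine QuotientGroup.eq.2 ?_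
    rw [← map_inv, ← map_mul, ← map_inv, ← map_mul]
    exact ((hK _).1 hab).2.1)

theorem proj3'_mk (hK : IsProd3 σ π K K') (g : G) :
    proj3' hK (g : G ⧸ K) = ((π (σ g) : H) : H ⧸ K') := rfl

/-- the third projection -/
def proj3'' (hK : IsProd3 σ π K K') : G ⧸ K → H ⧸ K' := fun y =>
  Quotient.liftOn' y (fun g => ((π (σ (σ g)) : H) : H ⧸ K')) (by
    intro a b hab
    rw [QuotientGroup.leftRel_apply] at hab
    refine QuotientGroup.eq.2 ?_
    rw [← map_inv, ← map_mul, ← map_inv, ← map_mul, ← map_inv, ← map_mul]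
    exact ((hK _).1 hab).2.2)

theorem proj3''_mk (hK : IsProd3 σ π K K') (g : G) :
    proj3'' hK (g : G ⧸ K) = ((π (σ (σ g)) : H) : H ⧸ K') := rfl

/-- `G ⧸ K = (H ⧸ K')³` -/
theorem proj3_bijective (S : Split3 σ ι π) (hK : IsProd3 σ π K K') :
    Function.Bijective (fun y : G ⧸ K => (proj3 hK y, proj3' hK y, proj3'' hK y)) := by
  constructor
  · intro a b hab
    induction a using QuotientGroup.induction_on with
    | H a =>
    induction b using QuotientGroup.induction_on with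
    | H b =>
    simp only [proj3_mk, proj3'_mk, proj3''_mk, Prod.mk.injEq, QuotientGroup.eq] at hab
    refine QuotientGroup.eq.2 ((hK _).2 ?_)
    simpa only [map_mul, map_inv] using hab
  · rintro ⟨a, b, c⟩
    induction a using QuotientGroup.induction_on with
    | H a =>
    induction b using QuotientGroup.induction_on with
    | H b =>
    induction c using QuotientGroup.induction_on with
    | H c =>
    obtain ⟨g, rfl, rfl, rfl⟩ := S.surj a b c
    exact ⟨(g : G ⧸ K), rfl⟩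


variable {T : Type*} [Group T] [MulAction T (G ⧸ K)] [MulAction T (H ⧸ K')]

theorem tens3_tw_mk (S : Split3 σ ι π) (hK : IsProd3 σ π K K') (F₁ F₂ F₃ : BiInv K') (X g : G) :
    (tens3 hK F₁ F₂ F₃).tw σ (hK.stable S) X (g : G ⧸ K) =
      F₁.f ((π g)⁻¹ * π X * π (σ g)) * F₂.f ((π (σ g))⁻¹ * π (σ X) * π (σ (σ g))) *
        F₃.f ((π (σ (σ g)))⁻¹ * π (σ (σ X)) * π g) := by
  rw [BiInv.tw_mk, tens3_f]
  simp only [map_mul, map_inv, S.cube]

omit [MulAction T (H ⧸ K')] in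
theorem tens3_tw_smul (S : Split3 σ ι π) (hK : IsProd3 σ π K K') (F₁ F₂ F₃ : BiInv K') (j : T →* H)
    (hact : ∀ (t : T) (g : G), t • (g : G ⧸ K) = ((ι (j t) * g : G) : G ⧸ K)) (X : G)
    (htor : ∀ t : T, ι (j t) * X = X * ι (j t)) (t : T) (y : G ⧸ K) :
    (tens3 hK F₁ F₂ F₃).tw σ (hK.stable S) X (t • y) =
      (tens3 hK F₁ F₂ F₃).tw σ (hK.stable S) X y := by
  induction y using QuotientGroup.induction_on with
  | H y =>
  rw [hact, BiInv.tw_mk, BiInv.tw_mk]
  congr 1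
  rw [map_mul, S.fix, mul_inv_rev]
  calc y⁻¹ * (ι (j t))⁻¹ * X * (ι (j t) * σ y) = y⁻¹ * (ι (j t))⁻¹ * (X * ι (j t)) * σ y := by
        group
    _ = y⁻¹ * X * σ y := by rw [← htor]; group

/-- **Matching at the split places**, with the base points -/
theorem split_corr_good (S : Split3 σ ι π) (hK : IsProd3 σ π K K') (F₁ F₂ F₃ : BiInv K')
    (h₁ : F₁.Fin) (h₂ : F₂.Fin) (j : T →* H)
    (hact : ∀ (t : T) (g : G), t • (g : G ⧸ K) = ((ι (j t) * g : G) : G ⧸ K))
    (hact' : ∀ (t : T) (h : H), t • (h : H ⧸ K') = ((j t * h : H) : H ⧸ K'))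
    (γ : H) (X : G) (hnorm : X * σ X * σ (σ X) = ι γ)
    (htor : ∀ t : T, ι (j t) * X = X * ι (j t)) :
    ∃ C : LocalCorr.{u} T (G ⧸ K) (H ⧸ K') ((tens3 hK F₁ F₂ F₃).tw σ (hK.stable S) X)
      ((F₁.conv (F₂.conv F₃)).tw (MonoidHom.id H) (fun _ h => h) γ), C.NC ∧ (
      (∀ a ∈ K', F₁.f a = 1 ∧ F₂.f a = 1 ∧ F₃.f a = 1) →
      (∀ a, F₁.f a ≠ 0 → a ∈ K') → (∀ a, F₃.f a ≠ 0 → a ∈ K') → X ∈ K →
      C.Based ((1 : G) : G ⧸ K) ((1 : H) : H ⧸ K')) := by
  classical
  have hγ : π X * π (σ X) * π (σ (σ X)) = γ := by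
    rw [← map_mul, ← map_mul, hnorm, S.ret]
  set φ := (tens3 hK F₁ F₂ F₃).tw σ (hK.stable S) X with hφ
  have hsm := tens3_tw_smul S hK F₁ F₂ F₃ j hact X htor
  rw [← hφ] at hsm
  let Z := {y : G ⧸ K // φ y ≠ 0}
  let act : MulAction T Z :=
    { smul := fun t z => ⟨t • z.1, by rw [hsm]; exact z.2⟩
      one_smul := fun z => Subtype.ext (one_smul T z.1)
      mul_smul := fun t t' z => Subtype.ext (mul_smul t t' z.1) }
  -- the coordinates
  let E : G ⧸ K → (H ⧸ K') × (H ⧸ K') := fun y => (proj3' hK y, proj3'' hK y)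
  have hE : ∀ a b : G ⧸ K, proj3 hK a = proj3 hK b → E a = E b → a = b := fun a b h1 h2 =>
    (proj3_bijective S hK).1 (Prod.ext h1 h2)
  -- finiteness of the fibres
  have hfin : ∀ y : H ⧸ K', {b : (H ⧸ K') × (H ⧸ K') | ∃ z : G ⧸ K, proj3 hK z = y ∧ φ z ≠ 0 ∧
      E z = b}.Finite := by
    intro y
    induction y using QuotientGroup.induction_on with
    | H g₀ =>
    have f1 := h₁.finite F₁ (π X) g₀
    have f2 : ∀ b : H ⧸ K', {c : H ⧸ K' | ∃ b' c' : H, (b' : H ⧸ K') = b ∧ (c' : H ⧸ K') = c ∧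
        F₂.f (b'⁻¹ * π (σ X) * c') ≠ 0}.Finite := by
      intro b
      induction b using QuotientGroup.induction_on with
      | H b =>
      refine (h₂.finite F₂ (π (σ X)) b).subset ?_
      rintro _ ⟨b', c', hb, rfl, h⟩
      refine ⟨c', rfl, ?_⟩
      have h1 : b'⁻¹ * b ∈ K' := QuotientGroup.eq.1 hb
      have h2 : b⁻¹ * π (σ X) * c' = (b'⁻¹ * b)⁻¹ * (b'⁻¹ * π (σ X) * c') := by group
      rw [h2, F₂.mul_left _ (K'.inv_mem h1)]
      exact h
    refine ((f1.biUnion fun b _ => (f2 b).image fun c => (b, c))).subset ?_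
    rintro _ ⟨z, hz, hne, rfl⟩
    induction z using QuotientGroup.induction_on with
    | H g =>
    rw [hφ, tens3_tw_mk S] at hne
    have e1 := left_ne_zero_of_mul (left_ne_zero_of_mul hne)
    have e2 := right_ne_zero_of_mul (left_ne_zero_of_mul hne)
    rw [proj3_mk] at hz
    have h1 : (π g)⁻¹ * g₀ ∈ K' := QuotientGroup.eq.1 hz
    rw [Set.mem_iUnion₂]
    refine ⟨((π (σ g) : H) : H ⧸ K'), ⟨π (σ g), rfl, ?_⟩, ((π (σ (σ g)) : H) : H ⧸ K'), ?_, rfl⟩
    · have h2 : g₀⁻¹ * π X * π (σ g) = ((π g)⁻¹ * g₀)⁻¹ * ((π g)⁻¹ * π X * π (σ g)) := by group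
      rw [h2, F₁.mul_left _ (K'.inv_mem h1)]
      exact e1
    · exact ⟨_, _, rfl, rfl, e2⟩
  refine ⟨{ Z := Z
            act := act
            p := fun z => z.1
            q := fun z => proj3 hK z.1
            p_smul := fun t z => rfl
            q_smul := ?_
            w := fun z => φ z.1
            w_smul := fun t z => hsm t z.1
            fin_p := fun y => Set.Subsingleton.finite fun a ha b hb => Subtype.ext (ha.trans hb.symm)
            fin_q := ?_
            sum_p := ?_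
            sum_q := ?_ }, ?_, ?_⟩
  · rintro t ⟨y, hy⟩
    change proj3 hK (t • y) = t • proj3 hK y
    clear hy
    induction y using QuotientGroup.induction_on with
    | H g => rw [hact, proj3_mk, proj3_mk, hact', map_mul, S.ret]
  · intro y
    refine Set.Finite.of_finite_image (f := fun z : Z => E z.1) ((hfin y).subset ?_) ?_
    · rintro _ ⟨z, hz, rfl⟩
      exact ⟨z.1, hz, z.2, rfl⟩
    · intro a ha b hb hab
      exact Subtype.ext (hE _ _ ((show proj3 hK a.1 = y from ha).trans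
        (show proj3 hK b.1 = y from hb).symm) hab)
  · intro y
    by_cases hy : φ y = 0
    · rw [hy]
      apply finsum_mem_eq_zero_of_forall_eq_zero
      rintro ⟨z, hz⟩ h
      exact absurd (show φ z = 0 by rw [show z = y from h, hy]) hz
    · have h1 : {z : Z | z.1 = y} = {⟨y, hy⟩} := by
        ext z
        simp only [Set.mem_ofPred_eq, Set.mem_singleton_iff]
        exact ⟨fun h => Subtype.ext h, fun h => by rw [h]⟩
      rw [h1, finsum_mem_singleton]
  · intro y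
    induction y using QuotientGroup.induction_on with
    | H g₀ =>
    -- the function on pairs
    let ψ : (H ⧸ K') × (H ⧸ K') → ℂ := fun b =>
      if h : ∃ z : G ⧸ K, proj3 hK z = (g₀ : H ⧸ K') ∧ E z = b then φ h.choose else 0
    have hψ : ∀ z : G ⧸ K, proj3 hK z = (g₀ : H ⧸ K') → ψ (E z) = φ z := by
      intro z hz
      have h : ∃ z' : G ⧸ K, proj3 hK z' = (g₀ : H ⧸ K') ∧ E z' = E z := ⟨z, hz, rfl⟩
      change (if h : ∃ z' : G ⧸ K, proj3 hK z' = (g₀ : H ⧸ K') ∧ E z' = E z then φ h.choose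
        else 0) = _
      rw [dif_pos h, hE _ _ (h.choose_spec.1.trans hz.symm) h.choose_spec.2]
    have hsupp : ψ.support.Finite := by
      refine (hfin (g₀ : H ⧸ K')).subset ?_
      intro b hb
      by_cases h : ∃ z : G ⧸ K, proj3 hK z = (g₀ : H ⧸ K') ∧ E z = b
      · obtain ⟨z, hz, rfl⟩ := h
        refine ⟨z, hz, ?_, rfl⟩
        rw [← hψ z hz]
        exact hb
      · exact absurd (dif_neg h) hb
    have hL : ∑ᶠ z ∈ {z : Z | proj3 hK z.1 = (g₀ : H ⧸ K')}, φ z.1 = ∑ᶠ b, ψ b := by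
      rw [← finsum_mem_support ψ]
      refine finsum_mem_eq_of_bijOn (fun z : Z => E z.1) ⟨?_, ?_, ?_⟩ fun z hz => (hψ z.1 hz).symm
      · intro z hz
        change ψ (E z.1) ≠ 0
        rw [hψ z.1 hz]
        exact z.2
      · intro a ha b hb hab
        exact Subtype.ext (hE _ _ ((show proj3 hK a.1 = _ from ha).trans
          (show proj3 hK b.1 = _ from hb).symm) hab)
      · intro b hb
        by_cases h : ∃ z : G ⧸ K, proj3 hK z = (g₀ : H ⧸ K') ∧ E z = b
        · obtain ⟨z, hz, rfl⟩ := h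
          exact ⟨⟨z, by rw [← hψ z hz]; exact hb⟩, hz, rfl⟩
        · exact absurd (dif_neg h) hb
    rw [hL, BiInv.tw_mk, MonoidHom.id_apply, BiInv.conv_f, finsum_curry _ hsupp]
    conv_rhs =>
      rw [← finsum_comp_equiv (MulAction.toPerm (g₀⁻¹ * π X) : Equiv.Perm (H ⧸ K'))]
    refine finsum_congr fun b => ?_
    induction b using QuotientGroup.induction_on with
    | H b =>
    change _ = F₁.convAux (F₂.conv F₃) (g₀⁻¹ * γ * g₀) ((g₀⁻¹ * π X * b : H) : H ⧸ K')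
    rw [BiInv.convAux_mk, BiInv.conv_f, mul_finsum]
    conv_rhs =>
      rw [← finsum_comp_equiv (MulAction.toPerm (b⁻¹ * π (σ X)) : Equiv.Perm (H ⧸ K'))]
    refine finsum_congr fun c => ?_
    induction c using QuotientGroup.induction_on with
    | H c =>
    change _ = _ * F₂.convAux F₃ _ ((b⁻¹ * π (σ X) * c : H) : H ⧸ K')
    obtain ⟨g, hg1, hg2, hg3⟩ := S.surj g₀ b c
    have h1 : ((b : H ⧸ K'), (c : H ⧸ K')) = E (g : G ⧸ K) := by
      change _ = (((π (σ g) : H) : H ⧸ K'), ((π (σ (σ g)) : H) : H ⧸ K'))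
      rw [hg2, hg3]
    rw [h1, hψ _ (by rw [proj3_mk, hg1]), hφ, tens3_tw_mk S, hg1, hg2, hg3, BiInv.convAux_mk,
      ← mul_assoc]
    congr 2
    rw [← hγ]
    group
  · intro y
    change ∑ᶠ z ∈ {z : Z | z.1 = y}, ‖φ z.1‖ = ‖φ y‖
    by_cases hy : φ y = 0
    · rw [hy, norm_zero]
      apply finsum_mem_eq_zero_of_forall_eq_zero
      rintro ⟨z, hz⟩ h
      exact absurd (show φ z = 0 by rw [show z = y from h, hy]) hz
    · have h1 : {z : Z | z.1 = y} = {⟨y, hy⟩} := by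
        ext z
        simp only [Set.mem_ofPred_eq, Set.mem_singleton_iff]
        exact ⟨fun h => Subtype.ext h, fun h => by rw [h]⟩
      rw [h1, finsum_mem_singleton]
  · intro hF hF₁ hF₃ hX
    obtain ⟨hX1, hX2, hX3⟩ := (hK X).1 hX
    have hone : φ ((1 : G) : G ⧸ K) = 1 := by
      rw [hφ, tens3_tw_mk S]
      simp only [map_one, inv_one, one_mul, mul_one]
      rw [(hF _ hX1).1, (hF _ hX2).2.1, (hF _ hX3).2.2]
      norm_num
    have hne : φ ((1 : G) : G ⧸ K) ≠ 0 := by rw [hone]; exact one_ne_zero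
    refine ⟨⟨((1 : G) : G ⧸ K), hne⟩, rfl, congrArg (fun x : H => (x : H ⧸ K')) (map_one π), hone,
      fun z h => Subtype.ext h, fun z => ?_⟩
    rintro (h : proj3 hK z.1 = ((1 : H) : H ⧸ K'))
    refine Subtype.ext ?_
    change z.1 = ((1 : G) : G ⧸ K)
    have hz := z.2
    generalize z.1 = y at h hz
    induction y using QuotientGroup.induction_on with
    | H g =>
    rw [hφ, tens3_tw_mk S] at hz
    rw [proj3_mk, QuotientGroup.eq, mul_one] at h
    have h1 : π g ∈ K' := by simpa using K'.inv_mem h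
    have e1 := hF₁ _ (left_ne_zero_of_mul (left_ne_zero_of_mul hz))
    have e3 := hF₃ _ (right_ne_zero_of_mul hz)
    refine QuotientGroup.eq.2 ?_
    rw [mul_one]
    refine K.inv_mem ((hK g).2 ⟨h1, ?_, ?_⟩)
    · have h2 : π (σ g) = (π X)⁻¹ * π g * ((π g)⁻¹ * π X * π (σ g)) := by group
      rw [h2]
      exact K'.mul_mem (K'.mul_mem (K'.inv_mem hX1) h1) e1
    · have h2 : π (σ (σ g)) = π (σ (σ X)) * π g * ((π (σ (σ g)))⁻¹ * π (σ (σ X)) * π g)⁻¹ := by
        group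
      rw [h2]
      exact K'.mul_mem (K'.mul_mem hX3 h1) (K'.inv_mem e3)

/-- **Matching at the split places** -/
theorem split_corr (S : Split3 σ ι π) (hK : IsProd3 σ π K K') (F₁ F₂ F₃ : BiInv K')
    (h₁ : F₁.Fin) (h₂ : F₂.Fin) (j : T →* H)
    (hact : ∀ (t : T) (g : G), t • (g : G ⧸ K) = ((ι (j t) * g : G) : G ⧸ K))
    (hact' : ∀ (t : T) (h : H), t • (h : H ⧸ K') = ((j t * h : H) : H ⧸ K'))
    (γ : H) (X : G) (hnorm : X * σ X * σ (σ X) = ι γ)
    (htor : ∀ t : T, ι (j t) * X = X * ι (j t)) :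
    Nonempty (LocalCorr.{u} T (G ⧸ K) (H ⧸ K') ((tens3 hK F₁ F₂ F₃).tw σ (hK.stable S) X)
      ((F₁.conv (F₂.conv F₃)).tw (MonoidHom.id H) (fun _ h => h) γ)) :=
  ⟨(split_corr_good.{u} S hK F₁ F₂ F₃ h₁ h₂ j hact hact' γ X hnorm htor).choose⟩

end Split

end Fermat.Agent.LT.Loc
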