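import Fermat.Agent.LT.Loc.Match

/-!
# Restricted products of local correspondences
-/

set_option autoImplicit false

universe u u'

namespace Fermat.Agent.LT.Loc

open Filter

section Fibre

variable {ι : Type u'} {Z : ι → Type u} {Y : ι → Type*} {M : Type*} [CommSemiring M]

open Classical in
/-- fibres of products -/
theorem sum_fibre (p : ∀ v, Z v → Y v) (w : ∀ v, Z v → M) (φ : ∀ v, Y v → M)
    (hfin : ∀ v y, {z | p v z = y}.Finite)
    (hsum : ∀ v y, ∑ᶠ z ∈ {z | p v z = y}, w v z = φ v y)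
    (P : (∀ v, Z v) → Prop) (d : ∀ v, Y v) (S : Finset ι)
    (hS : ∀ v, v ∉ S → ∃ z₀ : Z v, w v z₀ = 1 ∧ ∀ z, p v z = d v ↔ z = z₀)
    (hP : ∀ z : ∀ v, Z v, (∀ v, p v (z v) = d v) → P z) :
    {z : {z // P z} | ∀ v, p v (z.1 v) = d v}.Finite ∧
      ∑ᶠ z ∈ {z : {z // P z} | ∀ v, p v (z.1 v) = d v}, ∏ᶠ v, w v (z.1 v) = ∏ᶠ v, φ v (d v) := by
  have hz : ∀ v, v ∉ S → ∃ z₀ : Z v, w v z₀ = 1 ∧ ∀ z, p v z = d v ↔ z = z₀ := hS
  choose! z₀ hz₀w hz₀ using hz
  -- extension by the base points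
  let t : ∀ v : S, Finset (Z v) := fun v => (hfin v (d v)).toFinset
  let ext : (∀ v : S, Z v) → ∀ v, Z v := fun x v => if h : v ∈ S then x ⟨v, h⟩ else z₀ v h
  have ext1 : ∀ (x : ∀ v : S, Z v) (v : ι) (h : v ∈ S), ext x v = x ⟨v, h⟩ := fun x v h => dif_pos h
  have ext2 : ∀ (x : ∀ v : S, Z v) (v : ι) (h : v ∉ S), ext x v = z₀ v h := fun x v h => dif_neg h
  have hext : ∀ x ∈ Fintype.piFinset t, ∀ v, p v (ext x v) = d v := by
    intro x hx v
    by_cases h : v ∈ S
    · rw [ext1 x v h]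
      have := (Fintype.mem_piFinset.1 hx) ⟨v, h⟩
      simpa [t] using this
    · rw [ext2 x v h]
      exact (hz₀ v h _).2 rfl
  have hbij : Set.BijOn (fun z : {z // P z} => fun v : S => z.1 v)
      {z : {z // P z} | ∀ v, p v (z.1 v) = d v} (Fintype.piFinset t : Set (∀ v : S, Z v)) := by
    refine ⟨?_, ?_, ?_⟩
    · intro z hz
      rw [Finset.mem_coe, Fintype.mem_piFinset]
      intro v
      simpa [t] using hz v
    · intro a ha b hb hab
      refine Subtype.ext (funext fun v => ?_)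
      by_cases h : v ∈ S
      · exact congrFun hab ⟨v, h⟩
      · rw [(hz₀ v h _).1 (ha v), (hz₀ v h _).1 (hb v)]
    · intro x hx
      refine ⟨⟨ext x, hP _ (hext x hx)⟩, hext x hx, ?_⟩
      funext v
      exact ext1 x v v.2
  refine ⟨?_, ?_⟩
  · exact Set.Finite.of_injOn hbij.1 hbij.2.1 (Finset.finite_toSet _)
  · have h1 : ∀ z ∈ {z : {z // P z} | ∀ v, p v (z.1 v) = d v},
        ∏ᶠ v, w v (z.1 v) = ∏ v : S, w v (z.1 v) := by
      intro z hz
      rw [finprod_eq_prod_of_mulSupport_subset (s := S), Finset.prod_coe_sort S fun v => w v (z.1 v)]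
      intro v hv
      by_contra h
      rw [Finset.mem_coe] at h
      apply hv
      change w v (z.1 v) = 1
      rw [(hz₀ v h _).1 (hz v), hz₀w v h]
    rw [finsum_mem_eq_of_bijOn _ hbij (g := fun x => ∏ v : S, w v (x v)) h1,
      finsum_mem_coe_finset, ← Finset.prod_univ_sum]
    rw [finprod_eq_prod_of_mulSupport_subset (s := S), ← Finset.prod_coe_sort S fun v => φ v (d v)]
    · refine Finset.prod_congr rfl fun v _ => ?_
      rw [← hsum v (d v), finsum_mem_eq_finite_toFinset_sum _ (hfin v (d v))]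
    · intro v hv
      by_contra h
      rw [Finset.mem_coe] at h
      apply hv
      have h2 : {z | p v z = d v} = {z₀ v h} := by
        ext z
        simp only [Set.mem_ofPred_eq, Set.mem_singleton_iff]
        exact hz₀ v h z
      change φ v (d v) = 1
      rw [← hsum v (d v), h2, finsum_mem_singleton, hz₀w v h]

end Fibre

section Prod

variable {T : Type*} [Group T] {ι : Type u'}

/-- `D` is the restricted product of the pointed sets `Y v` -/
structure IsRProd {D : Type*} {Y : ι → Type*} (c : D → ∀ v, Y v) (b : ∀ v, Y v) : Prop where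
  inj : Function.Injective c
  ev : ∀ d, ∀ᶠ v in cofinite, c d v = b v
  surj : ∀ x : ∀ v, Y v, (∀ᶠ v in cofinite, x v = b v) → ∃ d, c d = x

variable {Y Y' : ι → Type*} [∀ v, MulAction T (Y v)] [∀ v, MulAction T (Y' v)]
  {b : ∀ v, Y v} {b' : ∀ v, Y' v} {φ : ∀ v, Y v → ℂ} {φ' : ∀ v, Y' v → ℂ}
  {D D' : Type*} {c : D → ∀ v, Y v} {c' : D' → ∀ v, Y' v}

theorem LocalCorr.Based.iff {T : Type*} [Group T] {Y Y' : Type*} [MulAction T Y]
    [MulAction T Y'] {φ : Y → ℂ} {φ' : Y' → ℂ} {C : LocalCorr.{u} T Y Y' φ φ'} {b : Y} {b' : Y'}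
    (h : C.Based b b') :
    ∃ z₀ : C.Z, C.w z₀ = 1 ∧ (∀ z, C.p z = b ↔ z = z₀) ∧ ∀ z, C.q z = b' ↔ z = z₀ := by
  obtain ⟨z₀, h1, h2, h3, h4, h5⟩ := h
  exact ⟨z₀, h3, fun z => ⟨h4 z, fun h => by rw [h, h1]⟩, fun z => ⟨h5 z, fun h => by rw [h, h2]⟩⟩

/-- **products of local correspondences** -/
theorem prod_corr [MulAction T D] [MulAction T D'] (hD : IsRProd c b) (hD' : IsRProd c' b')
    (hact : ∀ (t : T) (x : D) (v : ι), c (t • x) v = t • c x v)
    (hact' : ∀ (t : T) (x : D') (v : ι), c' (t • x) v = t • c' x v)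
    (C : ∀ v, LocalCorr.{u} T (Y v) (Y' v) (φ v) (φ' v))
    (hC : ∀ᶠ v in cofinite, (C v).Based (b v) (b' v)) :
    ∃ C' : LocalCorr.{max u' u} T D D' (fun x => ∏ᶠ v, φ v (c x v))
      (fun x => ∏ᶠ v, φ' v (c' x v)), (∀ v, (C v).NC) → C'.NC := by
  classical
  have hPP : ∀ z : ∀ v, (C v).Z, (∀ᶠ v in cofinite, (C v).p (z v) = b v) ↔
      ∀ᶠ v in cofinite, (C v).q (z v) = b' v := by
    intro z
    constructor
    · intro h
      filter_upwards [h, hC] with v h1 h2
      obtain ⟨z₀, -, h3, h4⟩ := h2.iff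
      rw [(h3 _).1 h1]
      exact (h4 _).2 rfl
    · intro h
      filter_upwards [h, hC] with v h1 h2
      obtain ⟨z₀, -, h3, h4⟩ := h2.iff
      rw [(h4 _).1 h1]
      exact (h3 _).2 rfl
  let Z := {z : ∀ v, (C v).Z // ∀ᶠ v in cofinite, (C v).p (z v) = b v}
  have hp : ∀ z : Z, ∃ d : D, c d = fun v => (C v).p (z.1 v) := fun z => hD.surj _ z.2
  have hq : ∀ z : Z, ∃ d : D', c' d = fun v => (C v).q (z.1 v) :=
    fun z => hD'.surj _ ((hPP z.1).1 z.2)
  choose p hp using hp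
  choose q hq using hq
  have hsm : ∀ (t : T) (z : Z), ∀ᶠ v in cofinite, (C v).p (t • z.1 v) = b v := by
    intro t z
    filter_upwards [hD.ev (t • p z)] with v h2
    rw [hact, hp] at h2
    rw [(C v).p_smul]
    exact h2
  let act : MulAction T Z :=
    { smul := fun t z => ⟨fun v => t • z.1 v, hsm t z⟩
      one_smul := fun z => Subtype.ext (funext fun v => one_smul T (z.1 v))
      mul_smul := fun t t' z => Subtype.ext (funext fun v => mul_smul t t' (z.1 v)) }
  -- the fibres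
  have fp : ∀ d : D, {z : Z | ∀ v, (C v).p (z.1 v) = c d v}.Finite ∧
      ∑ᶠ z ∈ {z : Z | ∀ v, (C v).p (z.1 v) = c d v}, ∏ᶠ v, (C v).w (z.1 v) =
        ∏ᶠ v, φ v (c d v) := by
    intro d
    have h1 : ∀ᶠ v in cofinite, c d v = b v ∧ (C v).Based (b v) (b' v) := (hD.ev d).and hC
    have h2 := Filter.eventually_cofinite.1 h1
    refine sum_fibre (fun v => (C v).p) (fun v => (C v).w) φ (fun v => (C v).fin_p)
      (fun v => (C v).sum_p) _ (c d) h2.toFinset ?_ ?_
    · intro v hv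
      rw [Set.Finite.mem_toFinset, Set.mem_ofPred_eq, not_not] at hv
      obtain ⟨hd, hv⟩ := hv
      obtain ⟨z₀, h3, h4, -⟩ := hv.iff
      exact ⟨z₀, h3, fun z => by rw [hd]; exact h4 z⟩
    · intro z hz
      filter_upwards [hD.ev d] with v hv
      rw [hz, hv]
  have fq : ∀ d : D', {z : Z | ∀ v, (C v).q (z.1 v) = c' d v}.Finite ∧
      ∑ᶠ z ∈ {z : Z | ∀ v, (C v).q (z.1 v) = c' d v}, ∏ᶠ v, (C v).w (z.1 v) =
        ∏ᶠ v, φ' v (c' d v) := by
    intro d
    have h1 : ∀ᶠ v in cofinite, c' d v = b' v ∧ (C v).Based (b v) (b' v) := (hD'.ev d).and hC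
    have h2 := Filter.eventually_cofinite.1 h1
    refine sum_fibre (fun v => (C v).q) (fun v => (C v).w) φ' (fun v => (C v).fin_q)
      (fun v => (C v).sum_q) _ (c' d) h2.toFinset ?_ ?_
    · intro v hv
      rw [Set.Finite.mem_toFinset, Set.mem_ofPred_eq, not_not] at hv
      obtain ⟨hd, hv⟩ := hv
      obtain ⟨z₀, h3, -, h4⟩ := hv.iff
      exact ⟨z₀, h3, fun z => by rw [hd]; exact h4 z⟩
    · intro z hz
      rw [hPP]
      filter_upwards [hD'.ev d] with v hv
      rw [hz, hv]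
  have e1 : ∀ d : D, {z : Z | p z = d} = {z : Z | ∀ v, (C v).p (z.1 v) = c d v} := by
    intro d
    ext z
    simp only [Set.mem_ofPred_eq]
    constructor
    · rintro rfl v; rw [hp]
    · intro h; exact hD.inj (by rw [hp]; exact funext h)
  have e2 : ∀ d : D', {z : Z | q z = d} = {z : Z | ∀ v, (C v).q (z.1 v) = c' d v} := by
    intro d
    ext z
    simp only [Set.mem_ofPred_eq]
    constructor
    · rintro rfl v; rw [hq]
    · intro h; exact hD'.inj (by rw [hq]; exact funext h)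
  refine ⟨{
    Z := Z
    act := act
    p := p
    q := q
    p_smul := fun t z => hD.inj (by
      funext v
      rw [hact, hp, hp]
      exact (C v).p_smul t (z.1 v))
    q_smul := fun t z => hD'.inj (by
      funext v
      rw [hact', hq, hq]
      exact (C v).q_smul t (z.1 v))
    w := fun z => ∏ᶠ v, (C v).w (z.1 v)
    w_smul := fun t z => finprod_congr fun v => (C v).w_smul t (z.1 v)
    fin_p := fun d => by rw [e1]; exact (fp d).1
    fin_q := fun d => by rw [e2]; exact (fq d).1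
    sum_p := fun d => by rw [e1]; exact (fp d).2
    sum_q := fun d => by rw [e2]; exact (fq d).2 }, fun hNC d => ?_⟩
  change ∑ᶠ z ∈ {z : Z | p z = d}, ‖∏ᶠ v, (C v).w (z.1 v)‖ = ‖∏ᶠ v, φ v (c d v)‖
  have h1 : ∀ᶠ v in cofinite, c d v = b v ∧ (C v).Based (b v) (b' v) := (hD.ev d).and hC
  have h2 := Filter.eventually_cofinite.1 h1
  have hns : ∀ f : ι → ℂ, (Function.mulSupport f).Finite → ‖∏ᶠ v, f v‖ = ∏ᶠ v, ‖f v‖ :=
    fun f hf => (normHom (α := ℂ)).toMonoidHom.map_finprod hf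
  have hS : ∀ v, v ∉ h2.toFinset → ∃ z₀ : (C v).Z, ‖(C v).w z₀‖ = 1 ∧
      ∀ z, (C v).p z = c d v ↔ z = z₀ := by
    intro v hv
    rw [Set.Finite.mem_toFinset, Set.mem_ofPred_eq, not_not] at hv
    obtain ⟨hd, hv⟩ := hv
    obtain ⟨z₀, h4, h5, -⟩ := hv.iff
    exact ⟨z₀, by rw [h4, norm_one], fun z => by rw [hd]; exact h5 z⟩
  have hP : ∀ z : ∀ v, (C v).Z, (∀ v, (C v).p (z v) = c d v) →
      ∀ᶠ v in cofinite, (C v).p (z v) = b v := by
    intro z hz
    filter_upwards [hD.ev d] with v hv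
    rw [hz, hv]
  have h3 := sum_fibre (fun v => (C v).p) (fun v z => ‖(C v).w z‖) (fun v y => ‖φ v y‖)
      (fun v => (C v).fin_p) (fun v => hNC v) _ (c d) h2.toFinset hS hP
  rw [hns, ← h3.2, e1]
  · refine finsum_mem_congr rfl fun z hz => hns _ ?_
    refine h2.subset ?_
    intro v hv
    by_contra h
    rw [Set.mem_ofPred_eq, not_not] at h
    obtain ⟨hd, hb⟩ := h
    obtain ⟨z₀, h4, h5, -⟩ := hb.iff
    apply hv
    change (C v).w (z.1 v) = 1
    have h6 : (C v).p (z.1 v) = b v := (hz v).trans hd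
    rw [(h5 _).1 h6, h4]
  · refine h2.subset ?_
    intro v hv
    by_contra h
    rw [Set.mem_ofPred_eq, not_not] at h
    obtain ⟨hd, hb⟩ := h
    obtain ⟨z₀, h4, h5, -⟩ := hb.iff
    apply hv
    change φ v (c d v) = 1
    have h6 : {z | (C v).p z = b v} = {z₀} := by
      ext z
      simp only [Set.mem_ofPred_eq, Set.mem_singleton_iff]
      exact h5 z
    rw [hd, ← (C v).sum_p (b v), h6, finsum_mem_singleton, h4]

end Prod

end Fermat.Agent.LT.Loc
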