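import Fermat.Agent.LT.Loc.GalRing

/-!
# Galois extensions of commutative rings with cyclic group of order three: inert or split

* `Gal3.of_unit`: a criterion for `Gal3 s`;
* `Gal3.exists_unit_sub`, `Gal3.maximalIdeal_eq`: the case of a local extension;
* `Gal3.splitEquiv`: an idempotent `e` with orthogonal conjugates and `e + s e + s² e = 1` gives an
  isomorphism with `A × A × A` under which `s` is the cyclic shift;
* `Gal3.dichotomy`: over a field, either `B` is a field or it is split;
* `Gal3.split_of_split`: if `A` is integrally closed, splitting over the fraction field implies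
  splitting over `A`.
-/

set_option autoImplicit false

open scoped TensorProduct

namespace Fermat.Agent.LT.Loc

namespace Gal3

section

variable {A B : Type*} [CommRing A] [CommRing B] [Algebra A B] {s : B ≃ₐ[A] B}

/-- a criterion for `Gal3` -/
theorem of_unit (hc : ∀ b, s (s (s b)) = b) (hi : Function.Injective (algebraMap A B))
    (hf : ∀ b, s b = b → ∃ a, algebraMap A B a = b) {α : B} (hα : IsUnit (α - s α)) : Gal3 s := by
  refine ⟨hc, hi, hf, ?_⟩
  have hα2 : IsUnit (α - s (s α)) := by
    have h1 : α - s (s α) = - s (s (α - s α)) := by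
      rw [map_sub, map_sub, hc]; ring
    rw [h1]
    exact ((hα.map s).map s).neg
  obtain ⟨u, hu⟩ := (hα.mul hα2).exists_right_inv
  refine ⟨3, ![α ^ 2 * u, - α * u, u], ![1, s α + s (s α), s α * s (s α)], ?_, ?_, ?_⟩
  · simp [Fin.sum_univ_three]
    linear_combination hu
  · simp [Fin.sum_univ_three, hc]
    ring
  · simp [Fin.sum_univ_three, hc]
    ring

theorem exists_unit_sub (h : Gal3 s) [IsLocalRing B] : ∃ α : B, IsUnit (α - s α) := by
  obtain ⟨n, x, y, h1, h2, -⟩ := h.dual
  by_contra hcon
  push Not at hcon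
  have h3 : (1 : B) ∈ IsLocalRing.maximalIdeal B := by
    have : (1 : B) = ∑ i, x i * (y i - s (y i)) := by
      simp only [mul_sub, Finset.sum_sub_distrib, h1, h2, sub_zero]
    rw [this]
    refine Ideal.sum_mem _ fun i _ => Ideal.mul_mem_left _ _ ?_
    rw [IsLocalRing.mem_maximalIdeal]
    exact hcon _
  exact (IsLocalRing.maximalIdeal.isMaximal B).ne_top (Ideal.eq_top_iff_one _ |>.2 h3)

theorem comap_maximalIdeal (h : Gal3 s) [IsLocalRing A] [IsLocalRing B] :
    (IsLocalRing.maximalIdeal B).comap (algebraMap A B) = IsLocalRing.maximalIdeal A := by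
  obtain ⟨N, hN, hNm⟩ := h.exists_maximal_over (IsLocalRing.maximalIdeal A)
  rw [← IsLocalRing.eq_maximalIdeal hN, hNm]

theorem maximalIdeal_eq (h : Gal3 s) [IsLocalRing A] [IsLocalRing B] :
    IsLocalRing.maximalIdeal B = (IsLocalRing.maximalIdeal A).map (algebraMap A B) := by
  apply le_antisymm
  · intro b hb
    obtain ⟨n, x, y, -, hx⟩ := h.sum_dual
    rw [hx b]
    refine Ideal.sum_mem _ fun i _ => ?_
    rw [Algebra.smul_def]
    refine Ideal.mul_mem_right _ _ (Ideal.mem_map_of_mem _ ?_)
    rw [← h.comap_maximalIdeal, Ideal.mem_comap, h.algebraMap_tr]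
    have hs : ∀ c ∈ IsLocalRing.maximalIdeal B, s c ∈ IsLocalRing.maximalIdeal B := by
      intro c hc
      rw [IsLocalRing.mem_maximalIdeal] at hc ⊢
      intro h1
      apply hc
      rwa [MulEquiv.isUnit_map s] at h1
    have h0 : y i * b ∈ IsLocalRing.maximalIdeal B := Ideal.mul_mem_left _ _ hb
    exact Ideal.add_mem _ (Ideal.add_mem _ h0 (hs _ h0)) (hs _ (hs _ h0))
  · rw [Ideal.map_le_iff_le_comap, h.comap_maximalIdeal]

/-! ### Splitting -/

/-- the projection defined by an idempotent with orthogonal conjugates -/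
noncomputable def proj (h : Gal3 s) {e : B} (he : e * e = e) (h1 : e * s e = 0)
    (ht : e + s e + s (s e) = 1) : B →ₐ[A] A :=
  AlgHom.ofLinearMap (h.tr ∘ₗ LinearMap.mulLeft A e)
    (by
      apply h.inj
      simp only [LinearMap.comp_apply, LinearMap.mulLeft_apply, mul_one]
      rw [h.algebraMap_tr, ht, map_one])
    (by
      intro x y
      apply h.inj
      have h2 : s e * s (s e) = 0 := by rw [← map_mul, h1, map_zero]
      have h3 : s (s e) * e = 0 := by
        have := congrArg s h2
        rwa [map_mul, h.cube, map_zero] at this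
      have h4 : s e * s e = s e := by rw [← map_mul, he]
      have h5 : s (s e) * s (s e) = s (s e) := by rw [← map_mul, h4]
      simp only [LinearMap.comp_apply, LinearMap.mulLeft_apply]
      rw [map_mul (algebraMap A B), h.algebraMap_tr, h.algebraMap_tr, h.algebraMap_tr]
      simp only [map_mul]
      linear_combination (-(x * y)) * he - (s x * s y) * h4 - (s (s x) * s (s y)) * h5
        - (x * s y + s x * y) * h1 - (s x * s (s y) + s (s x) * s y) * h2
        - (s (s x) * y + x * s (s y)) * h3)

theorem algebraMap_proj (h : Gal3 s) {e : B} (he : e * e = e) (h1 : e * s e = 0)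
    (ht : e + s e + s (s e) = 1) (x : B) : algebraMap A B (h.proj he h1 ht x) =
      e * x + s e * s x + s (s e) * s (s x) := by
  have : h.proj he h1 ht x = h.tr (e * x) := rfl
  rw [this, h.algebraMap_tr, map_mul, map_mul]

theorem proj_bijective (h : Gal3 s) {e : B} (he : e * e = e) (h1 : e * s e = 0)
    (ht : e + s e + s (s e) = 1) : Function.Bijective (fun x =>
      (h.proj he h1 ht x, h.proj he h1 ht (s x), h.proj he h1 ht (s (s x)))) := by
  have h2 : s e * s (s e) = 0 := by rw [← map_mul, h1, map_zero]
  have h3 : s (s e) * e = 0 := by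
    have := congrArg s h2
    rwa [map_mul, h.cube, map_zero] at this
  have h4 : s e * s e = s e := by rw [← map_mul, he]
  have h5 : s (s e) * s (s e) = s (s e) := by rw [← map_mul, h4]
  have p0 : h.proj he h1 ht e = 1 := by
    apply h.inj
    rw [h.algebraMap_proj, map_one, ← ht, he, h4, h5]
  have p1 : h.proj he h1 ht (s e) = 0 := by
    apply h.inj
    rw [h.algebraMap_proj, map_zero, h1, h2, h.cube, h3]
    ring
  have p2 : h.proj he h1 ht (s (s e)) = 0 := by
    apply h.inj
    rw [h.algebraMap_proj, map_zero, h.cube, mul_comm e, h3, mul_comm (s e), h1,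
      mul_comm (s (s e)), h2]
    ring
  constructor
  · intro x y hxy
    simp only [Prod.mk.injEq] at hxy
    obtain ⟨hx1, hx2, hx3⟩ := hxy
    have key : ∀ x : B, x = e * algebraMap A B (h.proj he h1 ht x) +
        s (s e) * algebraMap A B (h.proj he h1 ht (s x)) +
        s e * algebraMap A B (h.proj he h1 ht (s (s x))) := by
      intro x
      rw [h.algebraMap_proj, h.algebraMap_proj, h.algebraMap_proj, h.cube]
      linear_combination (-x) * ht - x * he - x * h4 - x * h5 - (s x + s (s x)) * h1
        - (s x + s (s x)) * h2 - (s x + s (s x)) * h3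
    rw [key x, key y, hx1, hx2, hx3]
  · rintro ⟨a, b, c⟩
    refine ⟨a • e + b • s (s e) + c • s e, ?_⟩
    simp only [map_add, map_smul, h.cube, p0, p1, p2, smul_eq_mul, mul_one, mul_zero, add_zero,
      zero_add]

/-- **Split extensions.** -/
noncomputable def splitEquiv (h : Gal3 s) {e : B} (he : e * e = e) (h1 : e * s e = 0)
    (ht : e + s e + s (s e) = 1) : B ≃ₐ[A] (A × A × A) :=
  AlgEquiv.ofBijective ((h.proj he h1 ht).prod (((h.proj he h1 ht).comp (s : B →ₐ[A] B)).prod
    ((h.proj he h1 ht).comp ((s : B →ₐ[A] B).comp (s : B →ₐ[A] B)))))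
    (h.proj_bijective he h1 ht)

theorem splitEquiv_apply (h : Gal3 s) {e : B} (he : e * e = e) (h1 : e * s e = 0)
    (ht : e + s e + s (s e) = 1) (x : B) : h.splitEquiv he h1 ht x =
      (h.proj he h1 ht x, h.proj he h1 ht (s x), h.proj he h1 ht (s (s x))) := rfl

theorem splitEquiv_s (h : Gal3 s) {e : B} (he : e * e = e) (h1 : e * s e = 0)
    (ht : e + s e + s (s e) = 1) (x : B) : h.splitEquiv he h1 ht (s x) =
      ((h.splitEquiv he h1 ht x).2.1, (h.splitEquiv he h1 ht x).2.2,
        (h.splitEquiv he h1 ht x).1) := by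
  rw [splitEquiv_apply, splitEquiv_apply, h.cube]

end

/-! ### Fields -/

section Field

variable {K R : Type*} [Field K] [CommRing R] [Algebra K R] {s : R ≃ₐ[K] R}

/-- over a field, either `R` is a field or there is an idempotent as above -/
theorem dichotomy (h : Gal3 s) : IsField R ∨
    ∃ e : R, e * e = e ∧ e * s e = 0 ∧ e + s e + s (s e) = 1 := by
  obtain ⟨N, hN, hNm⟩ := h.exists_maximal_over (⊥ : Ideal K)
  have hN' := hN.isPrime
  have hbot : ∀ a : K, algebraMap K R a ∈ N → a = 0 := by
    intro a ha
    have : a ∈ N.comap (algebraMap K R) := ha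
    rwa [hNm] at this
  -- the intersection of the conjugates is zero
  have hJ : ∀ x, x ∈ N → s x ∈ N → s (s x) ∈ N → x = 0 := by
    intro x hx0 hx1 hx2
    obtain ⟨n, z, y, -, hx⟩ := h.sum_dual
    rw [hx x]
    refine Finset.sum_eq_zero fun i _ => ?_
    have : h.tr (y i * x) = 0 := by
      apply hbot
      rw [h.algebraMap_tr, map_mul, map_mul]
      exact Ideal.add_mem _ (Ideal.add_mem _ (Ideal.mul_mem_left _ _ hx0)
        (Ideal.mul_mem_left _ _ hx1)) (Ideal.mul_mem_left _ _ hx2)
    rw [this, zero_smul]
  by_cases hN0 : N = ⊥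
  · left
    rw [hN0] at hN
    have : Nontrivial R := h.inj.nontrivial
    exact Ring.isField_iff_maximal_bot.2 hN
  · right
    obtain ⟨x, hx, hx0⟩ := Submodule.exists_mem_ne_zero_of_ne_bot hN0
    -- elements of conjugates not in `N`
    obtain ⟨a, ha, ha'⟩ : ∃ a, s a ∈ N ∧ a ∉ N := by
      by_contra hcon
      push Not at hcon
      have h1 : s (s x) ∈ N := hcon _ (by rwa [h.cube])
      exact hx0 (hJ x hx (hcon _ h1) h1)
    obtain ⟨b, hb, hb'⟩ : ∃ b, s (s b) ∈ N ∧ b ∉ N := by
      by_contra hcon
      push Not at hcon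
      have h1 : s x ∈ N := hcon _ (by rwa [h.cube])
      exact hx0 (hJ x hx h1 (hcon _ (by rwa [h.cube])))
    have hab : a * b ∉ N := fun h1 => (hN'.mem_or_mem h1).elim ha' hb'
    obtain ⟨c, i, hi, hci⟩ := hN.exists_inv hab
    set e := c * (a * b) with he
    have e0 : e - 1 ∈ N := by
      have : e - 1 = - i := by rw [← hci]; ring
      rw [this]
      exact N.neg_mem hi
    have e1 : s e ∈ N := by
      rw [he, map_mul, map_mul]
      exact N.mul_mem_left _ (N.mul_mem_right _ ha)
    have e2 : s (s e) ∈ N := by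
      rw [he, map_mul, map_mul, map_mul, map_mul]
      exact N.mul_mem_left _ (N.mul_mem_left _ hb)
    refine ⟨e, ?_, ?_, ?_⟩
    · rw [← sub_eq_zero]
      apply hJ
      · have : e * e - e = e * (e - 1) := by ring
        rw [this]
        exact N.mul_mem_left _ e0
      · rw [map_sub, map_mul]
        exact N.sub_mem (N.mul_mem_left _ e1) e1
      · rw [map_sub, map_sub, map_mul, map_mul]
        exact N.sub_mem (N.mul_mem_left _ e2) e2
    · apply hJ
      · exact N.mul_mem_left _ e1
      · rw [map_mul]
        exact N.mul_mem_left _ e2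
      · rw [map_mul, map_mul, h.cube]
        exact N.mul_mem_right _ e2
    · rw [← sub_eq_zero]
      have h0 : e + s e + s (s e) - 1 ∈ N := by
        have : e + s e + s (s e) - 1 = (e - 1) + s e + s (s e) := by ring
        rw [this]
        exact N.add_mem (N.add_mem e0 e1) e2
      have h1 : s (e + s e + s (s e) - 1) = e + s e + s (s e) - 1 := by
        rw [map_sub, map_add, map_add, h.cube, map_one]
        ring
      exact hJ _ h0 (by rw [h1]; exact h0) (by rw [h1, h1]; exact h0)

/-- the extension defined by a Galois extension of fields of degree three -/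
theorem of_isGalois {k E : Type*} [Field k] [Field E] [Algebra k E] [FiniteDimensional k E]
    [IsGalois k E] (h3 : Module.finrank k E = 3) (σ : E ≃ₐ[k] E) (hσ : σ ≠ 1) : Gal3 σ := by
  have hcard : Nat.card (E ≃ₐ[k] E) = 3 := by rw [IsGalois.card_aut_eq_finrank, h3]
  have hfin : Finite (E ≃ₐ[k] E) := Nat.finite_of_card_ne_zero (by rw [hcard]; norm_num)
  have hp : Fact (Nat.Prime 3) := ⟨Nat.prime_three⟩
  have hcube : σ ^ 3 = 1 := by rw [← hcard]; exact pow_card_eq_one'
  obtain ⟨α, hα⟩ : ∃ α, σ α ≠ α := by
    by_contra hcon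
    push Not at hcon
    exact hσ (AlgEquiv.ext hcon)
  refine of_unit (α := α) ?_ (algebraMap k E).injective ?_ ?_
  · intro b
    have := DFunLike.congr_fun hcube b
    simpa [pow_succ] using this
  · intro b hb
    have h1 : ∀ τ : E ≃ₐ[k] E, τ b = b := by
      intro τ
      have h2 : τ ∈ Subgroup.zpowers σ := mem_zpowers_of_prime_card hcard hσ
      have h4 : Subgroup.zpowers σ ≤ MulAction.stabilizer (E ≃ₐ[k] E) b := by
        rw [Subgroup.zpowers_le]
        exact hb
      exact h4 h2
    exact (IsGalois.mem_range_algebraMap_iff_fixed b).2 h1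
  · rw [isUnit_iff_ne_zero, sub_ne_zero]
    exact hα.symm

end Field

/-! ### Integrally closed base -/

section IntClosed

variable {A B K R : Type*} [CommRing A] [CommRing B] [Algebra A B]
  {s : B ≃ₐ[A] B} [Field K] [CommRing R] [Algebra K R] {s' : R ≃ₐ[K] R}
  [Algebra A K] [IsFractionRing A K] [IsIntegrallyClosed A]

/-- splitting over the fraction field of an integrally closed domain implies splitting -/
theorem exists_idempotent (h : Gal3 s) (h' : Gal3 s') (f : B →+* R)
    (hf : ∀ a, f (algebraMap A B a) = algebraMap K R (algebraMap A K a))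
    (hs : ∀ b, f (s b) = s' (f b)) {e : R} (he : e * e = e) (h1 : e * s' e = 0)
    (ht : e + s' e + s' (s' e) = 1) :
    ∃ e' : B, f e' = e ∧ e' * e' = e' ∧ e' * s e' = 0 ∧ e' + s e' + s (s e') = 1 := by
  obtain ⟨n, x, y, ⟨hx1, hx2, hx3⟩, hx⟩ := h.sum_dual
  have hftr : ∀ b, algebraMap A K (h.tr b) = h'.tr (f b) := by
    intro b
    apply h'.inj
    rw [← hf, h.algebraMap_tr, h'.algebraMap_tr, map_add, map_add, hs, hs, hs]
  have hinj : Function.Injective f := by
    rw [injective_iff_map_eq_zero]
    intro b hb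
    rw [hx b]
    refine Finset.sum_eq_zero fun i _ => ?_
    have : h.tr (y i * b) = 0 := by
      apply IsFractionRing.injective A K
      rw [hftr, map_mul, hb, mul_zero, map_zero, map_zero]
    rw [this, zero_smul]
  algebraize [f.comp (algebraMap A B)]
  have hAR : ∀ a, algebraMap A R a = algebraMap K R (algebraMap A K a) := fun a => hf a
  have : IsScalarTower A K R := IsScalarTower.of_algebraMap_eq hAR
  have hfin := h.finite
  have hint : ∀ b, IsIntegral A (f b) := by
    intro b
    have h2 : IsIntegral A b := IsIntegral.of_finite A b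
    obtain ⟨p, hp, hp'⟩ := h2
    refine ⟨p, hp, ?_⟩
    have h3 : algebraMap A R = f.comp (algebraMap A B) := rfl
    rw [h3, ← Polynomial.hom_eval₂, hp', map_zero]
  have hinte : IsIntegral A e := by
    refine ⟨Polynomial.X ^ 2 - Polynomial.X, ?_, ?_⟩
    · monicity!
    · simp [pow_two, he]
  have hints : ∀ r : R, IsIntegral A r → IsIntegral A (s' r) := by
    intro r hr
    have := hr.map (s'.toAlgHom.restrictScalars A)
    exact this
  have hc : ∀ b, ∃ a : A, algebraMap A K a = h'.tr (f b * e) := by
    intro b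
    apply IsIntegrallyClosed.isIntegral_iff.1
    have h2 : IsIntegral A (algebraMap K R (h'.tr (f b * e))) := by
      rw [h'.algebraMap_tr]
      have h3 : IsIntegral A (f b * e) := (hint b).mul hinte
      exact (h3.add (hints _ h3)).add (hints _ (hints _ h3))
    exact (isIntegral_algebraMap_iff h'.inj).1 h2
  choose c hc using hc
  have hfe : f (∑ i, c (y i) • x i) = e := by
    rw [map_sum]
    have : ∀ i, f (c (y i) • x i) =
        f (x i) * (f (y i) * e + s' (f (y i)) * s' e + s' (s' (f (y i))) * s' (s' e)) := by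
      intro i
      rw [Algebra.smul_def, map_mul, hf, hc, h'.algebraMap_tr, map_mul, map_mul]
      ring
    simp only [this]
    have h2 : ∑ i, f (x i) * f (y i) = 1 := by
      simp only [← map_mul, ← map_sum, hx1, map_one]
    have h3 : ∑ i, f (x i) * s' (f (y i)) = 0 := by
      simp only [← hs, ← map_mul, ← map_sum, hx2, map_zero]
    have h4 : ∑ i, f (x i) * s' (s' (f (y i))) = 0 := by
      simp only [← hs, ← map_mul, ← map_sum, hx3, map_zero]
    have h5 : ∑ i, f (x i) *
        (f (y i) * e + s' (f (y i)) * s' e + s' (s' (f (y i))) * s' (s' e)) =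
        (∑ i, f (x i) * f (y i)) * e + (∑ i, f (x i) * s' (f (y i))) * s' e +
        (∑ i, f (x i) * s' (s' (f (y i)))) * s' (s' e) := by
      rw [Finset.sum_mul, Finset.sum_mul, Finset.sum_mul, ← Finset.sum_add_distrib,
        ← Finset.sum_add_distrib]
      exact Finset.sum_congr rfl fun i _ => by ring
    rw [h5, h2, h3, h4]
    ring
  refine ⟨∑ i, c (y i) • x i, hfe, ?_, ?_, ?_⟩
  · apply hinj
    rw [map_mul, hfe, he]
  · apply hinj
    rw [map_mul, hs, hfe, h1, map_zero]
  · apply hinj
    rw [map_add, map_add, hs, hs, hfe, hs, hfe, ht, map_one]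

end IntClosed

end Gal3

end Fermat.Agent.LT.Loc
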