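import Fermat.Agent.LT.Loc.Split
import Fermat.Agent.LT.Glob.Def

/-!
# `R = R₀ × R₀ × R₀` with the cyclic shift, and `GL₂`, `PGL₂`
-/

set_option autoImplicit false

universe u

namespace Fermat.Agent.LT.Loc

open Matrix Fermat.Agent.LT.Glob
open scoped MatrixGroups

variable {R R₀ : Type u} [CommRing R] [CommRing R₀]

/-- `R = R₀ × R₀ × R₀` with the cyclic shift `s` -/
structure SplitRing (s : R ≃+* R) (i : R₀ →+* R) (π : R →+* R₀) : Prop where
  cube : ∀ x, s (s (s x)) = x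
  fix : ∀ a, s (i a) = i a
  ret : ∀ a, π (i a) = a
  inj : ∀ x y, π x = π y → π (s x) = π (s y) → π (s (s x)) = π (s (s y)) → x = y
  surj : ∀ a b c, ∃ x, π x = a ∧ π (s x) = b ∧ π (s (s x)) = c

/-- `O = O₀ × O₀ × O₀` -/
def IsProdO (s : R ≃+* R) (π : R →+* R₀) (O : Subring R) (O₀ : Subring R₀) : Prop :=
  ∀ x, x ∈ O ↔ π x ∈ O₀ ∧ π (s x) ∈ O₀ ∧ π (s (s x)) ∈ O₀

variable {s : R ≃+* R} {i : R₀ →+* R} {π : R →+* R₀}

namespace SplitRing

variable (S : SplitRing s i π)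
include S

theorem mat_ext {A B : Matrix (Fin 2) (Fin 2) R} (h : ∀ a b, π (A a b) = π (B a b))
    (h' : ∀ a b, π (s (A a b)) = π (s (B a b)))
    (h'' : ∀ a b, π (s (s (A a b))) = π (s (s (B a b)))) : A = B := by
  ext a b
  exact S.inj _ _ (h a b) (h' a b) (h'' a b)

theorem gl_surj (a b c : GL (Fin 2) R₀) : ∃ g : GL (Fin 2) R,
    GeneralLinearGroup.map π g = a ∧
    GeneralLinearGroup.map π (GeneralLinearGroup.map (s : R →+* R) g) = b ∧
    GeneralLinearGroup.map π (GeneralLinearGroup.map (s : R →+* R)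
      (GeneralLinearGroup.map (s : R →+* R) g)) = c := by
  have h1 : ∀ i j, ∃ x, π x = a i j ∧ π (s x) = b i j ∧ π (s (s x)) = c i j :=
    fun i j => S.surj _ _ _
  have h2 : ∀ i j, ∃ x, π x = a⁻¹ i j ∧ π (s x) = b⁻¹ i j ∧ π (s (s x)) = c⁻¹ i j :=
    fun i j => S.surj _ _ _
  choose M hM using h1
  choose M' hM' using h2
  have e : ∀ (x : GL (Fin 2) R₀) (i j : Fin 2), ∑ k, x i k * x⁻¹ k j =
      (1 : Matrix (Fin 2) (Fin 2) R₀) i j := by
    intro x i j
    rw [← Matrix.mul_apply, ← Units.val_mul, mul_inv_cancel, Units.val_one]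
  have e' : ∀ (x : GL (Fin 2) R₀) (i j : Fin 2), ∑ k, x⁻¹ i k * x k j =
      (1 : Matrix (Fin 2) (Fin 2) R₀) i j := by
    intro x i j
    rw [← Matrix.mul_apply, ← Units.val_mul, inv_mul_cancel, Units.val_one]
  have one_map : ∀ (f : R →+* R₀) (i j : Fin 2), f ((1 : Matrix (Fin 2) (Fin 2) R) i j) =
      (1 : Matrix (Fin 2) (Fin 2) R₀) i j := by
    intro f i j
    rw [Matrix.one_apply, Matrix.one_apply]
    split_ifs
    · exact map_one f
    · exact map_zero f
  have m1 : Matrix.of M * Matrix.of M' = 1 := by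
    refine S.mat_ext (fun i j => ?_) (fun i j => ?_) (fun i j => ?_)
    · rw [one_map, Matrix.mul_apply, map_sum, ← e a i j]
      refine Finset.sum_congr rfl fun k _ => ?_
      rw [map_mul, Matrix.of_apply, Matrix.of_apply, (hM i k).1, (hM' k j).1]
    · refine Eq.trans ?_ (one_map (π.comp (s : R →+* R)) i j).symm
      rw [Matrix.mul_apply, map_sum, map_sum, ← e b i j]
      refine Finset.sum_congr rfl fun k _ => ?_
      rw [map_mul, map_mul, Matrix.of_apply, Matrix.of_apply, (hM i k).2.1, (hM' k j).2.1]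
    · refine Eq.trans ?_ (one_map ((π.comp (s : R →+* R)).comp (s : R →+* R)) i j).symm
      rw [Matrix.mul_apply, map_sum, map_sum, map_sum, ← e c i j]
      refine Finset.sum_congr rfl fun k _ => ?_
      rw [map_mul, map_mul, map_mul, Matrix.of_apply, Matrix.of_apply, (hM i k).2.2,
        (hM' k j).2.2]
  have m2 : Matrix.of M' * Matrix.of M = 1 := by
    refine S.mat_ext (fun i j => ?_) (fun i j => ?_) (fun i j => ?_)
    · rw [one_map, Matrix.mul_apply, map_sum, ← e' a i j]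
      refine Finset.sum_congr rfl fun k _ => ?_
      rw [map_mul, Matrix.of_apply, Matrix.of_apply, (hM' i k).1, (hM k j).1]
    · refine Eq.trans ?_ (one_map (π.comp (s : R →+* R)) i j).symm
      rw [Matrix.mul_apply, map_sum, map_sum, ← e' b i j]
      refine Finset.sum_congr rfl fun k _ => ?_
      rw [map_mul, map_mul, Matrix.of_apply, Matrix.of_apply, (hM' i k).2.1, (hM k j).2.1]
    · refine Eq.trans ?_ (one_map ((π.comp (s : R →+* R)).comp (s : R →+* R)) i j).symm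
      rw [Matrix.mul_apply, map_sum, map_sum, map_sum, ← e' c i j]
      refine Finset.sum_congr rfl fun k _ => ?_
      rw [map_mul, map_mul, map_mul, Matrix.of_apply, Matrix.of_apply, (hM' i k).2.2,
        (hM k j).2.2]
  refine ⟨⟨Matrix.of M, Matrix.of M', m1, m2⟩, ?_, ?_, ?_⟩
  · ext i j
    exact (hM i j).1
  · ext i j
    exact (hM i j).2.1
  · ext i j
    exact (hM i j).2.2

theorem unit_surj (a b c : R₀ˣ) : ∃ x : Rˣ,
    Units.map (π : R →* R₀) x = a ∧ Units.map (π : R →* R₀) (Units.map ((s : R →+* R) : R →* R) x) = b ∧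
    Units.map (π : R →* R₀) (Units.map ((s : R →+* R) : R →* R)
      (Units.map ((s : R →+* R) : R →* R) x)) = c := by
  obtain ⟨x, h1, h2, h3⟩ := S.surj a b c
  obtain ⟨y, h1', h2', h3'⟩ := S.surj ((a⁻¹ : R₀ˣ) : R₀) ((b⁻¹ : R₀ˣ) : R₀) ((c⁻¹ : R₀ˣ) : R₀)
  have hxy : x * y = 1 := by
    refine S.inj _ _ ?_ ?_ ?_
    · rw [map_mul, h1, h1', Units.mul_inv, map_one]
    · rw [map_mul, map_mul, h2, h2', Units.mul_inv, map_one, map_one]
    · rw [map_mul, map_mul, map_mul, h3, h3', Units.mul_inv, map_one, map_one, map_one]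
  refine ⟨⟨x, y, hxy, by rw [mul_comm]; exact hxy⟩, Units.ext h1, Units.ext h2, Units.ext h3⟩

/-- the splitting of `GL₂` -/
theorem gl_split3 : Split3 (GeneralLinearGroup.map (n := Fin 2) (s : R →+* R))
    (GeneralLinearGroup.map (n := Fin 2) i) (GeneralLinearGroup.map (n := Fin 2) π) where
  cube g := by ext a b; exact S.cube _
  fix g := by ext a b; exact S.fix _
  ret g := by ext a b; exact S.ret _
  inj g g' h1 h2 h3 := by
    ext a b
    refine S.inj _ _ ?_ ?_ ?_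
    · exact congrArg (fun x : GL (Fin 2) R₀ => x a b) h1
    · exact congrArg (fun x : GL (Fin 2) R₀ => x a b) h2
    · exact congrArg (fun x : GL (Fin 2) R₀ => x a b) h3
  surj := S.gl_surj

/-- the splitting of `PGL₂` -/
theorem pgl_split3 : Split3 (ProjGenLinGroup.map (n := Fin 2) (s : R →+* R))
    (ProjGenLinGroup.map (n := Fin 2) i) (ProjGenLinGroup.map (n := Fin 2) π) where
  cube g := by
    induction g using ProjGenLinGroup.induction_on with
    | mk g => rw [ProjGenLinGroup.map_mk, ProjGenLinGroup.map_mk, ProjGenLinGroup.map_mk,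
        S.gl_split3.cube]
  fix g := by
    induction g using ProjGenLinGroup.induction_on with
    | mk g => rw [ProjGenLinGroup.map_mk, ProjGenLinGroup.map_mk, S.gl_split3.fix]
  ret g := by
    induction g using ProjGenLinGroup.induction_on with
    | mk g => rw [ProjGenLinGroup.map_mk, ProjGenLinGroup.map_mk, S.gl_split3.ret]
  inj g g' h1 h2 h3 := by
    induction g using ProjGenLinGroup.induction_on with
    | mk g =>
    induction g' using ProjGenLinGroup.induction_on with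
    | mk g' =>
    simp only [ProjGenLinGroup.map_mk, ProjGenLinGroup.mk_eq_mk_iff] at h1 h2 h3 ⊢
    obtain ⟨a, ha⟩ := h1
    obtain ⟨b, hb⟩ := h2
    obtain ⟨c, hc⟩ := h3
    obtain ⟨x, rfl, rfl, rfl⟩ := S.unit_surj a b c
    refine ⟨x, S.gl_split3.inj _ _ ?_ ?_ ?_⟩
    · rw [map_mul, GeneralLinearGroup.map_scalar, ha]
    · rw [map_mul, map_mul, GeneralLinearGroup.map_scalar, GeneralLinearGroup.map_scalar, hb]
    · rw [map_mul, map_mul, map_mul, GeneralLinearGroup.map_scalar,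
        GeneralLinearGroup.map_scalar, GeneralLinearGroup.map_scalar, hc]
  surj a b c := by
    induction a using ProjGenLinGroup.induction_on with
    | mk a =>
    induction b using ProjGenLinGroup.induction_on with
    | mk b =>
    induction c using ProjGenLinGroup.induction_on with
    | mk c =>
    obtain ⟨g, rfl, rfl, rfl⟩ := S.gl_surj a b c
    exact ⟨ProjGenLinGroup.mk g, rfl, rfl, rfl⟩

/-- products of subgroups, from `GL₂` to `PGL₂` -/
theorem isProd3_map {K : Subgroup (GL (Fin 2) R)} {K' : Subgroup (GL (Fin 2) R₀)}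
    (h : IsProd3 (GeneralLinearGroup.map (n := Fin 2) (s : R →+* R))
      (GeneralLinearGroup.map (n := Fin 2) π) K K') :
    IsProd3 (ProjGenLinGroup.map (n := Fin 2) (s : R →+* R))
      (ProjGenLinGroup.map (n := Fin 2) π) (K.map ProjGenLinGroup.mk)
      (K'.map ProjGenLinGroup.mk) := by
  intro g
  constructor
  · rintro ⟨x, hx, rfl⟩
    obtain ⟨h1, h2, h3⟩ := (h x).1 hx
    exact ⟨⟨_, h1, rfl⟩, ⟨_, h2, rfl⟩, ⟨_, h3, rfl⟩⟩
  · rintro ⟨⟨a, ha, ha'⟩, ⟨b, hb, hb'⟩, ⟨c, hc, hc'⟩⟩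
    obtain ⟨x, rfl, rfl, rfl⟩ := S.gl_surj a b c
    exact ⟨x, (h x).2 ⟨ha, hb, hc⟩, S.pgl_split3.inj _ _ ha' hb' hc'⟩

variable {O : Subring R} {O₀ : Subring R₀} (hO : IsProdO s π O O₀)
include hO

omit S in
theorem isProd3_GLO : IsProd3 (GeneralLinearGroup.map (n := Fin 2) (s : R →+* R))
    (GeneralLinearGroup.map (n := Fin 2) π) (GLO O) (GLO O₀) := by
  intro g
  constructor
  · rintro ⟨h1, h2⟩
    refine ⟨⟨fun i j => ((hO _).1 (h1 i j)).1, fun i j => ?_⟩,
      ⟨fun i j => ((hO _).1 (h1 i j)).2.1, fun i j => ?_⟩,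
      ⟨fun i j => ((hO _).1 (h1 i j)).2.2, fun i j => ?_⟩⟩
    · rw [← map_inv]; exact ((hO _).1 (h2 i j)).1
    · rw [← map_inv, ← map_inv]; exact ((hO _).1 (h2 i j)).2.1
    · rw [← map_inv, ← map_inv, ← map_inv]; exact ((hO _).1 (h2 i j)).2.2
  · rintro ⟨⟨h1, h1'⟩, ⟨h2, h2'⟩, ⟨h3, h3'⟩⟩
    refine ⟨fun i j => (hO _).2 ⟨h1 i j, h2 i j, h3 i j⟩, fun i j => (hO _).2 ⟨?_, ?_, ?_⟩⟩
    · have := h1' i j; rwa [← map_inv] at this
    · have := h2' i j; rwa [← map_inv, ← map_inv] at this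
    · have := h3' i j; rwa [← map_inv, ← map_inv, ← map_inv] at this

theorem mem_NO_iff (N : ℕ) (x : R) : x ∈ NO O N ↔
    π x ∈ NO O₀ N ∧ π (s x) ∈ NO O₀ N ∧ π (s (s x)) ∈ NO O₀ N := by
  constructor
  · rintro ⟨y, hy, rfl⟩
    obtain ⟨h1, h2, h3⟩ := (hO y).1 hy
    exact ⟨⟨_, h1, by rw [map_mul, map_natCast]⟩, ⟨_, h2, by rw [map_mul, map_natCast, map_mul,
      map_natCast]⟩, ⟨_, h3, by rw [map_mul, map_natCast, map_mul, map_natCast, map_mul,
      map_natCast]⟩⟩
  · rintro ⟨⟨a, ha, ha'⟩, ⟨b, hb, hb'⟩, ⟨c, hc, hc'⟩⟩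
    obtain ⟨y, rfl, rfl, rfl⟩ := S.surj a b c
    refine ⟨y, (hO y).2 ⟨ha, hb, hc⟩, S.inj _ _ ?_ ?_ ?_⟩
    · rw [ha', map_mul, map_natCast]
    · rw [hb', map_mul, map_natCast, map_mul, map_natCast]
    · rw [hc', map_mul, map_natCast, map_mul, map_natCast, map_mul, map_natCast]

theorem isProd3_KN (N : ℕ) : IsProd3 (GeneralLinearGroup.map (n := Fin 2) (s : R →+* R))
    (GeneralLinearGroup.map (n := Fin 2) π) (KN O N) (KN O₀ N) := by
  intro g
  have one_map : ∀ (f : R →+* R₀) (i j : Fin 2), f ((1 : Matrix (Fin 2) (Fin 2) R) i j) =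
      (1 : Matrix (Fin 2) (Fin 2) R₀) i j := by
    intro f i j
    rw [Matrix.one_apply, Matrix.one_apply]
    split_ifs
    · exact map_one f
    · exact map_zero f
  rw [mem_KN, mem_KN, mem_KN, mem_KN, isProd3_GLO hO g]
  have e : ∀ i j, (g i j - (1 : Matrix (Fin 2) (Fin 2) R) i j ∈ NO O N ↔
      (GeneralLinearGroup.map π g) i j - (1 : Matrix (Fin 2) (Fin 2) R₀) i j ∈ NO O₀ N ∧
      (GeneralLinearGroup.map π (GeneralLinearGroup.map (s : R →+* R) g)) i j -
        (1 : Matrix (Fin 2) (Fin 2) R₀) i j ∈ NO O₀ N ∧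
      (GeneralLinearGroup.map π (GeneralLinearGroup.map (s : R →+* R)
        (GeneralLinearGroup.map (s : R →+* R) g))) i j -
        (1 : Matrix (Fin 2) (Fin 2) R₀) i j ∈ NO O₀ N) := by
    intro i j
    rw [S.mem_NO_iff hO N]
    have e1 : π (g i j - (1 : Matrix (Fin 2) (Fin 2) R) i j) =
        (GeneralLinearGroup.map π g) i j - (1 : Matrix (Fin 2) (Fin 2) R₀) i j := by
      rw [map_sub, one_map]; rfl
    have e2 : π (s (g i j - (1 : Matrix (Fin 2) (Fin 2) R) i j)) =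
        (GeneralLinearGroup.map π (GeneralLinearGroup.map (s : R →+* R) g)) i j -
        (1 : Matrix (Fin 2) (Fin 2) R₀) i j := by
      rw [map_sub, map_sub, show π (s ((1 : Matrix (Fin 2) (Fin 2) R) i j)) = _ from
        one_map (π.comp (s : R →+* R)) i j]
      rfl
    have e3 : π (s (s (g i j - (1 : Matrix (Fin 2) (Fin 2) R) i j))) =
        (GeneralLinearGroup.map π (GeneralLinearGroup.map (s : R →+* R)
        (GeneralLinearGroup.map (s : R →+* R) g))) i j -
        (1 : Matrix (Fin 2) (Fin 2) R₀) i j := by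
      rw [map_sub, map_sub, map_sub, show π (s (s ((1 : Matrix (Fin 2) (Fin 2) R) i j))) = _ from
        one_map ((π.comp (s : R →+* R)).comp (s : R →+* R)) i j]
      rfl
    rw [e1, e2, e3]
  constructor
  · rintro ⟨⟨h1, h2, h3⟩, h4⟩
    exact ⟨⟨h1, fun i j => ((e i j).1 (h4 i j)).1⟩, ⟨h2, fun i j => ((e i j).1 (h4 i j)).2.1⟩,
      ⟨h3, fun i j => ((e i j).1 (h4 i j)).2.2⟩⟩
  · rintro ⟨⟨h1, h1'⟩, ⟨h2, h2'⟩, ⟨h3, h3'⟩⟩
    exact ⟨⟨h1, h2, h3⟩, fun i j => (e i j).2 ⟨h1' i j, h2' i j, h3' i j⟩⟩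

theorem isProd3_PO : IsProd3 (ProjGenLinGroup.map (n := Fin 2) (s : R →+* R))
    (ProjGenLinGroup.map (n := Fin 2) π) (PO O) (PO O₀) :=
  S.isProd3_map (isProd3_GLO hO)

theorem isProd3_PK (N : ℕ) : IsProd3 (ProjGenLinGroup.map (n := Fin 2) (s : R →+* R))
    (ProjGenLinGroup.map (n := Fin 2) π) (PK O N) (PK O₀ N) :=
  S.isProd3_map (S.isProd3_KN hO N)

end SplitRing

end Fermat.Agent.LT.Loc
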