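import Mathlib

/-!
# Cube roots near the identity, uniformly
-/

set_option autoImplicit false

open Filter Topology Metric

namespace Fermat.Agent.LT.Loc

variable {K : Type*} [NontriviallyNormedField K] {R : Type*} [NormedRing R] [NormedAlgebra K R]
  [CompleteSpace R]

/-- the map `(u, y) ↦ u⁻² (1 + y) u (1 + y) u (1 + y)` -/
noncomputable def cubePhi (p : R × R) : R :=
  Ring.inverse p.1 * Ring.inverse p.1 * (1 + p.2) * p.1 * (1 + p.2) * p.1 * (1 + p.2)

variable (K R) in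
/-- its derivative at `(1, 0)` -/
noncomputable def cubeD : R × R →L[K] R := (3 : K) • ContinuousLinearMap.snd K R R

theorem hasStrictFDerivAt_cubePhi :
    HasStrictFDerivAt (cubePhi : R × R → R) (cubeD K R) (1, 0) := by
  have e0 : HasStrictFDerivAt (fun p : R × R => p.1) (ContinuousLinearMap.fst K R R)
      ((1 : R), (0 : R)) := hasStrictFDerivAt_fst
  have e1 : HasStrictFDerivAt (fun p : R × R => 1 + p.2) (ContinuousLinearMap.snd K R R)
      ((1 : R), (0 : R)) := (hasStrictFDerivAt_snd (𝕜 := K) (p := ((1 : R), (0 : R)))).const_add 1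
  have e2 : HasStrictFDerivAt (fun p : R × R => Ring.inverse p.1)
      (-(ContinuousLinearMap.fst K R R)) ((1 : R), (0 : R)) := by
    have h3 := hasStrictFDerivAt_ringInverse (𝕜 := K) (1 : Rˣ)
    have h5 := HasStrictFDerivAt.comp ((1 : R), (0 : R)) (g := Ring.inverse)
      (f := fun p : R × R => p.1) h3 e0
    refine h5.congr_fderiv ?_
    ext p <;> simp
  have e5 := (((((e2.mul' e2).mul' e1).mul' e0).mul' e1).mul' e0).mul' e1
  refine e5.congr_fderiv ?_
  ext p
  · simp [cubeD]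
  · simp only [cubeD]
    simp
    rw [show (3 : K) = 1 + 1 + 1 by norm_num, add_smul, add_smul, one_smul]
    abel

/-- **Uniform cube roots near the identity.** -/
theorem cube_solve (h3 : (3 : K) ≠ 0) : ∃ U ∈ 𝓝 (1 : R), ∀ V ∈ 𝓝 (1 : R), ∃ W ∈ 𝓝 (1 : R),
    ∀ u ∈ U, IsUnit u → ∀ k ∈ W, ∃ y ∈ V, u * y * (u * y) * (u * y) = u * u * u * k := by
  have n3 : 0 < ‖(3 : K)‖ := norm_pos_iff.2 h3
  set c : NNReal := ‖(3 : K)‖₊ / 2 with hc
  have c0 : 0 < c := by
    rw [hc]
    exact half_pos (nnnorm_pos.2 h3)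
  obtain ⟨s, hs, happ⟩ := (hasStrictFDerivAt_cubePhi (K := K) (R := R)).approximates_deriv_on_nhds
    (Or.inr c0)
  obtain ⟨r, hr, hball⟩ := Metric.mem_nhds_iff.1 hs
  refine ⟨ball 1 r, ball_mem_nhds _ hr, fun V hV => ?_⟩
  obtain ⟨ε', hε', hV'⟩ := Metric.mem_nhds_iff.1 hV
  set ε := min (ε' / 2) (r / 2) with hε
  have ε0 : 0 < ε := lt_min (by linarith) (by linarith)
  refine ⟨closedBall 1 (‖(3 : K)‖ / 2 * ε), closedBall_mem_nhds _ (by positivity), ?_⟩
  intro u hu hunit k hk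
  -- the linear map `3`
  let f' : R →L[K] R := (3 : K) • ContinuousLinearMap.id K R
  let fs : f'.NonlinearRightInverse :=
    { toFun := fun y => (3 : K)⁻¹ • y
      nnnorm := ‖(3 : K)‖₊⁻¹
      bound' := fun y => by
        rw [norm_smul, norm_inv]
        simp
      right_inv' := fun y => by
        change (3 : K) • ((3 : K)⁻¹ • y) = y
        rw [smul_smul, mul_inv_cancel₀ h3, one_smul] }
  have happ' : ApproximatesLinearOn (fun y => cubePhi (u, y)) f' (closedBall 0 ε) c := by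
    intro y hy y' hy'
    have m : ∀ y ∈ closedBall (0 : R) ε, (u, y) ∈ s := by
      intro y hy
      refine hball ?_
      rw [mem_ball, Prod.dist_eq]
      refine max_lt hu ?_
      have : dist y 0 ≤ ε := hy
      exact this.trans_lt ((min_le_right _ _).trans_lt (by linarith))
    have h1 := happ (u, y) (m y hy) (u, y') (m y' hy')
    have h2 : ‖((u, y) : R × R) - (u, y')‖ = ‖y - y'‖ := by
      rw [Prod.mk_sub_mk, sub_self, Prod.norm_mk, norm_zero, max_eq_right (norm_nonneg _)]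
    rw [h2] at h1
    exact h1
  have hsurj := happ'.surjOn_closedBall_of_nonlinearRightInverse fs ε0.le subset_rfl
  have hf0 : cubePhi (u, (0 : R)) = 1 := by
    obtain ⟨u, rfl⟩ := hunit
    simp only [cubePhi, add_zero, mul_one, Ring.inverse_unit]
    rw [mul_assoc (((u⁻¹ : Rˣ) : R)), Units.inv_mul, mul_one, Units.inv_mul]
  have hk' : k ∈ closedBall (cubePhi (u, (0 : R))) (((fs.nnnorm : ℝ)⁻¹ - c) * ε) := by
    rw [hf0]
    have h4 : ((fs.nnnorm : ℝ)⁻¹ - c) = ‖(3 : K)‖ / 2 := by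
      change (((‖(3 : K)‖₊⁻¹ : NNReal) : ℝ)⁻¹ - ((‖(3 : K)‖₊ / 2 : NNReal) : ℝ)) = _
      push_cast
      rw [inv_inv]
      ring
    rw [h4]
    exact hk
  obtain ⟨y, hy, hyk⟩ := hsurj hk'
  refine ⟨1 + y, hV' ?_, ?_⟩
  · rw [mem_ball, dist_eq_norm, add_sub_cancel_left]
    have : ‖y‖ ≤ ε := mem_closedBall_zero_iff.1 hy
    exact this.trans_lt ((min_le_left _ _).trans_lt (by linarith))
  · obtain ⟨u, rfl⟩ := hunit
    rw [← hyk]
    simp only [cubePhi, Ring.inverse_unit]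
    have e1 : (u : R) * u * u * (((u⁻¹ : Rˣ) : R) * ((u⁻¹ : Rˣ) : R) * (1 + y) * u * (1 + y) * u *
        (1 + y)) = u * (u * (u * ((u⁻¹ : Rˣ) : R)) * ((u⁻¹ : Rˣ) : R)) * (1 + y) * u * (1 + y) * u *
        (1 + y) := by noncomm_ring
    rw [e1, Units.mul_inv, mul_one, Units.mul_inv, mul_one]
    noncomm_ring

end Fermat.Agent.LT.Loc
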