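import Fermat.Agent.LT.Loc.BadInst
import Fermat.Agent.LT.Loc.CubeSolve

/-!
# The data for the transfer near the identity at a bad nonsplit place, II
-/

set_option autoImplicit false

open Matrix Filter Topology
open scoped MatrixGroups

namespace Fermat.Agent.LT.Loc

local notation "M2" => Matrix (Fin 2) (Fin 2)

theorem Near.congr {L : Type*} [NormedField L] {ε : ℝ} {x y : M2 L} (hx : Near ε x)
    (ht : y.trace = x.trace) (hd : y.det = x.det) : Near ε y := by
  rw [Near, ht, hd]; exact hx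

theorem trace_conj {F : Type*} [Field F] (h y : GL (Fin 2) F) :
    ((h * y * h⁻¹ : GL (Fin 2) F) : M2 F).trace = (y : M2 F).trace := by
  rw [Units.val_mul, Units.val_mul, Matrix.trace_mul_comm, ← mul_assoc, ← Units.val_mul,
    inv_mul_cancel, Units.val_one, one_mul]

theorem det_conj {F : Type*} [Field F] (h y : GL (Fin 2) F) :
    ((h * y * h⁻¹ : GL (Fin 2) F) : M2 F).det = (y : M2 F).det := by
  rw [Units.val_mul, Units.val_mul, Matrix.det_mul, mul_comm, ← Matrix.det_mul, ← mul_assoc,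
    ← Units.val_mul, inv_mul_cancel, Units.val_one, one_mul]

variable {K L : Type*} [NontriviallyNormedField K] [NormedField L] [NormedAlgebra K L]
variable {σ : L →+* L} {VK : Lev K} {VL : Lev L}

theorem near_bcG {ε : ℝ} {g : GL (Fin 2) K} : Near ε (Lev.bcG K L g : M2 L) ↔ Near ε (g : M2 K) := by
  have h1 : (Lev.bcG K L g : M2 L).trace - 2 = algebraMap K L ((g : M2 K).trace - 2) := by
    rw [Matrix.trace_fin_two, Matrix.trace_fin_two]
    simp only [Lev.bcG_apply, map_sub, map_add, map_ofNat]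
  have h2 : (Lev.bcG K L g : M2 L).det - 1 = algebraMap K L ((g : M2 K).det - 1) := by
    rw [Matrix.det_fin_two, Matrix.det_fin_two]
    simp only [Lev.bcG_apply, map_sub, map_mul, map_one]
  rw [Near, Near, h1, h2, norm_algebraMap', norm_algebraMap']

namespace Setup

variable (S : Setup σ VK VL)
include S

theorem smallK (ε : ℝ) (hε : 0 < ε) : ∃ n, ∀ x, VK.dv n x → ‖x‖ < ε := by
  obtain ⟨n, hn⟩ := S.small ε hε
  refine ⟨n, fun x hx => ?_⟩
  rw [← norm_algebraMap' L x]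
  exact hn _ (S.comp.dv_iff.2 hx)

theorem dv_nhdsK (n : ℕ) : {x : K | VK.dv n x} ∈ 𝓝 (0 : K) := by
  have h1 : Continuous (algebraMap K L) := continuous_algebraMap K L
  have h2 := h1.tendsto 0
  rw [map_zero] at h2
  filter_upwards [h2 (S.dv_nhds n)] with x hx
  exact S.comp.dv_iff.1 hx

/-- lifting elements of the congruence subgroup -/
theorem exists_lift {n : ℕ} (hn : n ≠ 0) {x h : PGL(2, K)}
    (hx : Lev.bcP K L (h⁻¹ * x * h) ∈ VL.pcg n) :
    ∃ h' y : GL (Fin 2) K, ProjGenLinGroup.mk h' = h ∧ y ∈ VK.cg n ∧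
      ProjGenLinGroup.mk (h' * y * h'⁻¹) = x := by
  have h1 : h⁻¹ * x * h ∈ (VL.pcg n).comap (Lev.bcP K L) := hx
  rw [S.comp.comap hn] at h1
  obtain ⟨y, hy, hxy⟩ := h1
  induction h using ProjGenLinGroup.induction_on with
  | mk h' =>
  refine ⟨h', y, rfl, hy, ?_⟩
  rw [map_mul, map_mul, hxy, map_inv]
  group

theorem exists_lift' {n : ℕ} (hn : n ≠ 0) {u : PGL(2, K)}
    (hx : Lev.bcP K L u ∈ VL.pcg n) : ∃ y : GL (Fin 2) K, y ∈ VK.cg n ∧
      ProjGenLinGroup.mk y = u := by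
  have h1 : u ∈ (VL.pcg n).comap (Lev.bcP K L) := hx
  rw [S.comp.comap hn] at h1
  exact h1

end Setup

section Top

attribute [local instance] Matrix.linftyOpNormedRing Matrix.linftyOpNormedAlgebra
attribute [-instance] instTopologicalSpaceMatrix Matrix.instUniformSpace

variable [CompleteSpace K]

theorem Setup.exists_cube_lev (S : Setup σ VK VL) : ∃ m, ∀ n1 ≠ 0, ∃ n2 ≥ n1, ∀ u ∈ VK.cg m,
    ∀ k ∈ VK.cg n2, ∃ y ∈ VK.cg n1, u * y * (u * y) * (u * y) = u * u * u * k := by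
  have : CompleteSpace (M2 K) := FiniteDimensional.complete K _
  obtain ⟨U, hU, h⟩ := cube_solve (K := K) (R := M2 K) S.h3K
  obtain ⟨ε, hε, hbox⟩ := exists_box K hU
  obtain ⟨m, hm⟩ := S.smallK ε hε
  refine ⟨m, fun n1 hn1 => ?_⟩
  -- the neighbourhood for `y`
  have hV : {g : M2 K | VK.cgm n1 g} ∈ 𝓝 (1 : M2 K) := by
    have key : ∀ i j, ∀ᶠ g : M2 K in 𝓝 1, VK.dv n1 ((g - 1) i j) := by
      intro i j
      have h1 : Continuous fun g : M2 K => (g - 1) i j := by
        have := entry_continuous K (L := K) i j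
        simp only [Matrix.sub_apply]
        exact this.sub continuous_const
      have h2 := h1.tendsto 1
      rw [sub_self, Matrix.zero_apply] at h2
      exact h2 (S.dv_nhdsK n1)
    exact eventually_all.2 fun i => eventually_all.2 fun j => key i j
  obtain ⟨W, hW, h2⟩ := h _ hV
  obtain ⟨δ, hδ, hboxW⟩ := exists_box K hW
  obtain ⟨n2, hn2⟩ := S.smallK δ hδ
  refine ⟨max n1 n2, le_max_left _ _, fun u hu k hk => ?_⟩
  obtain ⟨y, hy, hyk⟩ := h2 (u : M2 K) (hbox _ fun i j => hm _ (hu.1 i j)) u.isUnit (k : M2 K)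
    (hboxW _ fun i j => hn2 _ ((hk.1 i j).mono (le_max_right _ _)))
  obtain ⟨b, hb, hb'⟩ := S.comp.jacK.inv hn1 (Lev.cgm.det hy)
  have hd : y.det ≠ 0 := by
    intro h0
    rw [h0, zero_mul] at hb'
    exact zero_ne_one hb'
  refine ⟨GeneralLinearGroup.mkOfDetNeZero y hd, S.comp.jacK.mem_cg hn1 hy, ?_⟩
  apply Units.ext
  exact hyk

end Top

namespace Setup

variable [CompleteSpace K] [FiniteDimensional K L]

variable (S : Setup σ VK VL)
include S

/-- **The data.** -/
theorem exists_data : ∃ n0, n0 ≠ 0 ∧ ∃ n3,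
    (∀ n1 ≥ n0, ∀ F : BiInv (VL.pcg n1), (∀ X, F.f X ≠ 0 → X ∈ VL.pcg n3) →
      NearData (ProjGenLinGroup.map σ) (Lev.bcP K L) (VL.pcg n0) (VL.pcg n1) F) ∧
    ∀ n1 ≥ n0, ∃ n2 ≥ n1, ∀ n ≥ n2,
      Level (Lev.bcP K L) (VL.pcg n0) (VL.pcg n1) (VK.pcg n) := by
  obtain ⟨ε₁, hε₁, huniq⟩ := exists_eps_scalar (K := K) S.h6 σ S.hσ S.hne S.hK S.hfix
  obtain ⟨ε₂, hε₂, hcube⟩ := exists_eps_cube S.h6K
  obtain ⟨m₁, hm₁⟩ := S.exists_near (lt_min hε₁.pos hε₂)
  obtain ⟨m₂, hm₂⟩ := S.exists_cube_lev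
  set n0 := max 1 (max m₁ m₂) with hn0
  have h1 : 1 ≤ n0 := le_max_left _ _
  have hn0' : n0 ≠ 0 := by omega
  have le1 : m₁ ≤ n0 := (le_max_left _ _).trans (le_max_right _ _)
  have le2 : m₂ ≤ n0 := (le_max_right _ _).trans (le_max_right _ _)
  obtain ⟨n3, hn3⟩ := S.exists_supp hn0'
  have hnear : ∀ y ∈ VK.cg n0, Near (min ε₁ ε₂) (y : M2 K) := fun y hy =>
    near_bcG.1 (hm₁ _ ((S.comp.mem_cg_iff.2 hy).1.mono le1))
  refine ⟨n0, hn0', n3, ?_, ?_⟩
  · intro n1 hn1 F hF
    refine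
      { inj := Lev.bcP_injective
        fixed := S.fixed
        sC := fun c hc => S.map_pcg hc
        sK := fun c hc => S.map_pcg hc
        le := Lev.pcg_mono hn1
        normal := fun c hc k hk => Lev.pcg_conj hc hk
        fin := Lev.finite_pcg S.finL n0 n1
        supp := fun X hX => hn3 X (hF X hX)
        uniq := ?_
        cube := ?_ }
    · intro h x u g hx hu hg
      obtain ⟨h', y, hh', hy, hxy⟩ := S.exists_lift hn0' hx
      obtain ⟨u', hu', hmu⟩ := S.exists_lift' hn0' hu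
      induction g using ProjGenLinGroup.induction_on with
      | mk g =>
      rw [mul_assoc, inv_mul_eq_iff_eq_mul, ← hxy, ← hmu, Lev.bcP_mk, Lev.bcP_mk,
        ProjGenLinGroup.map_mk, ← map_mul, ← map_mul, eq_comm, mk_eq_iff] at hg
      obtain ⟨z, hz, hg⟩ := hg
      have hnx : Near ε₁ (Lev.bcG K L (h' * y * h'⁻¹) : M2 L) :=
        near_bcG.2 (((hnear y hy).congr (trace_conj h' y) (det_conj h' y)).mono (min_le_left _ _))
      have hnu : Near ε₁ (Lev.bcG K L u' : M2 L) :=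
        near_bcG.2 ((hnear u' hu').mono (min_le_left _ _))
      obtain ⟨t, ht, htg, -⟩ := huniq _ _ (g : M2 L) ((g⁻¹ : GL (Fin 2) L) : M2 L) z
        (by rw [← Units.val_mul, mul_inv_cancel, Units.val_one]) hnx hnu
        (congrArg Units.val (S.map_bcG _)) (congrArg Units.val (S.map_bcG _)) hg
      rw [ProjGenLinGroup.map_mk, eq_comm, mk_eq_iff]
      have hst : σ t ≠ 0 := (map_ne_zero σ).2 ht
      refine ⟨t / σ t, div_ne_zero ht hst, ?_⟩
      ext i j
      have h3 := congrFun (congrFun htg i) j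
      simp only [RingHom.mapMatrix_apply, Matrix.map_apply, Matrix.smul_apply, smul_eq_mul,
        map_mul] at h3
      change σ ((g : M2 L) i j) = (t / σ t) * (g : M2 L) i j
      field_simp
      linear_combination h3
    · intro h x u hx hu hxu
      obtain ⟨h', y, hh', hy, hxy⟩ := S.exists_lift hn0' hx
      obtain ⟨u', hu', hmu⟩ := S.exists_lift' hn0' hu
      rw [← hxy, ← hmu, ← map_pow, ← map_pow, mk_eq_iff] at hxu
      obtain ⟨z, hz, hxu⟩ := hxu
      have hnx : Near ε₂ ((h' * y * h'⁻¹ : GL (Fin 2) K) : M2 K) :=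
        ((hnear y hy).congr (trace_conj h' y) (det_conj h' y)).mono (min_le_right _ _)
      have hnu : Near ε₂ (u' : M2 K) := (hnear u' hu').mono (min_le_right _ _)
      rw [← hxy, ← hmu, mk_eq_iff]
      generalize h' * y * h'⁻¹ = w at hxu hnx
      obtain ⟨m, hm, hxm⟩ := hcube _ _ z hnu hnx (by
        simpa only [Units.val_mul, pow_succ, pow_zero, one_mul] using hxu)
      exact ⟨m, hm, hxm⟩
  · intro n1 hn1
    obtain ⟨n2, hn2, h2⟩ := hm₂ n1 (by omega)
    refine ⟨n2, hn2, fun n hn => ?_⟩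
    have e1 : (VL.pcg n0).comap (Lev.bcP K L) = VK.pcg n0 := S.comp.comap hn0'
    refine
      { le := fun k hk => ?_
        normal := fun u hu k hk => ?_
        cube := fun u hu k hk => ?_
        fin := ?_ }
    · have h3 : k ∈ VK.pcg n1 := Lev.pcg_mono (by omega) hk
      rw [← S.comp.comap (by omega : n1 ≠ 0)] at h3
      exact h3
    · have h3 : u ∈ (VL.pcg n0).comap (Lev.bcP K L) := hu
      rw [e1] at h3
      exact Lev.pcg_conj h3 hk
    · obtain ⟨u', hu', rfl⟩ := S.exists_lift' hn0' hu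
      obtain ⟨k', hk', rfl⟩ := hk
      obtain ⟨y, hy, hyk⟩ := h2 u' (Lev.cg_mono le2 hu') k' (Lev.cg_mono hn hk')
      refine ⟨ProjGenLinGroup.mk y, ?_, ?_⟩
      · rw [Lev.bcP_mk]
        exact ⟨_, S.comp.mem_cg_iff.2 hy, rfl⟩
      · rw [← map_mul, ← map_pow, ← map_pow, ← map_mul]
        congr 1
        rw [pow_succ, pow_succ, pow_one, pow_succ, pow_succ, pow_one]
        exact hyk
    · rw [e1]
      exact Lev.finite_pcg S.finK n0 n

end Setup

end Fermat.Agent.LT.Loc
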