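import Fermat.Agent.LT.Loc.BadSetup
import Fermat.Agent.LT.Glob.ActE

set_option autoImplicit false

/-!
# Matching at the bad nonsplit places of a cyclic cubic extension of number fields
-/

namespace Fermat.Agent.LT.Loc

open Matrix Filter IsDedekindDomain IsDedekindDomain.HeightOneSpectrum WithZero NumberField
open Fermat.Agent.LT.Glob
open scoped MatrixGroups Topology

universe u t

/-- the local rings of integers have finite quotients -/
theorem finQuot_locFam {F : Type*} [Field F] [NumberField F] {ι : Type*} (L : LocFam F ι) (v : ι)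
    {q : ℕ} (hq : q ≠ 0) : FinQuot (L.O v) q := by
  intro n
  let f : 𝓞 F →+* L.O v :=
    { toFun := fun r => ⟨L.loc v (algebraMap (𝓞 F) F r), (L.isIntegral_iff _).1 r.2 v⟩
      map_one' := Subtype.ext (by simp)
      map_zero' := Subtype.ext (by simp)
      map_mul' := fun a b => Subtype.ext (by simp)
      map_add' := fun a b => Subtype.ext (by simp) }
  let g : 𝓞 F →+* L.O v ⧸ Ideal.span {(q : L.O v) ^ n} := (Ideal.Quotient.mk _).comp f
  have hg : Function.Surjective g := by
    intro y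
    obtain ⟨x, rfl⟩ := Ideal.Quotient.mk_surjective y
    classical
    obtain ⟨a, ha, ha'⟩ := L.dense {v} (Function.update (fun v => (0 : L.R v)) v x) (q ^ n)
      (pow_ne_zero n hq)
    have h1 := ha v (Finset.mem_singleton_self v)
    rw [Function.update_self] at h1
    have hint : IsIntegral ℤ a := by
      rw [L.isIntegral_iff]
      intro v'
      by_cases hv : v' = v
      · subst hv
        have h2 : L.loc v' a = (L.loc v' a - x) + x := by ring
        rw [h2]
        exact add_mem (NO_le _ _ h1) x.2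
      · exact ha' v' (by simpa using hv)
    refine ⟨⟨a, hint⟩, ?_⟩
    change Ideal.Quotient.mk _ (f ⟨a, hint⟩) = _
    rw [Ideal.Quotient.eq, Ideal.mem_span_singleton']
    obtain ⟨y, hy, h2⟩ := h1
    refine ⟨⟨y, hy⟩, Subtype.ext ?_⟩
    change y * ((q : L.R v)) ^ n = L.loc v a - x
    rw [h2]
    push_cast
    ring
  have hI : (Ideal.span {((q : 𝓞 F)) ^ n}) ≤ RingHom.ker g := by
    rw [Ideal.span_singleton_le_iff_mem, RingHom.mem_ker]
    change Ideal.Quotient.mk _ (f ((q : 𝓞 F) ^ n)) = 0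
    rw [Ideal.Quotient.eq_zero_iff_mem, map_pow, map_natCast]
    exact Ideal.mem_span_singleton_self _
  have hne : Ideal.span {((q : 𝓞 F)) ^ n} ≠ ⊥ := by
    rw [Ne, Ideal.span_singleton_eq_bot]
    exact pow_ne_zero n (by exact_mod_cast hq)
  have hfin := Ideal.finiteQuotientOfFreeOfNeBot _ hne
  refine Finite.of_surjective (Ideal.Quotient.lift (Ideal.span {((q : 𝓞 F)) ^ n}) g
    (fun a ha => hI ha)) ?_
  intro y
  obtain ⟨r, hr⟩ := hg y
  exact ⟨Ideal.Quotient.mk _ r, by rw [Ideal.Quotient.lift_mk, hr]⟩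

/-- roots of monic polynomials with integral coefficients are integral -/
theorem val_le_one_of_root {F Γ : Type*} [Field F] [LinearOrderedCommGroupWithZero Γ]
    (v : Valuation F Γ) {P : Polynomial F} (hP : P.Monic) (hc : ∀ i, v (P.coeff i) ≤ 1) {x : F}
    (hx : P.eval x = 0) : v x ≤ 1 := by
  by_contra hlt
  push Not at hlt
  have hx0 : v x ≠ 0 := fun h0 => by
    rw [h0] at hlt
    exact absurd hlt (by simp)
  rw [Polynomial.eval_eq_sum_range, Finset.sum_range_succ, hP.coeff_natDegree, one_mul] at hx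
  have h1 : x ^ P.natDegree = -∑ i ∈ Finset.range P.natDegree, P.coeff i * x ^ i := by
    linear_combination hx
  have h2 : v (-∑ i ∈ Finset.range P.natDegree, P.coeff i * x ^ i) < v x ^ P.natDegree := by
    rw [Valuation.map_neg]
    refine v.map_sum_lt (pow_ne_zero _ hx0) fun i hi => ?_
    rw [map_mul, map_pow]
    refine (mul_le_of_le_one_left' (hc i)).trans_lt ?_
    exact pow_lt_pow_right₀ hlt (Finset.mem_range.1 hi)
  rw [← h1, map_pow] at h2
  exact lt_irrefl _ h2

variable {k E : Type u} [Field k] [NumberField k] [Field E] [NumberField E] [Algebra k E]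

/-- **Matching at the bad nonsplit places**, with finiteness of the support -/
theorem exists_isMatch_E' {σ : E ≃ₐ[k] E} (h : Gal3 σ) (v : HeightOneSpectrum (𝓞 k))
    (hv : IsField (RE E v)) {q : ℕ} (hq0 : q ≠ 0) (hqv : (q : 𝓞 k) ∈ v.asIdeal) :
    ∃ n0, ∀ n3 ≥ n0, ∀ n1 ≥ n3, ∃ n2 ≥ n1, ∀ n ≥ n2,
    ∀ (hU : ∀ g ∈ PK (OE E v) (q ^ n1),
        ProjGenLinGroup.map (sEquiv v σ : RE E v →+* RE E v) g ∈ PK (OE E v) (q ^ n1))
      (F : BiInv (PK (OE E v) (q ^ n1))), (∀ X, F.f X ≠ 0 → X ∈ PK (OE E v) (q ^ n3)) →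
      ∃ f : BiInv (PK (Oc (K := k) v) (q ^ n)), f.Fin ∧
        IsMatch.{u, t} (strE E v) (sEquiv v σ : RE E v →+* RE E v) hU F f := by
  have hG := gal3_RE (v := v) h
  have hqk : (q : v.adicCompletion k) ≠ 0 := natCast_adicCompletion_ne_zero v hq0
  have hqE : (q : RE E v) ≠ 0 := by
    rw [← map_natCast (strE E v) q]
    exact (map_ne_zero_iff _ strE_injective).2 hqk
  have hq1 : Valued.v (q : v.adicCompletion k) < 1 := by
    have e1 : (q : v.adicCompletion k) = algebraMap k (v.adicCompletion k) (q : k) :=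
      (map_natCast _ q).symm
    rw [e1, valued_algebraMap]
    have e2 : (q : k) = algebraMap (𝓞 k) k (q : 𝓞 k) := (map_natCast _ q).symm
    rw [e2]
    exact (mem_iff_valuation_lt_one v _).1 hqv
  let _ : NontriviallyNormedField (v.adicCompletion k) :=
    Valued.toNontriviallyNormedField (v.adicCompletion k) ℤᵐ⁰
  have _ : IsUltrametricDist (v.adicCompletion k) := inferInstance
  have _ : Module.Finite (v.adicCompletion k) (RE E v) := hG.finite
  refine exists_isMatch_ring (K := v.adicCompletion k) (L := RE E v) hv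
    (sEquiv v σ : RE E v →+* RE E v) hG.cube ?_ (fun c => sHom_str σ c) hG.fixed ?_ (Oc v)
    (fun x => ?_) (OE E v) ?_ (fun a ha => sHom_mem σ ha) q hqk hqE ?_ ?_
    (finQuot_locFam (locK k) v hq0) (finQuot_locFam (locE k E) v hq0)
  · by_contra hcon
    push Not at hcon
    obtain ⟨n, x, y, h1, h2, -⟩ := hG.dual
    have h3 : ∑ i, x i * sAlg v σ (y i) = ∑ i, x i * y i :=
      Finset.sum_congr rfl fun i _ => by rw [show sAlg v σ (y i) = y i from hcon (y i)]
    rw [h1, h2] at h3
    exact zero_ne_one h3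
  · have h6 : (6 : RE E v) = strE E v ((6 : ℕ) : v.adicCompletion k) := by
      rw [map_natCast]; norm_num
    rw [h6]
    exact (map_ne_zero_iff _ strE_injective).2 (natCast_adicCompletion_ne_zero v (by norm_num))
  · rw [mem_Oc]
    exact Valued.toNormedField.norm_le_one_iff.symm
  · intro x hx w
    rw [mem_Oc]
    have hmon := minpoly.monic (Algebra.IsIntegral.isIntegral (R := v.adicCompletion k) x)
    refine val_le_one_of_root _ (hmon.map (ext (above_fib w))) (fun i => ?_) ?_
    · rw [Polynomial.coeff_map, ← mem_Oc, ext_mem_Oc, mem_Oc]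
      exact Valued.toNormedField.norm_le_one_iff.1 (hx i)
    · have h1 := minpoly.aeval (v.adicCompletion k) x
      have h2 := congrFun h1 w
      rw [Polynomial.aeval_def, Polynomial.eval₂_eq_eval_map] at h2
      have h3 : (Pi.evalRingHom (fun w : Fib E v => w.1.adicCompletion E) w)
          (Polynomial.eval x (Polynomial.map (algebraMap (v.adicCompletion k) (RE E v))
            (minpoly (v.adicCompletion k) x))) = 0 := h2
      rw [← Polynomial.eval_map_apply, Polynomial.map_map] at h3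
      exact h3
  · exact Valued.toNormedField.norm_lt_one_iff.2 hq1
  · intro y hy h1
    obtain ⟨w⟩ := (inferInstance : Nonempty (Fib E v))
    have h2 : (q : w.1.adicCompletion E) * y w = 1 := congrFun h1 w
    have h3 := congrArg Valued.v h2
    rw [map_mul, map_one] at h3
    have h4 : Valued.v (q : w.1.adicCompletion E) < 1 := by
      rw [← map_natCast (ext (above_fib w)) q, valued_ext]
      exact pow_lt_one₀ zero_le hq1 (above_fib w).1
    have h5 : Valued.v (y w) ≤ 1 := hy w
    have h6 : Valued.v (q : w.1.adicCompletion E) * Valued.v (y w) < 1 :=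
      (mul_le_of_le_one_right' h5).trans_lt h4
    exact h6.ne h3

/-- **Matching at the bad nonsplit places.** -/
theorem exists_isMatch_E {σ : E ≃ₐ[k] E} (h : Gal3 σ) (v : HeightOneSpectrum (𝓞 k))
    (hv : IsField (RE E v)) {q : ℕ} (hq0 : q ≠ 0) (hqv : (q : 𝓞 k) ∈ v.asIdeal) :
    ∃ n0, ∀ n3 ≥ n0, ∀ n1 ≥ n3, ∃ n2 ≥ n1, ∀ n ≥ n2,
    ∀ (hU : ∀ g ∈ PK (OE E v) (q ^ n1),
        ProjGenLinGroup.map (sEquiv v σ : RE E v →+* RE E v) g ∈ PK (OE E v) (q ^ n1))
      (F : BiInv (PK (OE E v) (q ^ n1))), (∀ X, F.f X ≠ 0 → X ∈ PK (OE E v) (q ^ n3)) →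
      ∃ f : BiInv (PK (Oc (K := k) v) (q ^ n)),
        IsMatch.{u, t} (strE E v) (sEquiv v σ : RE E v →+* RE E v) hU F f := by
  obtain ⟨n0, h0⟩ := exists_isMatch_E' h v hv hq0 hqv
  refine ⟨n0, fun n3 h3 n1 h1 => ?_⟩
  obtain ⟨n2, h2, h4⟩ := h0 n3 h3 n1 h1
  refine ⟨n2, h2, fun n hn hU F hF => ?_⟩
  obtain ⟨f, -, hf⟩ := h4 n hn hU F hF
  exact ⟨f, hf⟩

end Fermat.Agent.LT.Loc
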