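import Mathlib

/-!
# Twisted conjugacy near the identity

`R` is a Banach algebra over a nontrivially normed field `K` in which `3 ≠ 0`, and `σ` is a
continuous automorphism with `σ ^ 3 = 1`.  Every element of `R` near `1` is of the form
`c⁻¹ x σ(c)` with `c` near `1` and `x` near `1`, `σ x = x`.
-/

set_option autoImplicit false

open Filter Topology

namespace Fermat.Agent.LT.Loc

variable {K : Type*} [NontriviallyNormedField K] {R : Type*} [NormedRing R] [NormedAlgebra K R]
  [CompleteSpace R]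

/-- the fixed subspace -/
def fixS (σ : R →L[K] R) : Submodule K R where
  carrier := {x | σ x = x}
  add_mem' := by
    intro a b ha hb
    rw [Set.mem_ofPred_eq] at *
    rw [map_add, ha, hb]
  zero_mem' := by rw [Set.mem_ofPred_eq, map_zero]
  smul_mem' := by
    intro c a ha
    rw [Set.mem_ofPred_eq] at *
    rw [map_smul, ha]

theorem mem_fixS {σ : R →L[K] R} {x : R} : x ∈ fixS σ ↔ σ x = x := Iff.rfl

theorem isClosed_fixS (σ : R →L[K] R) : IsClosed (fixS σ : Set R) :=
  isClosed_eq σ.continuous continuous_id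

/-- **Every element near `1` is twisted conjugate to a fixed element.** -/
theorem sigma_conj_mem_nhds (h3 : (3 : K) ≠ 0) (σ : R →L[K] R) (h1 : σ 1 = 1)
    (hσ : ∀ x, σ (σ (σ x)) = x) {U U0 : Set R} (hU : U ∈ 𝓝 (1 : R)) (hU0 : U0 ∈ 𝓝 (1 : R)) :
    {X : R | ∃ c ∈ U, IsUnit c ∧ ∃ x ∈ U0, σ x = x ∧ X = Ring.inverse c * x * σ c} ∈
      𝓝 (1 : R) := by
  haveI : CompleteSpace (fixS σ) := (isClosed_fixS σ).completeSpace_coe
  -- the map
  let Φ : fixS σ × R → R := fun p => Ring.inverse (1 + p.2) * ((1 + p.1) * (1 + σ p.2))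
  let D : fixS σ × R →L[K] R :=
    (fixS σ).subtypeL ∘L ContinuousLinearMap.fst K _ _ + σ ∘L ContinuousLinearMap.snd K _ _ -
      ContinuousLinearMap.snd K _ _
  have hΦ0 : Φ 0 = 1 := by
    simp [Φ]
  have hD : HasStrictFDerivAt Φ D 0 := by
    have e1 : HasStrictFDerivAt (fun p : fixS σ × R => 1 + p.2)
        (ContinuousLinearMap.snd K (fixS σ) R) 0 := by
      have := (hasStrictFDerivAt_snd (𝕜 := K) (p := (0 : fixS σ × R))).const_add (1 : R)
      exact this
    have e2 : HasStrictFDerivAt (fun p : fixS σ × R => Ring.inverse (1 + p.2))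
        (-(ContinuousLinearMap.snd K (fixS σ) R)) 0 := by
      have h2 : HasStrictFDerivAt (Ring.inverse : R → R)
          (-ContinuousLinearMap.mulLeftRight K R ↑(1 : Rˣ)⁻¹ ↑(1 : Rˣ)⁻¹)
          ((fun p : fixS σ × R => 1 + p.2) 0) := by
        have h3 := hasStrictFDerivAt_ringInverse (𝕜 := K) (1 : Rˣ)
        have h4 : ((1 : Rˣ) : R) = (fun p : fixS σ × R => 1 + p.2) 0 := by simp
        rwa [← h4]
      have h5 := h2.comp (0 : fixS σ × R) e1
      refine h5.congr_fderiv ?_
      ext p <;> simp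
    have e3 : HasStrictFDerivAt (fun p : fixS σ × R => (1 : R) + (p.1 : R))
        ((fixS σ).subtypeL ∘L ContinuousLinearMap.fst K (fixS σ) R) 0 := by
      have := ((fixS σ).subtypeL.hasStrictFDerivAt (x := (0 : fixS σ))).comp (0 : fixS σ × R)
        (hasStrictFDerivAt_fst (𝕜 := K) (p := (0 : fixS σ × R)))
      exact this.const_add (1 : R)
    have e4 : HasStrictFDerivAt (fun p : fixS σ × R => (1 : R) + σ p.2)
        (σ ∘L ContinuousLinearMap.snd K (fixS σ) R) 0 := by
      have := (σ.hasStrictFDerivAt (x := (0 : R))).comp (0 : fixS σ × R)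
        (hasStrictFDerivAt_snd (𝕜 := K) (p := (0 : fixS σ × R)))
      exact this.const_add (1 : R)
    have e5 := e2.mul' (e3.mul' e4)
    refine e5.congr_fderiv ?_
    ext p <;> simp [D]
    abel
  have hsurj : D.range = ⊤ := by
    rw [LinearMap.range_eq_top]
    intro t
    let y : R := (3 : K)⁻¹ • (t + σ t + σ (σ t))
    have hy : σ y = y := by
      simp only [y, map_smul, map_add, hσ]
      congr 1
      abel
    let s : R := t - y
    have hs : s + σ s + σ (σ s) = 0 := by
      have e : s + σ s + σ (σ s) = (t + σ t + σ (σ t)) - (y + y + y) := by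
        simp only [s, map_sub, hy]
        abel
      have e3 : y + y + y = t + σ t + σ (σ t) := by
        have : y + y + y = (3 : K) • y := by
          rw [show (3 : K) = 1 + 1 + 1 by norm_num, add_smul, add_smul, one_smul]
        rw [this, smul_smul, mul_inv_cancel₀ h3, one_smul]
      rw [e, e3, sub_self]
    refine ⟨(⟨y, hy⟩, -((3 : K)⁻¹ • (s + s + σ s))), ?_⟩
    have e : D (⟨y, hy⟩, -((3 : K)⁻¹ • (s + s + σ s))) =
        y + σ (-((3 : K)⁻¹ • (s + s + σ s))) - (-((3 : K)⁻¹ • (s + s + σ s))) := rfl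
    have e2 : y + σ (-((3 : K)⁻¹ • (s + s + σ s))) - (-((3 : K)⁻¹ • (s + s + σ s))) =
        y + (3 : K)⁻¹ • ((s + s + s) - (s + σ s + σ (σ s))) := by
      simp only [map_neg, map_smul, map_add]
      rw [sub_neg_eq_add, add_assoc, ← smul_neg, ← smul_add]
      congr 2
      abel
    have e3 : (3 : K)⁻¹ • (s + s + s) = s := by
      have : s + s + s = (3 : K) • s := by
        rw [show (3 : K) = 1 + 1 + 1 by norm_num, add_smul, add_smul, one_smul]
      rw [this, smul_smul, inv_mul_cancel₀ h3, one_smul]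
    change D (⟨y, hy⟩, -((3 : K)⁻¹ • (s + s + σ s))) = t
    rw [e, e2, hs, sub_zero, e3]
    simp [s]
  have hmap := hD.map_nhds_eq_of_surj hsurj
  rw [hΦ0] at hmap
  rw [← hmap, Filter.mem_map]
  -- continuity
  have c1 : Tendsto (fun p : fixS σ × R => 1 + p.2) (𝓝 0) (𝓝 (1 : R)) := by
    have : Continuous fun p : fixS σ × R => 1 + p.2 := by fun_prop
    have h := this.tendsto 0
    simpa using h
  have c2 : Tendsto (fun p : fixS σ × R => (1 : R) + (p.1 : R)) (𝓝 0) (𝓝 (1 : R)) := by
    have : Continuous fun p : fixS σ × R => (1 : R) + (p.1 : R) := by fun_prop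
    have h := this.tendsto 0
    simpa using h
  have hun : {c : R | IsUnit c} ∈ 𝓝 (1 : R) := Units.isOpen.mem_nhds isUnit_one
  filter_upwards [c1 hU, c1 hun, c2 hU0] with p hp1 hp2 hp3
  exact ⟨1 + p.2, hp1, hp2, 1 + p.1, hp3, by rw [map_add, h1, p.1.2], by
    simp [Φ, h1, mul_assoc]⟩

end Fermat.Agent.LT.Loc
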