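import Fermat.Agent.LT.Loc.Match

/-!
# Transfer near the identity
-/

set_option autoImplicit false

universe u

namespace Fermat.Agent.LT.Loc

variable {G H : Type u} [Group G] [Group H] {σ : G →* G} {ι : H →* G}
  {C K : Subgroup G} {F : BiInv K} {K' : Subgroup H}

/-- the action of the centraliser on the correspondence -/
abbrev corrAct {T : Type*} [Group T] (j : T →* H) (K' : Subgroup H) (W : Type*) :
    MulAction T ((H ⧸ K') × W) where
  smul t z := (j t • z.1, z.2)
  one_smul z := by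
    change (j 1 • z.1, z.2) = z
    rw [map_one, one_smul]
  mul_smul t t' z := by
    change (j (t * t') • z.1, z.2) = (j t • (j t' • z.1), z.2)
    rw [map_mul, mul_smul]

theorem tw_conj (F : BiInv K) (σ : G →* G) (hσ : ∀ k ∈ K, σ k ∈ K) (s x X : G)
    (hX : X = s * x * (σ s)⁻¹) (y : G) :
    F.tw σ hσ X ((s * y : G) : G ⧸ K) = F.tw σ hσ x (y : G ⧸ K) := by
  rw [BiInv.tw_mk, BiInv.tw_mk, hX]
  congr 1
  rw [map_mul]
  group

/-- **Transfer near the identity**, for `X = s x σ(s)⁻¹`, `x` near `1`. -/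
theorem transfer_aux (D : NearData σ ι C K F) (L : Level ι C K K')
    {T : Type*} [Group T] [MulAction T (G ⧸ K)] [MulAction T (H ⧸ K')] (j : T →* H)
    (hact : ∀ (t : T) (g : G), t • (g : G ⧸ K) = ((ι (j t) * g : G) : G ⧸ K))
    (hact' : ∀ (t : T) (h : H), t • (h : H ⧸ K') = ((j t * h : H) : H ⧸ K'))
    {γ x h₀ : H} {X s : G} (hx : ι (h₀⁻¹ * x * h₀) ∈ C) (hγ : x ^ 3 = γ)
    (hX : X = s * ι x * (σ s)⁻¹) (hs : ∀ t : T, ι (j t) * s = s * ι (j t))
    (hxt : ∀ t : T, j t * x = x * j t) :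
    ∃ R : LocalCorr.{u} T (G ⧸ K) (H ⧸ K') (F.tw σ D.sK X)
      ((trfBi D L (idx ι C K')).tw (MonoidHom.id H) (fun _ h => h) γ), R.NC := by
  have fC := D.fin
  have fL := L.fin
  have n0 := idx_ne_zero L
  let act := corrAct j K' (C ⧸ K.subgroupOf C)
  have hσι : ∀ h : H, σ (ι h) = ι h := fun h => (D.fixed _).2 ⟨h, rfl⟩
  have hsmul : ∀ (t : T) (h : H) (c : C ⧸ K.subgroupOf C),
      t • (((h : H ⧸ K'), c) : (H ⧸ K') × (C ⧸ K.subgroupOf C)) = (((j t * h : H) : H ⧸ K'), c) :=
    fun _ _ _ => rfl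
  have hp : ∀ (t : T) (z : (H ⧸ K') × (C ⧸ K.subgroupOf C)),
      pmap D L s (t • z) = t • pmap D L s z := by
    rintro t ⟨z1, z2⟩
    induction z1 using QuotientGroup.induction_on with
    | H h =>
    induction z2 using QuotientGroup.induction_on with
    | H c =>
    rw [hsmul, pmap_mk, pmap_mk, hact, map_mul]
    congr 1
    rw [← mul_assoc s, ← hs]
    group
  have htw : ∀ (t : T) (y : G ⧸ K), F.tw σ D.sK X (t • y) = F.tw σ D.sK X y := by
    intro t y
    induction y using QuotientGroup.induction_on with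
    | H y =>
    rw [hact, BiInv.tw_mk, BiInv.tw_mk]
    congr 1
    have h1 : σ s * ι (j t) = ι (j t) * σ s := by
      have := congrArg σ (hs t)
      rw [map_mul, map_mul, hσι] at this
      exact this.symm
    have h2 : (ι (j t))⁻¹ * X * ι (j t) = X := by
      rw [hX]
      have h3 : (σ s)⁻¹ * ι (j t) = ι (j t) * (σ s)⁻¹ := by
        rw [inv_mul_eq_iff_eq_mul, ← mul_assoc, h1, mul_assoc, mul_inv_cancel, mul_one]
      have h4 : ι x * ι (j t) = ι (j t) * ι x := by rw [← map_mul, ← hxt, map_mul]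
      calc (ι (j t))⁻¹ * (s * ι x * (σ s)⁻¹) * ι (j t)
          = (ι (j t))⁻¹ * (s * ι x * ((σ s)⁻¹ * ι (j t))) := by group
        _ = (ι (j t))⁻¹ * (s * (ι x * ι (j t)) * (σ s)⁻¹) := by rw [h3]; group
        _ = (ι (j t))⁻¹ * ((s * ι (j t)) * ι x * (σ s)⁻¹) := by rw [h4]; group
        _ = s * ι x * (σ s)⁻¹ := by rw [← hs]; group
    rw [map_mul, hσι]
    calc (ι (j t) * y)⁻¹ * X * (ι (j t) * σ y) = y⁻¹ * ((ι (j t))⁻¹ * X * ι (j t)) * σ y := by
          group
      _ = y⁻¹ * X * σ y := by rw [h2]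
  -- the cardinality of the fibres
  have hfib : ∀ y : G ⧸ K, F.tw σ D.sK X y ≠ 0 → {z | pmap D L s z = y}.Finite ∧
      {z | pmap D L s z = y}.ncard =
        Nat.card ((C.comap ι) ⧸ K'.subgroupOf (C.comap ι)) := by
    intro y h0
    induction y using QuotientGroup.induction_on with
    | H y =>
    obtain ⟨c, hc, u, hu, h1⟩ := D.supp _ (by rwa [BiInv.tw_mk] at h0)
    set g : G := s⁻¹ * y * c⁻¹ with hg
    have hgu : g⁻¹ * ι x * σ g = ι u := by
      have h3 : ι x = s⁻¹ * X * σ s := by rw [hX]; group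
      have h4 : ι u = c * (y⁻¹ * X * σ y) * (σ c)⁻¹ := by rw [h1]; group
      rw [h3, h4, hg, map_mul, map_mul, map_inv, map_inv]
      group
    have hσg := D.uniq h₀ x u g hx hu hgu
    obtain ⟨h, hh⟩ := (D.fixed _).1 hσg
    have hy : y = s * ι h * c := by rw [hh, hg]; group
    have hcard : {z | pmap D L s z = (y : G ⧸ K)}.ncard =
        Nat.card ((C.comap ι) ⧸ K'.subgroupOf (C.comap ι)) := by
      rw [hy, ← range_fibmap D L s h ⟨c, hc⟩]
      exact Nat.card_congr (Equiv.ofInjective _ (fibmap_injective D L h ⟨c, hc⟩)).symm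
    have hfin : {z | pmap D L s z = (y : G ⧸ K)}.Finite := by
      rw [hy, ← range_fibmap D L s h ⟨c, hc⟩]
      exact Set.finite_range _
    exact ⟨hfin, hcard⟩
  refine ⟨{ Z := (H ⧸ K') × (C ⧸ K.subgroupOf C)
            act := act
            p := pmap D L s
            q := Prod.fst
            p_smul := hp
            q_smul := ?_
            w := fun z => (idx ι C K')⁻¹ * F.tw σ D.sK X (pmap D L s z)
            w_smul := fun t z => by rw [hp, htw]
            fin_p := ?_
            fin_q := ?_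
            sum_p := ?_
            sum_q := ?_ }, ?_⟩
  · rintro t ⟨z1, z2⟩
    induction z1 using QuotientGroup.induction_on with
    | H h => exact (hact' t h).symm
  · intro y
    by_cases hne : ∃ z, pmap D L s z = y
    · obtain ⟨⟨z1, z2⟩, rfl⟩ := hne
      induction z1 using QuotientGroup.induction_on with
      | H h =>
      induction z2 using QuotientGroup.induction_on with
      | H c =>
      rw [pmap_mk, ← range_fibmap D L s h c]
      exact Set.finite_range _
    · push Not at hne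
      convert Set.finite_empty
      ext z
      simp only [Set.mem_ofPred_eq, Set.mem_empty_iff_false, iff_false]
      exact hne z
  · intro y
    refine (Set.finite_range (fun c : C ⧸ K.subgroupOf C => (y, c))).subset ?_
    rintro ⟨z1, z2⟩ hz
    exact ⟨z2, by rw [← (show z1 = y from hz)]⟩
  · intro y
    have e1 : ∑ᶠ z ∈ {z | pmap D L s z = y}, (idx ι C K')⁻¹ * F.tw σ D.sK X (pmap D L s z) =
        ∑ᶠ z ∈ {z | pmap D L s z = y}, (idx ι C K')⁻¹ * F.tw σ D.sK X y :=
      finsum_mem_congr rfl fun z hz => by rw [show pmap D L s z = y from hz]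
    rw [e1]
    by_cases h0 : F.tw σ D.sK X y = 0
    · rw [h0, mul_zero, finsum_mem_zero]
    · obtain ⟨hfin, hcard⟩ := hfib y h0
      rw [finsum_mem_eq_finite_toFinset_sum _ hfin, Finset.sum_const,
        ← Set.ncard_eq_toFinset_card _ hfin, hcard, nsmul_eq_mul, ← mul_assoc]
      change idx ι C K' * (idx ι C K')⁻¹ * _ = _
      rw [mul_inv_cancel₀ n0, one_mul]
  · intro y
    induction y using QuotientGroup.induction_on with
    | H h =>
    -- the sum over the fibre
    have e1 : ∑ᶠ z ∈ {z : (H ⧸ K') × (C ⧸ K.subgroupOf C) | z.1 = (h : H ⧸ K')},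
        (idx ι C K')⁻¹ * F.tw σ D.sK X (pmap D L s z) =
        (idx ι C K')⁻¹ * avg F σ D.sK C (ι (h⁻¹ * x * h)) := by
      have e2 : {z : (H ⧸ K') × (C ⧸ K.subgroupOf C) | z.1 = (h : H ⧸ K')} =
          Set.range (fun c : C ⧸ K.subgroupOf C => ((h : H ⧸ K'), c)) := by
        ext ⟨z1, z2⟩
        constructor
        · intro hz
          exact ⟨z2, by rw [← (show z1 = (h : H ⧸ K') from hz)]⟩
        · rintro ⟨c, hc⟩
          exact (congrArg Prod.fst hc).symm
      rw [e2, finsum_mem_range (fun a b hab => congrArg Prod.snd hab), avg, mul_finsum]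
      · congr 1
        ext c
        induction c using QuotientGroup.induction_on with
        | H c =>
        rw [pmap_mk, qmap_mk, mul_assoc s, tw_conj F σ D.sK s (ι x) X hX, BiInv.tw_mk,
          BiInv.tw_mk]
        congr 2
        rw [map_mul, map_mul, map_mul, map_inv, hσι]
        group
    rw [e1, BiInv.tw_mk, trfBi_f]
    have e3 : h⁻¹ * γ * (MonoidHom.id H) h = (h⁻¹ * x * h) ^ 3 := by
      rw [← hγ]
      simp only [MonoidHom.id_apply, pow_succ, pow_zero]
      group
    rw [e3]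
    by_cases hC : ι (h⁻¹ * x * h) ∈ C
    · rw [trf_cube D _ hC]
    · rw [avg_eq_zero D hC, mul_zero, trf_eq_zero D]
      rintro ⟨u, hu, hu'⟩
      apply hC
      have h5 : (h⁻¹ * h₀)⁻¹ * (h⁻¹ * x * h) * (h⁻¹ * h₀) = h₀⁻¹ * x * h₀ := by group
      rw [D.cube (h⁻¹ * h₀) (h⁻¹ * x * h) u (by rw [h5]; exact hx) hu hu'.symm]
      exact hu
  · intro y
    change ∑ᶠ z ∈ {z | pmap D L s z = y}, ‖(idx ι C K')⁻¹ * F.tw σ D.sK X (pmap D L s z)‖ =
      ‖F.tw σ D.sK X y‖
    have e1 : ∑ᶠ z ∈ {z | pmap D L s z = y}, ‖(idx ι C K')⁻¹ * F.tw σ D.sK X (pmap D L s z)‖ =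
        ∑ᶠ z ∈ {z | pmap D L s z = y}, ‖(idx ι C K')⁻¹ * F.tw σ D.sK X y‖ :=
      finsum_mem_congr rfl fun z hz => by rw [show pmap D L s z = y from hz]
    rw [e1]
    by_cases h0 : F.tw σ D.sK X y = 0
    · rw [h0, mul_zero, norm_zero, finsum_mem_zero]
    · obtain ⟨hfin, hcard⟩ := hfib y h0
      rw [finsum_mem_eq_finite_toFinset_sum _ hfin, Finset.sum_const,
        ← Set.ncard_eq_toFinset_card _ hfin, hcard, nsmul_eq_mul, norm_mul, ← mul_assoc]
      have e2 : ((Nat.card ((C.comap ι) ⧸ K'.subgroupOf (C.comap ι)) : ℕ) : ℝ) =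
          ‖idx ι C K'‖ := by
        rw [idx, Complex.norm_natCast]
      rw [e2, ← norm_mul, mul_inv_cancel₀ n0, norm_one, one_mul]

/-- **Transfer near the identity.**  `γ` is the norm of `X`. -/
theorem transfer (D : NearData σ ι C K F) (L : Level ι C K K')
    {T : Type*} [Group T] [MulAction T (G ⧸ K)] [MulAction T (H ⧸ K')] (j : T →* H)
    (hact : ∀ (t : T) (g : G), t • (g : G ⧸ K) = ((ι (j t) * g : G) : G ⧸ K))
    (hact' : ∀ (t : T) (h : H), t • (h : H ⧸ K') = ((j t * h : H) : H ⧸ K'))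
    (γ : H) (X : G)
    (hnorm : ∀ (g : G) (u : H), ι u ∈ C → X = g * ι u * (σ g)⁻¹ →
      ∃ x h₀ : H, h₀⁻¹ * x * h₀ = u ∧ x ^ 3 = γ)
    (htor : ∀ x h₀ : H, ι (h₀⁻¹ * x * h₀) ∈ C → x ^ 3 = γ → ∃ s : G, X = s * ι x * (σ s)⁻¹ ∧
      (∀ t : T, ι (j t) * s = s * ι (j t)) ∧ ∀ t : T, j t * x = x * j t) :
    ∃ R : LocalCorr.{u} T (G ⧸ K) (H ⧸ K') (F.tw σ D.sK X)
      ((trfBi D L (idx ι C K')).tw (MonoidHom.id H) (fun _ h => h) γ), R.NC := by
  by_cases h : ∃ x h₀ : H, ι (h₀⁻¹ * x * h₀) ∈ C ∧ x ^ 3 = γ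
  · obtain ⟨x, h₀, hx, hγ⟩ := h
    obtain ⟨s, hX, hs, hxt⟩ := htor x h₀ hx hγ
    exact transfer_aux D L j hact hact' hx hγ hX hs hxt
  · -- both functions vanish
    have h1 : ∀ y, F.tw σ D.sK X y = 0 := by
      intro y
      induction y using QuotientGroup.induction_on with
      | H y =>
      rw [BiInv.tw_mk]
      by_contra hne
      obtain ⟨c, hc, u, hu, h1⟩ := D.supp _ hne
      obtain ⟨x, h₀, h2, h3⟩ := hnorm (y * c⁻¹) u hu (by
        have h4 : X = y * (y⁻¹ * X * σ y) * (σ y)⁻¹ := by group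
        rw [h4, h1, map_mul, map_inv]
        group)
      exact h ⟨x, h₀, by rwa [h2], h3⟩
    have h2 : ∀ y, (trfBi D L (idx ι C K')).tw (MonoidHom.id H) (fun _ h => h) γ y = 0 := by
      intro y
      induction y using QuotientGroup.induction_on with
      | H y =>
      rw [BiInv.tw_mk, trfBi_f]
      apply trf_eq_zero D
      rintro ⟨u, hu, hu'⟩
      refine h ⟨y * u * y⁻¹, y, ?_, ?_⟩
      · have h3 : y⁻¹ * (y * u * y⁻¹) * y = u := by group
        rwa [h3]
      · have h3 : (y * u * y⁻¹) ^ 3 = y * u ^ 3 * y⁻¹ := by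
          simp only [pow_succ, pow_zero]; group
        rw [h3, hu', MonoidHom.id_apply]
        group
    exact ⟨{ Z := PEmpty
             act := { smul := fun _ z => z.elim
                      one_smul := fun z => z.elim
                      mul_smul := fun _ _ z => z.elim }
             p := fun z => z.elim
             q := fun z => z.elim
             p_smul := fun _ z => z.elim
             q_smul := fun _ z => z.elim
             w := fun z => z.elim
             w_smul := fun _ z => z.elim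
             fin_p := fun _ => Set.toFinite _
             fin_q := fun _ => Set.toFinite _
             sum_p := fun y => by
               rw [h1 y]
               exact finsum_mem_eq_zero_of_forall_eq_zero fun z _ => z.elim
             sum_q := fun y => by
               rw [h2 y]
               exact finsum_mem_eq_zero_of_forall_eq_zero fun z _ => z.elim }, fun y => by
      rw [h1 y, norm_zero]
      exact finsum_mem_eq_zero_of_forall_eq_zero fun z _ => z.elim⟩

end Fermat.Agent.LT.Loc
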