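import Fermat.Agent.LT.Loc.CongBC
import Fermat.Agent.LT.Loc.Transfer
import Fermat.Agent.LT.Loc.Newton

/-!
# The data for the transfer near the identity at a bad nonsplit place
-/

set_option autoImplicit false

open Matrix Filter Topology
open scoped MatrixGroups

namespace Fermat.Agent.LT.Loc

local notation "M2" => Matrix (Fin 2) (Fin 2)

/-- equality in `PGL₂` -/
theorem mk_eq_iff {F : Type*} [Field F] {g h : GL (Fin 2) F} :
    ProjGenLinGroup.mk g = ProjGenLinGroup.mk h ↔ ∃ z : F, z ≠ 0 ∧ (h : M2 F) = z • (g : M2 F) := by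
  rw [ProjGenLinGroup.mk_eq_mk_iff]
  constructor
  · rintro ⟨u, hu⟩
    refine ⟨u, u.ne_zero, ?_⟩
    rw [← hu]
    ext i j
    simp only [Units.val_mul, GeneralLinearGroup.coe_scalar,
      Matrix.scalar_apply, Matrix.mul_diagonal, Matrix.smul_apply, smul_eq_mul, mul_comm]
  · rintro ⟨z, hz, h⟩
    refine ⟨Units.mk0 z hz, ?_⟩
    apply Units.ext
    rw [h]
    ext i j
    simp only [Units.val_mul, GeneralLinearGroup.coe_scalar,
      Matrix.scalar_apply, Matrix.mul_diagonal, Matrix.smul_apply, smul_eq_mul, mul_comm,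
      Units.val_mk0]

section

variable {K L : Type*} [NontriviallyNormedField K] [NormedField L] [NormedAlgebra K L]

/-- the situation at a bad nonsplit place -/
structure Setup (σ : L →+* L) (VK : Lev K) (VL : Lev L) : Prop where
  hσ : ∀ a, σ (σ (σ a)) = a
  hne : ∃ a, σ a ≠ a
  hK : ∀ c : K, σ (algebraMap K L c) = algebraMap K L c
  hfix : ∀ a, σ a = a → ∃ c : K, algebraMap K L c = a
  h6 : (6 : L) ≠ 0
  comp : Lev.Comp VK VL
  finK : VK.FinQ
  finL : VL.FinQ
  sO : ∀ a ∈ VL.O, σ a ∈ VL.O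
  small : ∀ ε : ℝ, 0 < ε → ∃ n, ∀ x, VL.dv n x → ‖x‖ < ε
  nhds : (VL.O : Set L) ∈ 𝓝 (0 : L)

variable {σ : L →+* L} {VK : Lev K} {VL : Lev L}

namespace Setup

variable (S : Setup σ VK VL)
include S

theorem h6K : (6 : K) ≠ 0 := fun h => S.h6 (by
  have := congrArg (algebraMap K L) h
  rwa [map_ofNat, map_zero] at this)

theorem h3K : (3 : K) ≠ 0 := fun h => S.h6K (by linear_combination 2 * h)

/-- a fixed matrix comes from `K` -/
theorem exists_bcG {a : GL (Fin 2) L} (ha : GeneralLinearGroup.map σ a = a) :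
    ∃ b : GL (Fin 2) K, Lev.bcG K L b = a := by
  have h : ∀ i j, ∃ c : K, algebraMap K L c = (a : M2 L) i j := fun i j =>
    S.hfix _ (congrArg (fun x : GL (Fin 2) L => (x : M2 L) i j) ha)
  choose b hb using h
  have hd : algebraMap K L (Matrix.det (Matrix.of b)) = (a : M2 L).det := by
    rw [Matrix.det_fin_two, Matrix.det_fin_two]
    simp only [Matrix.of_apply, map_sub, map_mul, hb]
  have hd' : Matrix.det (Matrix.of b) ≠ 0 := by
    intro h0
    rw [h0, map_zero] at hd
    exact (Matrix.GeneralLinearGroup.det a).ne_zero hd.symm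
  refine ⟨GeneralLinearGroup.mkOfDetNeZero (Matrix.of b) hd', ?_⟩
  apply Units.ext
  ext i j
  exact hb i j

theorem map_bcG (b : GL (Fin 2) K) :
    GeneralLinearGroup.map σ (Lev.bcG K L b) = Lev.bcG K L b := by
  apply Units.ext
  ext i j
  exact S.hK _

theorem fixed (g : PGL(2, L)) : ProjGenLinGroup.map σ g = g ↔ ∃ h, Lev.bcP K L h = g := by
  constructor
  · intro hg
    induction g using ProjGenLinGroup.induction_on with
    | mk a =>
    rw [ProjGenLinGroup.map_mk, eq_comm, mk_eq_iff] at hg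
    obtain ⟨z, hz, h⟩ := hg
    have h1 : ∀ i j, σ ((a : M2 L) i j) = z * (a : M2 L) i j := fun i j =>
      congrFun (congrFun h i) j
    have hN : z * σ z * σ (σ z) = 1 := by
      have h2 : ∀ i j, (z * σ z * σ (σ z) - 1) * (a : M2 L) i j = 0 := by
        intro i j
        have h3 := S.hσ ((a : M2 L) i j)
        rw [h1, map_mul, h1, map_mul, map_mul, h1] at h3
        linear_combination h3
      by_contra hne
      have h3 : (a : M2 L) = 0 := by
        ext i j
        exact (mul_eq_zero.1 (h2 i j)).resolve_left (sub_ne_zero.2 hne)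
      have h4 := (Matrix.GeneralLinearGroup.det a).ne_zero
      exact h4 (by rw [Matrix.GeneralLinearGroup.val_det_apply, h3]; simp)
    obtain ⟨t, ht, ht'⟩ := hilbert90 σ S.hσ S.hne hN
    set a' : GL (Fin 2) L := a * GeneralLinearGroup.scalar (Fin 2) (Units.mk0 t ht) with ha'
    have e1 : ProjGenLinGroup.mk a' = ProjGenLinGroup.mk a := by
      rw [ha', map_mul, ProjGenLinGroup.mk_scalar, mul_one]
    have e2 : ∀ i j, (a' : M2 L) i j = t * (a : M2 L) i j := by
      intro i j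
      rw [ha']
      simp only [Units.val_mul, GeneralLinearGroup.coe_scalar,
        Matrix.scalar_apply, Matrix.mul_diagonal, mul_comm, Units.val_mk0]
    obtain ⟨b, hb⟩ := S.exists_bcG (a := a') (by
      apply Units.ext
      ext i j
      change σ ((a' : M2 L) i j) = (a' : M2 L) i j
      rw [e2, map_mul, h1]
      linear_combination ((a : M2 L) i j) * ht')
    exact ⟨ProjGenLinGroup.mk b, by rw [Lev.bcP_mk, hb, e1]⟩
  · rintro ⟨h, rfl⟩
    induction h using ProjGenLinGroup.induction_on with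
    | mk b =>
    rw [Lev.bcP_mk, ProjGenLinGroup.map_mk, S.map_bcG]

theorem map_dv {n : ℕ} {x : L} (hx : VL.dv n x) : VL.dv n (σ x) := by
  obtain ⟨a, ha, rfl⟩ := hx
  refine ⟨σ a, S.sO a ha, ?_⟩
  rw [map_mul, map_pow, ← S.comp.π, S.hK]

theorem map_cg {n : ℕ} {g : GL (Fin 2) L} (hg : g ∈ VL.cg n) :
    GeneralLinearGroup.map σ g ∈ VL.cg n := by
  have key : ∀ g : M2 L, VL.cgm n g → VL.cgm n (σ.mapMatrix g) := by
    intro g hg i j
    have h1 : σ.mapMatrix g - 1 = σ.mapMatrix (g - 1) := by rw [map_sub, map_one]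
    rw [h1]
    exact S.map_dv (hg i j)
  exact ⟨key _ hg.1, by rw [← map_inv]; exact key _ hg.2⟩

theorem map_pcg {n : ℕ} {g : PGL(2, L)} (hg : g ∈ VL.pcg n) :
    ProjGenLinGroup.map σ g ∈ VL.pcg n := by
  obtain ⟨g, hg, rfl⟩ := hg
  exact ⟨_, S.map_cg hg, rfl⟩

/-- elements congruent to `1` are near `1` -/
theorem exists_near {ε : ℝ} (hε : 0 < ε) : ∃ n, ∀ g : M2 L, VL.cgm n g → Near ε g := by
  obtain ⟨n, hn⟩ := S.small (min 1 (ε / 4)) (lt_min one_pos (by linarith))
  refine ⟨n, fun g hg => ?_⟩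
  have h00 := hg 0 0
  have h01 := hg 0 1
  have h10 := hg 1 0
  have h11 := hg 1 1
  simp only [Matrix.sub_apply, Matrix.one_apply_eq, ne_eq, zero_ne_one, one_ne_zero,
    not_false_eq_true, Matrix.one_apply_ne, sub_zero] at h00 h01 h10 h11
  have n00 := hn _ h00
  have n01 := hn _ h01
  have n10 := hn _ h10
  have n11 := hn _ h11
  have m1 : min 1 (ε / 4) ≤ ε / 4 := min_le_right _ _
  have m2 : min 1 (ε / 4) ≤ 1 := min_le_left _ _
  constructor
  · have h : g.trace - 2 = (g 0 0 - 1) + (g 1 1 - 1) := by rw [Matrix.trace_fin_two]; ring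
    rw [h]
    refine (norm_add_le _ _).trans_lt ?_
    linarith
  · have h : g.det - 1 = (g 0 0 - 1) * (g 1 1 - 1) + (g 0 0 - 1) + (g 1 1 - 1) - g 0 1 * g 1 0 := by
      rw [Matrix.det_fin_two]; ring
    rw [h]
    have b1 : ‖(g 0 0 - 1) * (g 1 1 - 1)‖ ≤ ε / 4 := by
      rw [norm_mul]
      calc ‖g 0 0 - 1‖ * ‖g 1 1 - 1‖ ≤ 1 * (ε / 4) :=
            mul_le_mul (n00.le.trans m2) (n11.le.trans m1) (norm_nonneg _) zero_le_one
        _ = ε / 4 := one_mul _
    have b2 : ‖g 0 1 * g 1 0‖ ≤ ε / 4 := by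
      rw [norm_mul]
      calc ‖g 0 1‖ * ‖g 1 0‖ ≤ 1 * (ε / 4) :=
            mul_le_mul (n01.le.trans m2) (n10.le.trans m1) (norm_nonneg _) zero_le_one
        _ = ε / 4 := one_mul _
    have b3 := norm_sub_le ((g 0 0 - 1) * (g 1 1 - 1) + (g 0 0 - 1) + (g 1 1 - 1)) (g 0 1 * g 1 0)
    have b4 := norm_add_le ((g 0 0 - 1) * (g 1 1 - 1) + (g 0 0 - 1)) (g 1 1 - 1)
    have b5 := norm_add_le ((g 0 0 - 1) * (g 1 1 - 1)) (g 0 0 - 1)
    linarith

theorem dv_nhds (n : ℕ) : {x : L | VL.dv n x} ∈ 𝓝 (0 : L) := by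
  have h1 : Continuous fun x : L => (VL.π ^ n)⁻¹ * x := by fun_prop
  have h2 := h1.tendsto 0
  rw [mul_zero] at h2
  filter_upwards [h2 S.nhds] with x hx
  exact ⟨(VL.π ^ n)⁻¹ * x, hx, by
    have := pow_ne_zero n VL.ne
    field_simp⟩

end Setup

end

section Top

/-! ### The topology of the matrix algebra -/

attribute [local instance] Matrix.linftyOpNormedRing Matrix.linftyOpNormedAlgebra
attribute [-instance] instTopologicalSpaceMatrix Matrix.instUniformSpace

variable (K : Type*) {L : Type*} [NontriviallyNormedField K] [NormedField L] [NormedAlgebra K L]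
  [CompleteSpace K] [FiniteDimensional K L]

include K in
theorem entry_continuous (i j : Fin 2) : Continuous fun g : M2 L => g i j := by
  have h : Continuous (⇑(Matrix.entryLinearMap K L i j)) :=
    LinearMap.continuous_of_finiteDimensional _
  exact h

/-- the action of `σ` on matrices -/
noncomputable def sigM (σ : L →+* L) (hK : ∀ c : K, σ (algebraMap K L c) = algebraMap K L c) :
    M2 L →L[K] M2 L :=
  LinearMap.toContinuousLinearMap
    { toFun := fun g => σ.mapMatrix g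
      map_add' := fun a b => map_add _ a b
      map_smul' := fun c a => by
        ext i j
        change σ (c • a i j) = c • σ (a i j)
        rw [Algebra.smul_def, Algebra.smul_def, map_mul, hK] }

theorem sigM_apply (σ : L →+* L) (hK : ∀ c : K, σ (algebraMap K L c) = algebraMap K L c)
    (g : M2 L) : sigM K σ hK g = σ.mapMatrix g := rfl

include K in
/-- neighbourhoods of `1` contain small boxes -/
theorem exists_box {s : Set (M2 L)} (hs : s ∈ 𝓝 (1 : M2 L)) :
    ∃ ε > 0, ∀ g : M2 L, (∀ i j, ‖(g - 1) i j‖ < ε) → g ∈ s := by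
  let e : (Fin 2 → Fin 2 → L) →ₗ[K] M2 L := (Matrix.ofLinearEquiv K).toLinearMap
  have he : Continuous e := LinearMap.continuous_of_finiteDimensional _
  have h1 : e ⁻¹' s ∈ 𝓝 (fun i j => (1 : M2 L) i j) := he.continuousAt hs
  obtain ⟨ε, hε, h2⟩ := Metric.mem_nhds_iff.1 h1
  refine ⟨ε, hε, fun g hg => ?_⟩
  have h3 : (fun i j => g i j) ∈ Metric.ball (fun i j => (1 : M2 L) i j) ε := by
    rw [Metric.mem_ball, dist_pi_lt_iff hε]
    intro i
    rw [dist_pi_lt_iff hε]
    intro j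
    rw [dist_eq_norm]
    exact hg i j
  exact h2 h3

theorem Setup.cgm_nhds {σ : L →+* L} {VK : Lev K} {VL : Lev L} (S : Setup σ VK VL) (n : ℕ) :
    {g : M2 L | VL.cgm n g} ∈ 𝓝 (1 : M2 L) := by
  have key : ∀ i j, ∀ᶠ g : M2 L in 𝓝 1, VL.dv n ((g - 1) i j) := by
    intro i j
    have h1 : Continuous fun g : M2 L => (g - 1) i j := by
      have := entry_continuous K (L := L) i j
      simp only [Matrix.sub_apply]
      exact this.sub continuous_const
    have h2 := h1.tendsto 1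
    rw [sub_self, Matrix.zero_apply] at h2
    exact h2 (S.dv_nhds n)
  exact eventually_all.2 fun i => eventually_all.2 fun j => key i j

variable {K}

/-- **Newton**: elements of a deep congruence subgroup are twisted conjugate to fixed elements. -/
theorem Setup.exists_supp {σ : L →+* L} {VK : Lev K} {VL : Lev L} (S : Setup σ VK VL) {n : ℕ}
    (hn : n ≠ 0) : ∃ n3, ∀ X ∈ VL.pcg n3, ∃ c ∈ VL.pcg n, ∃ u : PGL(2, K),
      Lev.bcP K L u ∈ VL.pcg n ∧ X = c⁻¹ * Lev.bcP K L u * ProjGenLinGroup.map σ c := by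
  have : CompleteSpace (M2 L) := FiniteDimensional.complete K _
  have hU := S.cgm_nhds K n
  have h := sigma_conj_mem_nhds S.h3K (sigM K σ S.hK) (by rw [sigM_apply, map_one]) (by
    intro x
    ext i j
    exact S.hσ _) hU hU
  obtain ⟨ε, hε, hbox⟩ := exists_box K h
  obtain ⟨n3, hn3⟩ := S.small ε hε
  refine ⟨n3, ?_⟩
  rintro _ ⟨X, hX, rfl⟩
  obtain ⟨c, hc, hcu, x, hx, hxs, hXc⟩ := hbox (X : M2 L) fun i j => hn3 _ (hX.1 i j)
  obtain ⟨c, rfl⟩ := hcu
  have hcg : c ∈ VL.cg n := S.comp.jacL.mem_cg hn hc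
  -- `x` is invertible
  obtain ⟨b, hb, hb'⟩ := S.comp.jacL.inv hn (Lev.cgm.det hx)
  have hd : x.det ≠ 0 := by
    intro h0
    rw [h0, zero_mul] at hb'
    exact zero_ne_one hb'
  set x' : GL (Fin 2) L := GeneralLinearGroup.mkOfDetNeZero x hd with hx'
  have hxv : (x' : M2 L) = x := rfl
  have hxg : x' ∈ VL.cg n := S.comp.jacL.mem_cg hn (by rw [hxv]; exact hx)
  obtain ⟨u, hu⟩ := S.exists_bcG (a := x') (by
    apply Units.ext
    exact hxs)
  refine ⟨ProjGenLinGroup.mk c, ⟨c, hcg, rfl⟩, ProjGenLinGroup.mk u, ⟨x', hxg, ?_⟩, ?_⟩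
  · rw [Lev.bcP_mk, hu]
  · rw [Lev.bcP_mk, hu, ProjGenLinGroup.map_mk, ← map_inv, ← map_mul, ← map_mul]
    congr 1
    apply Units.ext
    rw [hXc, Ring.inverse_unit]
    rfl

end Top

end Fermat.Agent.LT.Loc
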