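import Fermat.Agent.LT.Loc.Uniq

/-!
# Uniqueness in twisted conjugacy near the identity: projective version
-/

set_option autoImplicit false

open Matrix Filter Topology

namespace Fermat.Agent.LT.Loc

local notation "M2" => Matrix (Fin 2) (Fin 2)

/-- cube roots near `1` -/
theorem exists_cube_root {K : Type*} [NontriviallyNormedField K] [CompleteSpace K]
    (h3 : (3 : K) ≠ 0) {ε : ℝ} (hε : 0 < ε) :
    ∃ δ > 0, ∀ c : K, ‖c - 1‖ < δ → ∃ m : K, m ^ 3 = c ∧ ‖m - 1‖ < ε := by
  have hd : HasStrictDerivAt (fun x : K => x ^ 3) (3 : K) 1 := by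
    have := hasStrictDerivAt_pow 3 (1 : K)
    simpa using this
  have hmap := hd.map_nhds_eq h3
  simp only [one_pow] at hmap
  have h1 : (fun x : K => x ^ 3) '' Metric.ball 1 ε ∈ 𝓝 (1 : K) := by
    rw [← hmap]
    exact image_mem_map (Metric.ball_mem_nhds 1 hε)
  obtain ⟨δ, hδ, h2⟩ := Metric.mem_nhds_iff.1 h1
  refine ⟨δ, hδ, fun c hc => ?_⟩
  obtain ⟨m, hm, hm'⟩ := h2 (mem_ball_iff_norm.2 hc)
  exact ⟨m, hm', mem_ball_iff_norm.1 hm⟩

/-- **Hilbert 90** for a cyclic group of order three -/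
theorem hilbert90 {L : Type*} [Field L] (σ : L →+* L) (hσ : ∀ a, σ (σ (σ a)) = a)
    (hne : ∃ a, σ a ≠ a) {z : L} (hz : z * σ z * σ (σ z) = 1) : ∃ t : L, t ≠ 0 ∧ z * σ t = t := by
  have h12 : (σ : L →* L) ≠ MonoidHom.id L := by
    rintro h
    obtain ⟨a, ha⟩ := hne
    exact ha (DFunLike.congr_fun h a)
  have h13 : ((σ.comp σ : L →+* L) : L →* L) ≠ MonoidHom.id L := by
    rintro h
    obtain ⟨a, ha⟩ := hne
    apply ha
    have h1 : ∀ b, σ (σ b) = b := fun b => DFunLike.congr_fun h b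
    have h2 := hσ a
    rwa [h1 a] at h2
  have h23 : (σ : L →* L) ≠ ((σ.comp σ : L →+* L) : L →* L) := by
    rintro h
    obtain ⟨a, ha⟩ := hne
    have h1 : ∀ b, σ b = σ (σ b) := fun b => DFunLike.congr_fun h b
    exact ha (σ.injective (h1 a).symm)
  by_contra hcon
  push Not at hcon
  have key : ∀ u : L, u + z * σ u + z * σ z * σ (σ u) = 0 := by
    intro u
    by_contra hu
    refine hcon _ hu ?_
    rw [map_add, map_add, map_mul, map_mul, map_mul, hσ]
    linear_combination u * hz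
  have hli := linearIndependent_monoidHom L L
  let f : Fin 3 → (L →* L) := ![MonoidHom.id L, (σ : L →* L), ((σ.comp σ : L →+* L) : L →* L)]
  have hf : Function.Injective f := by
    intro i j hij
    fin_cases i <;> fin_cases j <;> simp only [f] at hij <;> first | rfl | skip
    · exact absurd hij.symm h12
    · exact absurd hij.symm h13
    · exact absurd hij h12
    · exact absurd hij h23
    · exact absurd hij h13
    · exact absurd hij.symm h23
  have hli3 := hli.comp f hf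
  rw [Fintype.linearIndependent_iff] at hli3
  have h0 := hli3 ![1, z, z * σ z] (by
    ext u
    simp only [Fin.sum_univ_three, Function.comp, f, Matrix.cons_val_zero, Matrix.cons_val_one,
      Pi.add_apply, Pi.smul_apply, smul_eq_mul, Pi.zero_apply]
    have := key u
    simpa using this) 0
  simp at h0

variable {K L : Type*} [NontriviallyNormedField K] [CompleteSpace K] [NormedField L]
  [NormedAlgebra K L]

/-- **Uniqueness in `PGL₂`.** -/
theorem exists_eps_scalar (h6 : (6 : L) ≠ 0) (σ : L →+* L) (hσ : ∀ a, σ (σ (σ a)) = a)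
    (hne : ∃ a, σ a ≠ a) (hK : ∀ c : K, σ (algebraMap K L c) = algebraMap K L c)
    (hfix : ∀ a : L, σ a = a → ∃ c : K, algebraMap K L c = a) :
    ∃ ε, GoodEps L ε ∧ ∀ (x x' g gi : M2 L) (z : L), g * gi = 1 → Near ε x → Near ε x' →
      σ.mapMatrix x = x → σ.mapMatrix x' = x' → x * σ.mapMatrix g = z • (g * x') →
      ∃ t : L, t ≠ 0 ∧ σ.mapMatrix (t • g) = t • g ∧
        ∃ m : K, m ≠ 0 ∧ x * g = (algebraMap K L m) • (g * x') := by
  have h3L : (3 : L) ≠ 0 := fun h => h6 (by linear_combination 2 * h)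
  have h3 : (3 : K) ≠ 0 := fun h => h3L (by
    have := congrArg (algebraMap K L) h
    rwa [map_ofNat, map_zero] at this)
  have h2L : (2 : L) ≠ 0 := fun h => h6 (by linear_combination 3 * h)
  obtain ⟨ε₀, hε₀⟩ := exists_goodEps (L := L) h6
  -- a scalar near `1` preserves nearness
  obtain ⟨ε₁, hε₁, e1⟩ : ∃ ε₁ > 0, ∀ (m : L) (x : M2 L), ‖m - 1‖ < ε₁ → Near ε₁ x →
      Near ε₀ (m • x) := by
    have c1 : Continuous fun p : L × L × L => p.1 * p.2.1 := by fun_prop
    have c2 : Continuous fun p : L × L × L => p.1 ^ 2 * p.2.2 := by fun_prop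
    have t1 := c1.tendsto (1, 2, 1)
    have t2 := c2.tendsto (1, 2, 1)
    have b1 : ∀ᶠ p : L × L × L in 𝓝 (1, 2, 1), ‖p.1 * p.2.1 - 2‖ < ε₀ := by
      have := t1 (Metric.ball_mem_nhds _ hε₀.pos)
      filter_upwards [this] with p hp
      have h := mem_ball_iff_norm.1 (Set.mem_preimage.1 hp)
      simpa using h
    have b2 : ∀ᶠ p : L × L × L in 𝓝 (1, 2, 1), ‖p.1 ^ 2 * p.2.2 - 1‖ < ε₀ := by
      have := t2 (Metric.ball_mem_nhds _ hε₀.pos)
      filter_upwards [this] with p hp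
      have h := mem_ball_iff_norm.1 (Set.mem_preimage.1 hp)
      simpa using h
    obtain ⟨ε₁, hε₁, hb⟩ := Metric.mem_nhds_iff.1 (b1.and b2)
    refine ⟨ε₁, hε₁, fun m x hm hx => ?_⟩
    have hmem : ((m, x.trace, x.det) : L × L × L) ∈ Metric.ball ((1, 2, 1) : L × L × L) ε₁ := by
      rw [Metric.mem_ball, Prod.dist_eq, Prod.dist_eq, dist_eq_norm, dist_eq_norm, dist_eq_norm]
      exact max_lt hm (max_lt hx.1 hx.2)
    obtain ⟨h1, h2⟩ := hb hmem
    refine ⟨?_, ?_⟩
    · rw [Matrix.trace_smul, smul_eq_mul]; exact h1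
    · rw [Matrix.det_smul, Fintype.card_fin]; exact h2
  obtain ⟨δ, hδ, e2⟩ := exists_cube_root h3 (lt_min hε₁ one_pos)
  -- the norm of `z` is near `1`
  obtain ⟨ε₂, hε₂, e3⟩ : ∃ ε₂ > 0, ∀ x x' : M2 L, Near ε₂ x → Near ε₂ x' →
      x'.trace ^ 3 - 3 * x'.trace * x'.det ≠ 0 ∧
      ‖(x.trace ^ 3 - 3 * x.trace * x.det) / (x'.trace ^ 3 - 3 * x'.trace * x'.det) - 1‖ < δ := by
    have c1 : ContinuousAt (fun p : (L × L) × (L × L) =>
        (p.1.1 ^ 3 - 3 * p.1.1 * p.1.2) / (p.2.1 ^ 3 - 3 * p.2.1 * p.2.2)) ((2, 1), (2, 1)) := by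
      refine ContinuousAt.div (by fun_prop) (by fun_prop) ?_
      have : (2 : L) ^ 3 - 3 * 2 * 1 = 2 := by norm_num
      simp only [this]
      exact h2L
    have c2 : Continuous (fun p : (L × L) × (L × L) => p.2.1 ^ 3 - 3 * p.2.1 * p.2.2) := by
      fun_prop
    have v1 : (((2 : L) ^ 3 - 3 * 2 * 1) / ((2 : L) ^ 3 - 3 * 2 * 1)) = 1 := by
      apply div_self
      have : (2 : L) ^ 3 - 3 * 2 * 1 = 2 := by norm_num
      rw [this]
      exact h2L
    have b1 : ∀ᶠ p : (L × L) × (L × L) in 𝓝 ((2, 1), (2, 1)),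
        ‖(p.1.1 ^ 3 - 3 * p.1.1 * p.1.2) / (p.2.1 ^ 3 - 3 * p.2.1 * p.2.2) - 1‖ < δ := by
      have := c1 (Metric.ball_mem_nhds _ hδ)
      filter_upwards [this] with p hp
      have h := mem_ball_iff_norm.1 (Set.mem_preimage.1 hp)
      rw [v1] at h
      exact h
    have b2 : ∀ᶠ p : (L × L) × (L × L) in 𝓝 ((2, 1), (2, 1)),
        p.2.1 ^ 3 - 3 * p.2.1 * p.2.2 ≠ 0 := by
      refine c2.continuousAt.eventually_ne ?_
      have : (2 : L) ^ 3 - 3 * 2 * 1 = 2 := by norm_num
      simp only [this]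
      exact h2L
    obtain ⟨ε₂, hε₂, hb⟩ := Metric.mem_nhds_iff.1 (b2.and b1)
    refine ⟨ε₂, hε₂, fun x x' hx hx' => ?_⟩
    have hmem : (((x.trace, x.det), (x'.trace, x'.det)) : (L × L) × (L × L)) ∈
        Metric.ball (((2, 1), (2, 1)) : (L × L) × (L × L)) ε₂ := by
      rw [Metric.mem_ball, Prod.dist_eq, Prod.dist_eq, Prod.dist_eq, dist_eq_norm, dist_eq_norm,
        dist_eq_norm, dist_eq_norm]
      exact max_lt (max_lt hx.1 hx.2) (max_lt hx'.1 hx'.2)
    exact hb hmem
  refine ⟨min ε₀ (min ε₁ ε₂), hε₀.mono (lt_min hε₀.pos (lt_min hε₁ hε₂)) (min_le_left _ _), ?_⟩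
  intro x x' g gi z hg hx hx' fx fx' hc
  set τ := σ.mapMatrix (m := Fin 2) with hτdef
  have hτ3 : ∀ y : M2 L, τ (τ (τ y)) = y := by
    intro y
    ext i j
    simp [hτdef, hσ]
  have τsmul : ∀ (a : L) (y : M2 L), τ (a • y) = σ a • τ y := by
    intro a y
    ext i j
    simp [hτdef]
  have hc1 : x * τ (τ g) = σ z • (τ g * x') := by
    have := congrArg τ hc
    rwa [map_mul, fx, τsmul, map_mul, fx'] at this
  have hc2 : x * g = σ (σ z) • (τ (τ g) * x') := by
    have := congrArg τ hc1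
    rwa [map_mul, fx, τsmul, map_mul, fx', hτ3] at this
  have e4 : x * x * x * g = (z * σ z * σ (σ z)) • (g * (x' * x' * x')) := by
    calc x * x * x * g = x * (x * (x * g)) := by simp only [mul_assoc]
      _ = σ (σ z) • (x * (x * τ (τ g)) * x') := by
          rw [hc2]; simp only [mul_smul_comm, mul_assoc]
      _ = (σ (σ z) * σ z) • ((x * τ g) * x' * x') := by
          rw [hc1]; simp only [mul_smul_comm, smul_mul_assoc, smul_smul, mul_assoc]
      _ = (z * σ z * σ (σ z)) • (g * (x' * x' * x')) := by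
          rw [hc]
          simp only [smul_mul_assoc, smul_smul, mul_assoc]
          congr 1
          ring
  have tr3 : ∀ y : M2 L, (y * y * y).trace = y.trace ^ 3 - 3 * y.trace * y.det := by
    intro y
    rw [cube_eq, Matrix.trace_sub, Matrix.trace_smul, Matrix.trace_smul, Matrix.trace_one,
      Fintype.card_fin, smul_eq_mul, smul_eq_mul]
    push_cast
    ring
  have hg' : gi * g = 1 := mul_eq_one_comm.1 hg
  set c := z * σ z * σ (σ z) with hcdef
  have e5 : x.trace ^ 3 - 3 * x.trace * x.det = c * (x'.trace ^ 3 - 3 * x'.trace * x'.det) := by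
    rw [← tr3, ← tr3]
    have h1 : x * x * x = c • (g * (x' * x' * x') * gi) := by
      rw [← smul_mul_assoc, ← e4, mul_assoc (x * x * x), hg, mul_one]
    rw [h1, Matrix.trace_smul, Matrix.trace_mul_comm, ← mul_assoc, hg', one_mul, smul_eq_mul]
  obtain ⟨n1, n2⟩ := e3 x x' (hx.mono ((min_le_right _ _).trans (min_le_right _ _)))
    (hx'.mono ((min_le_right _ _).trans (min_le_right _ _)))
  have hc' : (x.trace ^ 3 - 3 * x.trace * x.det) / (x'.trace ^ 3 - 3 * x'.trace * x'.det) = c := by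
    rw [e5, mul_div_cancel_right₀ _ n1]
  rw [hc'] at n2
  have hσc : σ c = c := by
    rw [hcdef, map_mul, map_mul, hσ]; ring
  obtain ⟨c₀, hc₀⟩ := hfix c hσc
  have n3 : ‖c₀ - 1‖ < δ := by
    rw [← norm_algebraMap' L (c₀ - 1), map_sub, map_one, hc₀]
    exact n2
  obtain ⟨m, hm, hm'⟩ := e2 c₀ n3
  have hm0 : m ≠ 0 := by
    rintro rfl
    rw [zero_sub, norm_neg, norm_one] at hm'
    exact absurd (hm'.trans_le (min_le_right _ _)) (lt_irrefl _)
  set mL := algebraMap K L m with hmL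
  have hmL0 : mL ≠ 0 := by
    rw [hmL]; exact (map_ne_zero _).2 hm0
  have hσm : σ mL = mL := hK m
  obtain ⟨t, ht, hzt⟩ := hilbert90 σ hσ hne (z := z / mL) (by
    rw [map_div₀, map_div₀, hσm, hσm]
    have h1 : mL ^ 3 = c := by rw [hmL, ← map_pow, hm, hc₀]
    field_simp
    rw [h1, hcdef])
  have key : τ (t • g) = t • g := by
    refine fixed_of_conj hε₀ τ hτ3 (x := x) (x' := mL • x') (g := t • g) (gi := t⁻¹ • gi) ?_
      (hx.mono (min_le_left _ _)) ?_ fx ?_ ?_
    · rw [smul_mul_smul_comm, mul_inv_cancel₀ ht, one_smul, hg]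
    · refine e1 _ _ ?_ (hx'.mono ((min_le_right _ _).trans (min_le_left _ _)))
      rw [hmL, ← map_one (algebraMap K L), ← map_sub, norm_algebraMap']
      exact hm'.trans_le (min_le_left _ _)
    · rw [τsmul, hσm, fx']
    · rw [τsmul, mul_smul_comm, hc, smul_smul, mul_smul_comm, smul_mul_assoc, smul_smul]
      congr 1
      have h1 : z / mL * σ t = t := hzt
      field_simp at h1
      linear_combination h1
  refine ⟨t, ht, key, m, hm0, ?_⟩
  have h1 : t • (x * g) = t • (mL • (g * x')) := by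
    have h2 : x * τ (t • g) = mL • (t • g * x') := by
      rw [τsmul, mul_smul_comm, hc, smul_smul, smul_mul_assoc, smul_smul]
      congr 1
      have h1 : z / mL * σ t = t := hzt
      field_simp at h1
      linear_combination h1
    rw [key, mul_smul_comm, smul_mul_assoc, smul_smul] at h2
    rw [h2, smul_smul, mul_comm]
  exact smul_right_injective _ ht h1

end Fermat.Agent.LT.Loc
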