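import Fermat.Agent.LT.Tw.Class
import Fermat.Agent.LT.Loc.UniqPGL

/-!
# Hilbert 90 for the (possibly split) torus of a nonscalar element
-/

set_option autoImplicit false

open Matrix
open scoped MatrixGroups

namespace Fermat.Agent.LT.Loc

local notation "M2" => Matrix (Fin 2) (Fin 2)

/-- independence of the automorphisms -/
theorem indep3 {L : Type*} [Field L] (σ : L →+* L) (hσ : ∀ a, σ (σ (σ a)) = a)
    (hne : ∃ a, σ a ≠ a) {a b c : L} (h : ∀ u, a * u + b * σ u + c * σ (σ u) = 0) : a = 0 := by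
  have h12 : (σ : L →* L) ≠ MonoidHom.id L := by
    rintro h
    obtain ⟨a, ha⟩ := hne
    exact ha (DFunLike.congr_fun h a)
  have h13 : ((σ.comp σ : L →+* L) : L →* L) ≠ MonoidHom.id L := by
    rintro h
    obtain ⟨a, ha⟩ := hne
    apply ha
    have h1 : ∀ b, σ (σ b) = b := fun b => DFunLike.congr_fun h b
    have h2 := hσ a
    rwa [h1 a] at h2
  have h23 : (σ : L →* L) ≠ ((σ.comp σ : L →+* L) : L →* L) := by
    rintro h
    obtain ⟨a, ha⟩ := hne
    have h1 : ∀ b, σ b = σ (σ b) := fun b => DFunLike.congr_fun h b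
    exact ha (σ.injective (h1 a).symm)
  have hli := linearIndependent_monoidHom L L
  let f : Fin 3 → (L →* L) := ![MonoidHom.id L, (σ : L →* L), ((σ.comp σ : L →+* L) : L →* L)]
  have hf : Function.Injective f := by
    intro i j hij
    fin_cases i <;> fin_cases j <;> simp only [f] at hij <;> first | rfl | skip
    · exact absurd hij.symm h12
    · exact absurd hij.symm h13
    · exact absurd hij h12
    · exact absurd hij h23
    · exact absurd hij h13
    · exact absurd hij.symm h23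
  have hli3 := hli.comp f hf
  rw [Fintype.linearIndependent_iff] at hli3
  have h0 := hli3 ![a, b, c] (by
    ext u
    simp only [Fin.sum_univ_three, Function.comp, f, Matrix.cons_val_zero, Matrix.cons_val_one,
      Pi.add_apply, Pi.smul_apply, smul_eq_mul, Pi.zero_apply]
    have := h u
    simpa using this) 0
  simpa using h0

/-- the polar form of the determinant -/
def pol {L : Type*} [Field L] (A B : M2 L) : L :=
  A 0 0 * B 1 1 + A 1 1 * B 0 0 - A 0 1 * B 1 0 - A 1 0 * B 0 1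

theorem det_add_eq {L : Type*} [Field L] (A B : M2 L) :
    (A + B).det = A.det + B.det + pol A B := by
  simp only [Matrix.det_fin_two, pol, Matrix.add_apply]
  ring

theorem exists_det_ne {L : Type*} [Field L] (σ : L →+* L) (hσ : ∀ a, σ (σ (σ a)) = a)
    (hne : ∃ a, σ a ≠ a) (h2 : (2 : L) ≠ 0) (u v : M2 L) :
    ∃ l : L, (l • (1 : M2 L) + σ l • u + σ (σ l) • v).det ≠ 0 := by
  by_contra hcon
  push Not at hcon
  set s : L → M2 L := fun l => l • (1 : M2 L) + σ l • u + σ (σ l) • v with hs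
  have h1 : ∀ l m, pol (s l) (s m) = 0 := by
    intro l m
    have e1 : s (l + m) = s l + s m := by
      simp only [hs, map_add, add_smul]
      abel
    have e2 := det_add_eq (s l) (s m)
    rw [← e1, hcon, hcon, hcon, zero_add, zero_add] at e2
    exact e2.symm
  have h3 : ∀ m, pol 1 (s m) = 0 := by
    intro m
    refine indep3 σ hσ hne (a := pol 1 (s m)) (b := pol u (s m)) (c := pol v (s m)) fun l => ?_
    rw [← h1 l m]
    simp only [hs, pol, Matrix.add_apply, Matrix.smul_apply, smul_eq_mul]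
    ring
  have h4 : pol (1 : M2 L) (1 : M2 L) = 0 := by
    refine indep3 σ hσ hne (a := pol (1 : M2 L) (1 : M2 L)) (b := pol 1 u) (c := pol 1 v)
      fun m => ?_
    rw [← h3 m]
    simp only [hs, pol, Matrix.add_apply, Matrix.smul_apply, smul_eq_mul]
    ring
  apply h2
  have h5 : pol (1 : M2 L) (1 : M2 L) = 2 := by
    simp [pol]
    norm_num
  rw [← h5, h4]

section

variable {k E : Type*} [Field k] [Field E] [Algebra k E] {σ : E ≃ₐ[k] E}

open Fermat.Agent.LT.Tw

/-- **Hilbert 90** -/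
theorem hilbert90_gl (h : Cyc3 σ) (h2 : (2 : E) ≠ 0) {b : GL (Fin 2) E} (hb : nm σ b = 1) :
    ∃ s : GL (Fin 2) E, s * (sg σ s)⁻¹ = b ∧ ∀ g : GL (Fin 2) E, g * b = b * g →
      g * sg σ b = sg σ b * g → g * s = s * g := by
  obtain ⟨l, hl⟩ := exists_det_ne (σ : E →+* E) h.cube h.ne h2 (b : M2 E)
    ((b * sg σ b : GL (Fin 2) E) : M2 E)
  set s : GL (Fin 2) E := GeneralLinearGroup.mkOfDetNeZero _ hl with hs
  have hsv : (s : M2 E) = l • (1 : M2 E) + σ l • (b : M2 E) +
      σ (σ l) • ((b * sg σ b : GL (Fin 2) E) : M2 E) := rfl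
  refine ⟨s, ?_, ?_⟩
  · rw [mul_inv_eq_iff_eq_mul]
    apply Units.ext
    rw [Units.val_mul, coe_sg, hsv]
    have e1 : ((l • (1 : M2 E) + σ l • (b : M2 E) +
        σ (σ l) • ((b * sg σ b : GL (Fin 2) E) : M2 E))).map σ =
        σ l • (1 : M2 E) + σ (σ l) • ((sg σ b : GL (Fin 2) E) : M2 E) +
          l • ((sg σ b * sg σ (sg σ b) : GL (Fin 2) E) : M2 E) := by
      have e2 : ((sg σ b * sg σ (sg σ b) : GL (Fin 2) E) : M2 E) =
          (((b * sg σ b : GL (Fin 2) E) : M2 E)).map σ := by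
        rw [← map_mul]; rfl
      rw [e2]
      ext i j
      simp only [Matrix.map_apply, Matrix.add_apply, Matrix.smul_apply, smul_eq_mul, map_add,
        map_mul, h.cube, Matrix.one_apply]
      have e3 : σ (if i = j then (1 : E) else 0) = if i = j then 1 else 0 := by
        split_ifs <;> simp
      rw [e3]
      rfl
    rw [e1, mul_add, mul_add, mul_smul_comm, mul_smul_comm, mul_smul_comm, mul_one,
      ← Units.val_mul, ← Units.val_mul]
    have e4 : b * (sg σ b * sg σ (sg σ b)) = 1 := by rw [← mul_assoc]; exact hb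
    rw [e4, Units.val_one]
    abel
  · intro g hg hg'
    apply Units.ext
    have f1 : (g : M2 E) * (b : M2 E) = (b : M2 E) * (g : M2 E) := congrArg Units.val hg
    have f2 : (g : M2 E) * ((b * sg σ b : GL (Fin 2) E) : M2 E) =
        ((b * sg σ b : GL (Fin 2) E) : M2 E) * (g : M2 E) := by
      rw [← Units.val_mul, ← Units.val_mul, ← mul_assoc, hg, mul_assoc, hg', ← mul_assoc]
    rw [Units.val_mul, Units.val_mul, hsv, mul_add, mul_add, add_mul, add_mul, mul_smul_comm,
      mul_smul_comm, mul_smul_comm, smul_mul_assoc, smul_mul_assoc, smul_mul_assoc, f1, f2,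
      mul_one, one_mul]

/-- **An element whose norm is `γ` is twisted conjugate in the torus to a cube root of `γ`.** -/
theorem exists_torus_conj (h : Cyc3 σ) (h2 : (2 : E) ≠ 0) {γ : GL (Fin 2) k}
    (hγ : NS (γ : M2 k)) {X : GL (Fin 2) E} (hX : nm σ X = bc γ) {x : GL (Fin 2) k} {z : kˣ}
    (hx : x * x * x = sc z * γ) :
    ∃ (s : GL (Fin 2) E) (c : Eˣ), s ∈ tor γ ∧ X = sc c * (s * bc x * (sg σ s)⁻¹) ∧
      x * γ = γ * x := by
  have hxγ : x * γ = γ * x := by
    have h1 : sc z * (x * γ) = sc z * (γ * x) := by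
      calc sc z * (x * γ) = x * (sc z * γ) := by
            rw [← mul_assoc, sc_comm, mul_assoc]
        _ = x * (x * x * x) := by rw [hx]
        _ = (x * x * x) * x := by group
        _ = _ := by rw [hx, mul_assoc]
    exact mul_left_cancel h1
  have hbx : bc x ∈ tor (E := E) γ := by
    rw [mem_tor, ← map_mul, ← map_mul, hxγ]
  have hXt : X ∈ tor γ := comm_of_nm σ h hX
  have hnx : nm σ (bc x) = sc (bu z) * bc γ := by
    rw [nm, sg_bc, sg_bc, ← map_mul, ← map_mul, hx, map_mul, bc_sc]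
  have hu : nm σ (X * (bc x)⁻¹) = sc (bu z⁻¹) := by
    rw [nm_mul σ hγ hXt ((tor γ).inv_mem hbx), nm_inv σ hγ hbx, hX, hnx, _root_.mul_inv_rev,
      ← mul_assoc, mul_inv_cancel, one_mul, map_inv, map_inv]
  obtain ⟨c, hc⟩ := exists_nu σ hu
  have hct : sc c * bc x ∈ tor γ := (tor γ).mul_mem (sc_mem_tor γ c) hbx
  have hb : nm σ (X * (sc c * bc x)⁻¹) = 1 := by
    rw [nm_mul σ hγ hXt ((tor γ).inv_mem hct), nm_inv σ hγ hct, nm_sc_mul, hX, hnx, hc,
      ← mul_assoc, ← map_mul, ← map_mul, inv_mul_cancel, map_one, map_one, one_mul, mul_inv_cancel]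
  have hbt : X * (sc c * bc x)⁻¹ ∈ tor γ := (tor γ).mul_mem hXt ((tor γ).inv_mem hct)
  obtain ⟨s, hs, hs2⟩ := hilbert90_gl h h2 hb
  have hst : s ∈ tor γ := by
    rw [mem_tor]
    exact (hs2 (bc γ) (mem_tor.1 hbt).symm (mem_tor.1 (sg_mem_tor σ hbt)).symm).symm
  refine ⟨s, c, hst, ?_, hxγ⟩
  have h5 : X = s * (sg σ s)⁻¹ * (sc c * bc x) := by rw [hs]; group
  have h6 : (sg σ s)⁻¹ * (sc c * bc x) = (sc c * bc x) * (sg σ s)⁻¹ :=
    tor_comm hγ ((tor γ).inv_mem (sg_mem_tor σ hst)) hct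
  rw [mul_assoc, h6] at h5
  calc X = s * (sc c * bc x * (sg σ s)⁻¹) := h5
    _ = (s * sc c) * bc x * (sg σ s)⁻¹ := by group
    _ = _ := by rw [← sc_comm]; group

end

end Fermat.Agent.LT.Loc
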