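import Fermat.Agent.LT.Loc.Corr
import Fermat.Agent.LT.Glob.Loc

/-!
# The local matching predicate
-/

set_option autoImplicit false

open Matrix
open scoped MatrixGroups

namespace Fermat.Agent.LT.Loc

universe u t

/-- the action of `T` on a homogeneous space through a homomorphism -/
abbrev actVia {T G : Type*} [Group T] [Group G] (j : T →* G) (U : Subgroup G) :
    MulAction T (G ⧸ U) := MulAction.compHom (G ⧸ U) j

/-- `T → GL₂(K) → PGL₂(K)` -/
def jK {T : Type*} [Group T] {K : Type*} [CommRing K] (j : T →* GL (Fin 2) K) : T →* PGL(2, K) :=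
  ProjGenLinGroup.mk.comp j

/-- `T → GL₂(K) → GL₂(L) → PGL₂(L)` -/
noncomputable def jL {T : Type*} [Group T] {K L : Type*} [CommRing K] [CommRing L] (i : K →+* L)
    (j : T →* GL (Fin 2) K) : T →* PGL(2, L) :=
  ProjGenLinGroup.mk.comp ((GeneralLinearGroup.map i).comp j)

/-- no cancellation along `p` -/
def LocalCorr.NC {T : Type*} [Group T] {Y Y' : Type*} [MulAction T Y] [MulAction T Y']
    {φ : Y → ℂ} {φ' : Y' → ℂ} (C : LocalCorr.{u} T Y Y' φ φ') : Prop :=
  ∀ y, ∑ᶠ z ∈ {z | C.p z = y}, ‖C.w z‖ = ‖φ y‖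

/-- the base points correspond to each other and to nothing else -/
def LocalCorr.Based {T : Type*} [Group T] {Y Y' : Type*} [MulAction T Y] [MulAction T Y']
    {φ : Y → ℂ} {φ' : Y' → ℂ} (C : LocalCorr.{u} T Y Y' φ φ') (b : Y) (b' : Y') : Prop :=
  ∃ z₀ : C.Z, C.p z₀ = b ∧ C.q z₀ = b' ∧ C.w z₀ = 1 ∧ (∀ z, C.p z = b → z = z₀) ∧
    ∀ z, C.q z = b' → z = z₀

open Classical in
/-- the indicator function of a subgroup -/
noncomputable def BiInv.ind {G : Type*} [Group G] (U : Subgroup G) : BiInv U where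
  f g := if g ∈ U then 1 else 0
  inv k hk k' hk' y := by
    have : k * y * k' ∈ U ↔ y ∈ U := by
      rw [U.mul_mem_cancel_right hk', U.mul_mem_cancel_left hk]
    simp only [this]

theorem BiInv.ind_of_mem {G : Type*} [Group G] {U : Subgroup G} {g : G} (h : g ∈ U) :
    (BiInv.ind U).f g = 1 := if_pos h

theorem BiInv.ind_of_not_mem {G : Type*} [Group G] {U : Subgroup G} {g : G} (h : g ∉ U) :
    (BiInv.ind U).f g = 0 := if_neg h

theorem BiInv.ind_ne_zero {G : Type*} [Group G] {U : Subgroup G} {g : G} :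
    (BiInv.ind U).f g ≠ 0 ↔ g ∈ U := by
  by_cases h : g ∈ U
  · simp [BiInv.ind_of_mem h, h]
  · simp [BiInv.ind_of_not_mem h, h]

/-- `F` on `PGL₂(L)` (twisted by `σ`) and `f` on `PGL₂(K)` have matching orbital integrals -/
structure IsMatch {K L : Type u} [CommRing K] [CommRing L] (i : K →+* L) (σ : L →+* L)
    {U : Subgroup PGL(2, L)} {V : Subgroup PGL(2, K)}
    (hU : ∀ k ∈ U, ProjGenLinGroup.map σ k ∈ U) (F : BiInv U) (f : BiInv V) : Prop where
  /-- the correspondence, for `X σ(X) σ²(X) = γ` regular -/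
  corr : ∀ {T : Type t} [Group T] (j : T →* GL (Fin 2) K) (γ : GL (Fin 2) K) (X : GL (Fin 2) L),
    (γ : Matrix (Fin 2) (Fin 2) K).trace ^ 2 - 4 * (γ : Matrix (Fin 2) (Fin 2) K).det ≠ 0 →
    X * GeneralLinearGroup.map σ X * GeneralLinearGroup.map σ (GeneralLinearGroup.map σ X) =
      GeneralLinearGroup.map i γ →
    (∀ t, j t * γ = γ * j t) →
    ∃ C : @LocalCorr.{u} T _ (PGL(2, L) ⧸ U) (PGL(2, K) ⧸ V) (actVia (jL i j) U)
      (actVia (jK j) V) (F.tw (ProjGenLinGroup.map σ) hU (ProjGenLinGroup.mk X))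
      (f.tw (MonoidHom.id _) (fun _ h => h) (ProjGenLinGroup.mk γ)),
      @LocalCorr.NC T _ _ _ (actVia (jL i j) U) (actVia (jK j) V) _ _ C
  /-- if `γ` contributes, it is locally a norm, up to a scalar -/
  norm : ∀ γ h : GL (Fin 2) K,
    (γ : Matrix (Fin 2) (Fin 2) K).trace ^ 2 - 4 * (γ : Matrix (Fin 2) (Fin 2) K).det ≠ 0 →
    f.f (ProjGenLinGroup.mk (h⁻¹ * γ * h)) ≠ 0 →
    ∃ (x : GL (Fin 2) L) (c : Kˣ), x * GeneralLinearGroup.map i γ = GeneralLinearGroup.map i γ * x ∧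
      x * GeneralLinearGroup.map σ x * GeneralLinearGroup.map σ (GeneralLinearGroup.map σ x) =
      GeneralLinearGroup.map i (GeneralLinearGroup.scalar (Fin 2) c * γ)

/-- at an unramified place, the base points correspond to each other whenever `X` and `γ` are
integral and the discriminant of `γ` is a unit -/
structure IsMatchU {K L : Type u} [CommRing K] [CommRing L] (i : K →+* L) (σ : L →+* L)
    {O' : Subring L} {O : Subring K}
    (hU : ∀ k ∈ Glob.PO O', ProjGenLinGroup.map σ k ∈ Glob.PO O')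
    (F : BiInv (Glob.PO O')) (f : BiInv (Glob.PO O)) : Prop
    extends IsMatch.{u, t} i σ hU F f where
  /-- the base points -/
  based : ∀ {T : Type t} [Group T] (j : T →* GL (Fin 2) K) (γ : GL (Fin 2) K) (X : GL (Fin 2) L),
    (γ : Matrix (Fin 2) (Fin 2) K).trace ^ 2 - 4 * (γ : Matrix (Fin 2) (Fin 2) K).det ≠ 0 →
    X * GeneralLinearGroup.map σ X * GeneralLinearGroup.map σ (GeneralLinearGroup.map σ X) =
      GeneralLinearGroup.map i γ →
    (∀ t, j t * γ = γ * j t) →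
    X ∈ Glob.GLO O' → γ ∈ Glob.GLO O →
    (∃ r ∈ O, r * ((γ : Matrix (Fin 2) (Fin 2) K).trace ^ 2 -
      4 * (γ : Matrix (Fin 2) (Fin 2) K).det) = 1) →
    ∃ C : @LocalCorr.{u} T _ (PGL(2, L) ⧸ Glob.PO O') (PGL(2, K) ⧸ Glob.PO O)
      (actVia (jL i j) (Glob.PO O')) (actVia (jK j) (Glob.PO O))
      (F.tw (ProjGenLinGroup.map σ) hU (ProjGenLinGroup.mk X))
      (f.tw (MonoidHom.id _) (fun _ h => h) (ProjGenLinGroup.mk γ)),
      @LocalCorr.NC T _ _ _ (actVia (jL i j) (Glob.PO O')) (actVia (jK j) (Glob.PO O)) _ _ C ∧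
      @LocalCorr.Based T _ _ _ (actVia (jL i j) (Glob.PO O')) (actVia (jK j) (Glob.PO O)) _ _ C
        ((1 : PGL(2, L)) : PGL(2, L) ⧸ Glob.PO O') ((1 : PGL(2, K)) : PGL(2, K) ⧸ Glob.PO O)

end Fermat.Agent.LT.Loc
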