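import Fermat.Agent.LT.Loc.BadData
import Fermat.Agent.LT.Loc.BadTor
import Fermat.Agent.LT.Loc.Match
import Fermat.Agent.LT.Loc.Split

/-!
# Matching at a bad nonsplit place
-/

set_option autoImplicit false

open Matrix Filter Topology
open scoped MatrixGroups

namespace Fermat.Agent.LT.Loc

universe u

local notation "M2" => Matrix (Fin 2) (Fin 2)

open Fermat.Agent.LT.Tw

section

variable {K L : Type u} [NontriviallyNormedField K] [NormedField L] [NormedAlgebra K L]
variable {σ : L →+* L} {VK : Lev K} {VL : Lev L}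

/-- `σ` as an automorphism -/
def Setup.alg (S : Setup σ VK VL) : L ≃ₐ[K] L where
  toFun := σ
  invFun a := σ (σ a)
  left_inv a := S.hσ a
  right_inv a := S.hσ a
  map_mul' := map_mul σ
  map_add' := map_add σ
  commutes' := S.hK

theorem Setup.cyc3 (S : Setup σ VK VL) : Cyc3 S.alg where
  cube := S.hσ
  fix := S.hfix
  ne := S.hne

theorem Setup.alg_coe (S : Setup σ VK VL) : (S.alg : L →+* L) = σ := rfl

theorem ns_of_disc {F : Type*} [Field F] {A : M2 F}
    (h : A.trace ^ 2 - 4 * A.det ≠ 0) : NS A := by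
  intro a ha
  apply h
  rw [ha]
  simp
  ring

variable [CompleteSpace K] [FiniteDimensional K L]

/-- the transfer has finite support -/
theorem trfBi_fin {G H : Type*} [Group G] [Group H] {σ : G →* G} {ι : H →* G}
    {C K : Subgroup G} {F : BiInv K} {K' : Subgroup H} (D : NearData σ ι C K F)
    (L : Level ι C K K') (n : ℂ) : (trfBi D L n).Fin := by
  have := L.fin
  let e : (C.comap ι) ⧸ K'.subgroupOf (C.comap ι) → H ⧸ K' := fun q => Quotient.liftOn' q
    (fun c => ((c : H) : H ⧸ K')) (by
      intro a b hab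
      rw [QuotientGroup.leftRel_apply] at hab
      exact QuotientGroup.eq.2 hab)
  refine (Set.finite_range e).subset ?_
  rintro y ⟨a, rfl, ha⟩
  rw [trfBi_f] at ha
  by_contra hcon
  apply ha
  refine trf_eq_zero D n ?_
  rintro ⟨u, hu, rfl⟩
  exact hcon ⟨((⟨u ^ 3, by rw [Subgroup.mem_comap, map_pow]; exact C.pow_mem hu 3⟩ :
    C.comap ι) : (C.comap ι) ⧸ K'.subgroupOf (C.comap ι)), rfl⟩

/-- **Matching at a bad nonsplit place.** -/
theorem Setup.isMatch (S : Setup σ VK VL) : ∃ n0, n0 ≠ 0 ∧ ∃ n3, ∀ n1 ≥ n0, ∃ n2 ≥ n1, ∀ n ≥ n2,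
    ∀ F : BiInv (VL.pcg n1), (∀ X, F.f X ≠ 0 → X ∈ VL.pcg n3) → ∃ f : BiInv (VK.pcg n),
      f.Fin ∧ IsMatch (algebraMap K L) σ (fun _ hk => S.map_pcg hk) F f := by
  obtain ⟨n0, hn0, n3, hdata, hlev⟩ := S.exists_data
  have h2L : (2 : L) ≠ 0 := fun h => S.h6 (by linear_combination 3 * h)
  refine ⟨n0, hn0, n3, fun n1 hn1 => ?_⟩
  obtain ⟨n2, hn2, hlev⟩ := hlev n1 hn1
  refine ⟨n2, hn2, fun n hn F hF => ?_⟩
  have D := hdata n1 hn1 F hF
  have Lv := hlev n hn
  refine ⟨trfBi D Lv (idx (Lev.bcP K L) (VL.pcg n0) (VK.pcg n)), trfBi_fin D Lv _, ?_, ?_⟩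
  · intro T _ j γ X hγ hX hj
    have hns := ns_of_disc hγ
    have hX' : nm S.alg X = bc γ := hX
    let _ : MulAction T (PGL(2, L) ⧸ VL.pcg n1) := actVia (jL (algebraMap K L) j) (VL.pcg n1)
    let _ : MulAction T (PGL(2, K) ⧸ VK.pcg n) := actVia (jK j) (VK.pcg n)
    refine transfer D Lv (jK j) (fun t g => rfl) (fun t h => rfl) (ProjGenLinGroup.mk γ)
      (ProjGenLinGroup.mk X) ?_ ?_
    · intro g u hu hXg
      induction g using ProjGenLinGroup.induction_on with
      | mk g =>
      induction u using ProjGenLinGroup.induction_on with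
      | mk u =>
      rw [Lev.bcP_mk, ProjGenLinGroup.map_mk, ← map_inv, ← map_mul, ← map_mul,
        ProjGenLinGroup.mk_eq_mk_iff] at hXg
      obtain ⟨c, hc⟩ := hXg
      have hc' : g * bc u * (sg S.alg g)⁻¹ = sc c * X := by
        rw [sc_comm]
        exact hc.symm
      have hnu : nm S.alg (bc u) = bc (u * u * u) := by
        rw [nm, sg_bc, sg_bc, ← map_mul, ← map_mul]
      have hnsu : NS ((u * u * u : GL (Fin 2) K) : M2 K) := by
        intro a ha
        have e1 : g * bc (u * u * u) * g⁻¹ = sc (nu S.alg c) * bc γ := by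
          rw [← hnu, ← nm_conj S.alg S.cyc3, hc', nm_sc_mul, hX']
        have e2 : bc (E := L) γ = (sc (nu S.alg c))⁻¹ * (g * bc (u * u * u) * g⁻¹) := by
          rw [e1, inv_mul_cancel_left]
        have hns' : NS (bc (E := L) γ : M2 L) := ns_map (algebraMap K L) hns
        refine hns' ((((nu S.alg c)⁻¹ : Lˣ) : L) * algebraMap K L a) ?_
        rw [e2, ← map_inv, Units.val_mul, coe_sc, Units.val_mul, Units.val_mul, coe_bc, ha]
        have e3 : (a • (1 : M2 K)).map (algebraMap K L) = algebraMap K L a • (1 : M2 L) := by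
          ext i j
          simp only [Matrix.map_apply, Matrix.smul_apply, smul_eq_mul, map_mul, Matrix.one_apply]
          split_ifs <;> simp
        rw [e3, mul_smul_comm, mul_one, smul_mul_assoc, one_mul, smul_mul_assoc,
          ← Units.val_mul, mul_inv_cancel, Units.val_one, smul_smul]
      obtain ⟨x, z, -, hx⟩ := conj_of_twconj S.alg S.cyc3 hnsu hns hnu hX' hc'
      refine ⟨ProjGenLinGroup.mk (x * u * x⁻¹), ProjGenLinGroup.mk x, ?_, ?_⟩
      · rw [← map_inv, ← map_mul, ← map_mul]
        congr 1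
        group
      · rw [← map_pow]
        have e1 : (x * u * x⁻¹) ^ 3 = sc z * γ := by
          rw [← hx]
          simp only [pow_succ, pow_zero]
          group
        rw [e1, map_mul, sc, ProjGenLinGroup.mk_scalar, one_mul]
    · intro x h₀ hx hxγ
      induction x using ProjGenLinGroup.induction_on with
      | mk x =>
      rw [← map_pow, eq_comm, ProjGenLinGroup.mk_eq_mk_iff] at hxγ
      obtain ⟨z, hz⟩ := hxγ
      have hx3 : x * x * x = sc z * γ := by
        rw [sc_comm]
        change γ * sc z = x ^ 3 at hz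
        rw [hz]
        simp only [pow_succ, pow_zero, one_mul]
      obtain ⟨s, c, hs, hXs, hxc⟩ := exists_torus_conj S.cyc3 h2L hns hX' hx3
      refine ⟨ProjGenLinGroup.mk s, ?_, ?_, ?_⟩
      · rw [hXs, map_mul, sc, ProjGenLinGroup.mk_scalar, one_mul, map_mul, map_mul, map_inv]
        rfl
      · intro t
        have h1 : bc (E := L) (j t) ∈ tor γ := by
          rw [mem_tor, ← map_mul, ← map_mul, hj]
        have h3 := tor_comm hns h1 hs
        change ProjGenLinGroup.mk (bc (j t)) * ProjGenLinGroup.mk s =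
          ProjGenLinGroup.mk s * ProjGenLinGroup.mk (bc (j t))
        rw [← map_mul, ← map_mul, h3]
      · intro t
        change ProjGenLinGroup.mk (j t) * ProjGenLinGroup.mk x =
          ProjGenLinGroup.mk x * ProjGenLinGroup.mk (j t)
        rw [← map_mul, ← map_mul]
        congr 1
        apply Units.ext
        rw [Units.val_mul, Units.val_mul]
        exact mul_comm_of_comm hns (congrArg Units.val (hj t)).symm (congrArg Units.val hxc).symm
  · intro γ h hγ hne
    have hex : ∃ u : PGL(2, K), Lev.bcP K L u ∈ VL.pcg n0 ∧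
        u ^ 3 = ProjGenLinGroup.mk (h⁻¹ * γ * h) := by
      by_contra hcon
      exact hne (trf_eq_zero D _ hcon)
    obtain ⟨u, -, hu⟩ := hex
    induction u using ProjGenLinGroup.induction_on with
    | mk u =>
    rw [← map_pow, eq_comm, ProjGenLinGroup.mk_eq_mk_iff] at hu
    obtain ⟨z, hz⟩ := hu
    have hx3 : (h * u * h⁻¹) * (h * u * h⁻¹) * (h * u * h⁻¹) = sc z * γ := by
      change h⁻¹ * γ * h * sc z = u ^ 3 at hz
      have e1 : (h * u * h⁻¹) * (h * u * h⁻¹) * (h * u * h⁻¹) = h * u ^ 3 * h⁻¹ := by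
        simp only [pow_succ, pow_zero]
        group
      rw [e1, ← hz, ← sc_comm]
      calc h * (sc z * (h⁻¹ * γ * h)) * h⁻¹ = h * sc z * h⁻¹ * γ := by group
        _ = sc z * γ := by rw [← sc_comm]; group
    refine ⟨bc (h * u * h⁻¹), z, ?_, ?_⟩
    · generalize h * u * h⁻¹ = x at hx3
      have hxγ : x * γ = γ * x := by
        have h1 : sc z * (x * γ) = sc z * (γ * x) := by
          calc sc z * (x * γ) = x * (sc z * γ) := by
                rw [← mul_assoc, sc_comm, mul_assoc]
            _ = x * (x * x * x) := by rw [hx3]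
            _ = (x * x * x) * x := by group
            _ = _ := by rw [hx3, mul_assoc]
        exact mul_left_cancel h1
      change bc x * bc γ = bc γ * bc x
      rw [← map_mul, ← map_mul, hxγ]
    · change nm S.alg (bc (h * u * h⁻¹)) = bc (sc z * γ)
      rw [nm, sg_bc, sg_bc, ← map_mul, ← map_mul, hx3]

end

end Fermat.Agent.LT.Loc
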