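import Fermat.Agent.LT.Loc.BadMatch

/-!
# Matching at a bad nonsplit place: algebraic form
-/

set_option autoImplicit false

open Matrix Filter Topology
open scoped MatrixGroups

namespace Fermat.Agent.LT.Loc

universe u t

local notation "M2" => Matrix (Fin 2) (Fin 2)

/-- the structure attached to a natural number -/
def Lev.ofNat {F : Type*} [Field F] (O : Subring F) (q : ℕ) (hq : (q : F) ≠ 0) : Lev F :=
  ⟨O, q, natCast_mem O q, hq⟩

theorem Lev.cg_ofNat {F : Type*} [Field F] (O : Subring F) (q : ℕ) (hq : (q : F) ≠ 0) (n : ℕ) :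
    (Lev.ofNat O q hq).cg n = Glob.KN O (q ^ n) := by
  have key : ∀ g : M2 F, (Lev.ofNat O q hq).cgm n g ↔
      ∀ i j, g i j - (1 : M2 F) i j ∈ Glob.NO O (q ^ n) := by
    intro g
    refine forall_congr' fun i => forall_congr' fun j => ?_
    rw [Matrix.sub_apply, Glob.mem_NO, Nat.cast_pow]
    rfl
  ext g
  constructor
  · intro hg
    exact ⟨⟨hg.1.mem, hg.2.mem⟩, (key _).1 hg.1⟩
  · intro hg
    refine ⟨(key _).2 hg.2, (key _).2 ?_⟩
    exact ((Glob.KN O (q ^ n)).inv_mem hg).2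

theorem Lev.pcg_ofNat {F : Type*} [Field F] (O : Subring F) (q : ℕ) (hq : (q : F) ≠ 0) (n : ℕ) :
    (Lev.ofNat O q hq).pcg n = Glob.PK O (q ^ n) := by
  rw [Lev.pcg, Lev.cg_ofNat]; rfl

theorem Lev.jac_ofNat {F : Type*} [NormedField F] [IsUltrametricDist F] (O : Subring F)
    (hO : ∀ x, x ∈ O ↔ ‖x‖ ≤ 1) (q : ℕ) (hq : (q : F) ≠ 0) (hq1 : ‖(q : F)‖ < 1) :
    (Lev.ofNat O q hq).Jac := by
  intro a ha
  have ha' : ‖a‖ ≤ 1 := (hO a).1 ha
  have h1 : ‖(q : F) * a‖ < 1 := by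
    rw [norm_mul]
    exact (mul_le_of_le_one_right (norm_nonneg _) ha').trans_lt hq1
  have h2 : ‖1 + (q : F) * a‖ = 1 := by
    have := IsUltrametricDist.norm_add_eq_max_of_norm_ne_norm (x := (1 : F)) (y := (q : F) * a) (by
      rw [norm_one]; exact h1.ne')
    rw [this, norm_one, max_eq_left h1.le]
  have h3 : 1 + (q : F) * a ≠ 0 := by
    intro h0
    rw [h0, norm_zero] at h2
    exact zero_ne_one h2
  refine ⟨(1 + (q : F) * a)⁻¹, (hO _).2 ?_, mul_inv_cancel₀ h3⟩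
  rw [norm_inv, h2, inv_one]

theorem Setup.of_ball {K L : Type*} [NontriviallyNormedField K] [IsUltrametricDist K]
    [NormedField L] [NormedAlgebra K L] (σ : L →+* L)
    (hσ : ∀ a, σ (σ (σ a)) = a) (hne : ∃ a, σ a ≠ a)
    (hK : ∀ c : K, σ (algebraMap K L c) = algebraMap K L c)
    (hfix : ∀ a, σ a = a → ∃ c : K, algebraMap K L c = a) (h6 : (6 : L) ≠ 0)
    (OK : Subring K) (hOK : ∀ x, x ∈ OK ↔ ‖x‖ ≤ 1) (O : Subring L) (hO : ∀ x, x ∈ O ↔ ‖x‖ ≤ 1)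
    (sO : ∀ a ∈ O, σ a ∈ O) (q : ℕ) (hq : (q : K) ≠ 0) (hq' : (q : L) ≠ 0)
    (hq1 : ‖(q : K)‖ < 1) (finK : (Lev.ofNat OK q hq).FinQ) (finL : (Lev.ofNat O q hq').FinQ) :
    Setup σ (Lev.ofNat OK q hq) (Lev.ofNat O q hq') := by
  have : IsUltrametricDist L := IsUltrametricDist.of_normedAlgebra K
  have hq1' : ‖(q : L)‖ < 1 := by
    rw [← map_natCast (algebraMap K L) q, norm_algebraMap']
    exact hq1
  refine
    { hσ := hσ
      hne := hne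
      hK := hK
      hfix := hfix
      h6 := h6
      comp := ?_
      finK := finK
      finL := finL
      sO := sO
      small := ?_
      nhds := ?_ }
  · refine
      { π := map_natCast _ _
        O := fun a => ?_
        jacK := Lev.jac_ofNat OK hOK q hq hq1
        jacL := Lev.jac_ofNat O hO q hq' hq1' }
    change algebraMap K L a ∈ O ↔ a ∈ OK
    rw [hO, hOK, norm_algebraMap']
  · intro ε hε
    obtain ⟨n, hn⟩ := exists_pow_lt_of_lt_one hε hq1'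
    refine ⟨n, ?_⟩
    rintro _ ⟨a, ha, rfl⟩
    have ha' : ‖a‖ ≤ 1 := (hO a).1 ha
    change ‖(q : L) ^ n * a‖ < ε
    rw [norm_mul, norm_pow]
    exact (mul_le_of_le_one_right (by positivity) ha').trans_lt hn
  · refine Filter.mem_of_superset (Metric.ball_mem_nhds (0 : L) one_pos) fun x hx => ?_
    exact (hO x).2 (mem_ball_zero_iff.1 hx).le

theorem mem_iff_norm_le {L : Type*} [NormedField L] (O : Subring L)
    (hint : ∀ x : L, ‖x‖ ≤ 1 → x ∈ O) (q : ℕ) (hq : (q : L) ≠ 0)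
    (hqO : ∀ y ∈ O, (q : L) * y ≠ 1) (x : L) : x ∈ O ↔ ‖x‖ ≤ 1 := by
  refine ⟨fun hx => ?_, hint x⟩
  by_contra hlt
  push Not at hlt
  have hx0 : x ≠ 0 := by
    rintro rfl
    rw [norm_zero] at hlt
    linarith
  have hy : ‖x⁻¹‖ < 1 := by
    rw [norm_inv]
    exact inv_lt_one_of_one_lt₀ hlt
  have hqpos : 0 < ‖(q : L)‖ := norm_pos_iff.2 hq
  obtain ⟨n, hn⟩ := exists_pow_lt_of_lt_one hqpos hy
  refine hqO (x ^ n * ((q : L)⁻¹ * (x⁻¹) ^ n)) (O.mul_mem (O.pow_mem hx n) (hint _ ?_)) ?_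
  · rw [norm_mul, norm_inv, norm_pow]
    rw [inv_mul_le_iff₀ hqpos, mul_one]
    exact hn.le
  · rw [inv_pow]
    have := pow_ne_zero n hx0
    field_simp

/-- **Matching at a bad nonsplit place: algebraic form.** -/
theorem exists_isMatch_field {K L : Type u} [NontriviallyNormedField K] [IsUltrametricDist K]
    [CompleteSpace K] [Field L] [Algebra K L] [FiniteDimensional K L] (σ : L →+* L)
    (hσ : ∀ a, σ (σ (σ a)) = a) (hne : ∃ a, σ a ≠ a)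
    (hK : ∀ c : K, σ (algebraMap K L c) = algebraMap K L c)
    (hfix : ∀ a, σ a = a → ∃ c : K, algebraMap K L c = a) (h6 : (6 : L) ≠ 0)
    (OK : Subring K) (hOK : ∀ x, x ∈ OK ↔ ‖x‖ ≤ 1) (O : Subring L)
    (hint : ∀ x : L, (∀ i, ‖(minpoly K x).coeff i‖ ≤ 1) → x ∈ O)
    (sO : ∀ a ∈ O, σ a ∈ O) (q : ℕ) (hq : (q : K) ≠ 0) (hq' : (q : L) ≠ 0)
    (hq1 : ‖(q : K)‖ < 1) (hqO : ∀ y ∈ O, (q : L) * y ≠ 1)
    (finK : (Lev.ofNat OK q hq).FinQ) (finL : (Lev.ofNat O q hq').FinQ) :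
    ∃ n0, ∀ n3 ≥ n0, ∀ n1 ≥ n3, ∃ n2 ≥ n1, ∀ n ≥ n2,
    ∀ (hU : ∀ k ∈ Glob.PK O (q ^ n1), ProjGenLinGroup.map σ k ∈ Glob.PK O (q ^ n1))
      (F : BiInv (Glob.PK O (q ^ n1))), (∀ X, F.f X ≠ 0 → X ∈ Glob.PK O (q ^ n3)) →
      ∃ f : BiInv (Glob.PK OK (q ^ n)), f.Fin ∧ IsMatch.{u, t} (algebraMap K L) σ hU F f := by
  let _ : NormedField L := spectralNorm.normedField K L
  let _ : NormedAlgebra K L := spectralNorm.normedAlgebra K L
  have hO : ∀ x : L, x ∈ O ↔ ‖x‖ ≤ 1 := by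
    refine mem_iff_norm_le O (fun x hx => hint x ?_) q hq' hqO
    exact (spectralValue_le_one_iff (minpoly.monic (Algebra.IsIntegral.isIntegral x))).1 hx
  have S := Setup.of_ball σ hσ hne hK hfix h6 OK hOK O hO sO q hq hq' hq1 finK finL
  obtain ⟨n0, -, n3, hS⟩ := Setup.isMatch.{u, t} S
  refine ⟨max n0 n3, fun m3 hm3 n1 hn1 => ?_⟩
  obtain ⟨n2, hn2, h⟩ := hS n1 (by omega)
  refine ⟨n2, hn2, fun n hn hU F hF => ?_⟩
  have h := h n hn
  have e3 := Lev.pcg_mono (V := Lev.ofNat O q hq') (show n3 ≤ m3 by omega)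
  have key : ∀ (U1 : Subgroup PGL(2, L)) (V1 : Subgroup PGL(2, K)),
      U1 = (Lev.ofNat O q hq').pcg n1 → V1 = (Lev.ofNat OK q hq).pcg n →
      ∀ (hU : ∀ k ∈ U1, ProjGenLinGroup.map σ k ∈ U1) (F : BiInv U1),
      (∀ X, F.f X ≠ 0 → X ∈ (Lev.ofNat O q hq').pcg n3) →
      ∃ f : BiInv V1, f.Fin ∧ IsMatch.{u, t} (algebraMap K L) σ hU F f := by
    rintro _ _ rfl rfl hU F hF
    exact h F hF
  exact key _ _ (Lev.pcg_ofNat O q hq' n1).symm (Lev.pcg_ofNat OK q hq n).symm hU F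
    (fun X hX => e3 (by rw [Lev.pcg_ofNat]; exact hF X hX))

/-- the finiteness of the quotients, for rings -/
def FinQuot {R : Type*} [CommRing R] (O : Subring R) (q : ℕ) : Prop :=
  ∀ n : ℕ, Finite (O ⧸ Ideal.span {(q : O) ^ n})

/-- **Matching at a bad nonsplit place: algebraic form.** -/
theorem exists_isMatch_ring {K L : Type u} [NontriviallyNormedField K] [IsUltrametricDist K]
    [CompleteSpace K] [CommRing L] (hL : IsField L) [Algebra K L] [Module.Finite K L] (σ : L →+* L)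
    (hσ : ∀ a, σ (σ (σ a)) = a) (hne : ∃ a, σ a ≠ a)
    (hK : ∀ c : K, σ (algebraMap K L c) = algebraMap K L c)
    (hfix : ∀ a, σ a = a → ∃ c : K, algebraMap K L c = a) (h6 : (6 : L) ≠ 0)
    (OK : Subring K) (hOK : ∀ x, x ∈ OK ↔ ‖x‖ ≤ 1) (O : Subring L)
    (hint : ∀ x : L, (∀ i, ‖(minpoly K x).coeff i‖ ≤ 1) → x ∈ O)
    (sO : ∀ a ∈ O, σ a ∈ O) (q : ℕ) (hq : (q : K) ≠ 0) (hq' : (q : L) ≠ 0)
    (hq1 : ‖(q : K)‖ < 1) (hqO : ∀ y ∈ O, (q : L) * y ≠ 1)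
    (finK : FinQuot OK q) (finL : FinQuot O q) :
    ∃ n0, ∀ n3 ≥ n0, ∀ n1 ≥ n3, ∃ n2 ≥ n1, ∀ n ≥ n2,
    ∀ (hU : ∀ k ∈ Glob.PK O (q ^ n1), ProjGenLinGroup.map σ k ∈ Glob.PK O (q ^ n1))
      (F : BiInv (Glob.PK O (q ^ n1))), (∀ X, F.f X ≠ 0 → X ∈ Glob.PK O (q ^ n3)) →
      ∃ f : BiInv (Glob.PK OK (q ^ n)), f.Fin ∧ IsMatch.{u, t} (algebraMap K L) σ hU F f := by
  let _ : Field L := hL.toField
  exact exists_isMatch_field σ hσ hne hK hfix h6 OK hOK O hint sO q hq hq' hq1 hqO finK finL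

end Fermat.Agent.LT.Loc
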