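import Mathlib

/-!
# Congruence subgroups of `PGL₂` of a field with respect to a subring
-/

set_option autoImplicit false

open Matrix
open scoped MatrixGroups

namespace Fermat.Agent.LT.Loc

/-- a subring with a "uniformiser" -/
structure Lev (F : Type*) [Field F] where
  O : Subring F
  π : F
  mem : π ∈ O
  ne : π ≠ 0

namespace Lev

variable {F : Type*} [Field F] (V : Lev F)

/-- divisible by `π ^ n` -/
def dv (n : ℕ) (x : F) : Prop := ∃ a ∈ V.O, x = V.π ^ n * a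

variable {V} {m n : ℕ} {x y : F}

theorem dv_zero (n : ℕ) : V.dv n 0 := ⟨0, V.O.zero_mem, by simp⟩
theorem dv.add (hx : V.dv n x) (hy : V.dv n y) : V.dv n (x + y) := by
  obtain ⟨a, ha, rfl⟩ := hx
  obtain ⟨b, hb, rfl⟩ := hy
  exact ⟨a + b, V.O.add_mem ha hb, by ring⟩
theorem dv.neg (hx : V.dv n x) : V.dv n (-x) := by
  obtain ⟨a, ha, rfl⟩ := hx
  exact ⟨-a, V.O.neg_mem ha, by ring⟩
theorem dv.sub (hx : V.dv n x) (hy : V.dv n y) : V.dv n (x - y) := by
  rw [sub_eq_add_neg]; exact hx.add hy.neg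
theorem dv.mul_left (hx : V.dv n x) (hy : y ∈ V.O) : V.dv n (y * x) := by
  obtain ⟨a, ha, rfl⟩ := hx
  exact ⟨y * a, V.O.mul_mem hy ha, by ring⟩
theorem dv.mul_right (hx : V.dv n x) (hy : y ∈ V.O) : V.dv n (x * y) := by
  rw [mul_comm]; exact hx.mul_left hy
theorem dv.mem (hx : V.dv n x) : x ∈ V.O := by
  obtain ⟨a, ha, rfl⟩ := hx
  exact V.O.mul_mem (V.O.pow_mem V.mem n) ha
theorem dv.mul (hx : V.dv n x) (hy : V.dv m y) : V.dv n (x * y) := hx.mul_right hy.mem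
theorem dv.mono (h : m ≤ n) (hx : V.dv n x) : V.dv m x := by
  obtain ⟨a, ha, rfl⟩ := hx
  refine ⟨V.π ^ (n - m) * a, V.O.mul_mem (V.O.pow_mem V.mem _) ha, ?_⟩
  rw [← mul_assoc, ← pow_add, Nat.add_sub_cancel' h]
theorem dv.sum {ι : Type*} (s : Finset ι) {f : ι → F} (h : ∀ i ∈ s, V.dv n (f i)) :
    V.dv n (∑ i ∈ s, f i) := by
  classical
  induction s using Finset.induction_on with
  | empty => rw [Finset.sum_empty]; exact dv_zero n
  | insert a s ha ih =>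
    rw [Finset.sum_insert ha]
    exact (h a (Finset.mem_insert_self a s)).add
      (ih fun i hi => h i (Finset.mem_insert_of_mem hi))

local notation "M2" => Matrix (Fin 2) (Fin 2)

variable (V) in
/-- congruent to `1` modulo `π ^ n` -/
def cgm (n : ℕ) (g : M2 F) : Prop := ∀ i j, V.dv n ((g - 1) i j)

theorem cgm_one (n : ℕ) : V.cgm n 1 := fun i j => by
  rw [sub_self]; exact dv_zero n

theorem cgm.mul {g h : M2 F} (hg : V.cgm n g) (hh : V.cgm n h) : V.cgm n (g * h) := by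
  intro i j
  have h1 : g * h - 1 = (g - 1) * (h - 1) + (g - 1) + (h - 1) := by noncomm_ring
  rw [h1, Matrix.add_apply, Matrix.add_apply, Matrix.mul_apply]
  exact ((dv.sum _ fun l _ => (hg i l).mul (hh l j)).add (hg i j)).add (hh i j)

theorem cgm.mono {g : M2 F} (h : m ≤ n) (hg : V.cgm n g) : V.cgm m g := fun i j => (hg i j).mono h

theorem cgm.mem {g : M2 F} (hg : V.cgm n g) (i j : Fin 2) : g i j ∈ V.O := by
  have h1 : g i j = (g - 1) i j + (1 : M2 F) i j := by rw [Matrix.sub_apply]; ring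
  rw [h1]
  refine V.O.add_mem (hg i j).mem ?_
  rw [Matrix.one_apply]
  split_ifs
  · exact V.O.one_mem
  · exact V.O.zero_mem

/-- conjugation preserves congruence -/
theorem cgm.conj {c c' k : M2 F} (hc : ∀ i j, c i j ∈ V.O) (hc' : ∀ i j, c' i j ∈ V.O)
    (hcc : c * c' = 1) (hk : V.cgm n k) : V.cgm n (c * k * c') := by
  intro i j
  have h1 : c * k * c' - 1 = c * (k - 1) * c' := by
    rw [mul_sub, sub_mul, mul_one, hcc]
  rw [h1, Matrix.mul_apply]
  refine dv.sum _ fun l _ => ?_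
  refine dv.mul_right ?_ (hc' l j)
  rw [Matrix.mul_apply]
  exact dv.sum _ fun l' _ => (hk l' l).mul_left (hc i l')

variable (V) in
/-- the congruence subgroup -/
def cg (n : ℕ) : Subgroup (GL (Fin 2) F) where
  carrier := {g | V.cgm n (g : M2 F) ∧ V.cgm n ((g⁻¹ : GL (Fin 2) F) : M2 F)}
  mul_mem' := by
    rintro a b ⟨ha, ha'⟩ ⟨hb, hb'⟩
    refine ⟨?_, ?_⟩
    · rw [Units.val_mul]; exact ha.mul hb
    · rw [_root_.mul_inv_rev, Units.val_mul]; exact hb'.mul ha'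
  one_mem' := ⟨cgm_one n, by rw [inv_one]; exact cgm_one n⟩
  inv_mem' := by
    rintro a ⟨ha, ha'⟩
    exact ⟨ha', by rw [inv_inv]; exact ha⟩

theorem mem_cg {g : GL (Fin 2) F} : g ∈ V.cg n ↔ V.cgm n (g : M2 F) ∧
    V.cgm n ((g⁻¹ : GL (Fin 2) F) : M2 F) := Iff.rfl

theorem cg_mono (h : m ≤ n) : V.cg n ≤ V.cg m := fun _ hg => ⟨hg.1.mono h, hg.2.mono h⟩

theorem cg_conj {c k : GL (Fin 2) F} (hc : c ∈ V.cg m) (hk : k ∈ V.cg n) :
    c⁻¹ * k * c ∈ V.cg n := by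
  have h1 : ((c⁻¹ : GL (Fin 2) F) : M2 F) * (c : M2 F) = 1 := by
    rw [← Units.val_mul, inv_mul_cancel, Units.val_one]
  refine ⟨?_, ?_⟩
  · rw [Units.val_mul, Units.val_mul]
    exact hk.1.conj hc.2.mem hc.1.mem h1
  · rw [_root_.mul_inv_rev, _root_.mul_inv_rev, inv_inv, ← mul_assoc, Units.val_mul, Units.val_mul]
    exact hk.2.conj hc.2.mem hc.1.mem h1

/-- an element of `GL₂` congruent to `1` modulo `π ^ n` with determinant inverse in `O` -/
theorem mem_cg_of {g : GL (Fin 2) F} (hg : V.cgm n (g : M2 F))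
    (hd : ∃ d ∈ V.O, (g : M2 F).det * d = 1) : g ∈ V.cg n := by
  refine ⟨hg, ?_⟩
  obtain ⟨d, hd, hd'⟩ := hd
  have hg0 := hg.mem
  -- `g⁻¹ - 1 = - g⁻¹ (g - 1)`
  have hinv : ((g⁻¹ : GL (Fin 2) F) : M2 F) = d • (g : M2 F).adjugate := by
    have h1 : (g : M2 F) * (d • (g : M2 F).adjugate) = 1 := by
      rw [mul_smul_comm, Matrix.mul_adjugate, smul_smul, mul_comm, hd', one_smul]
    calc ((g⁻¹ : GL (Fin 2) F) : M2 F)
        = ((g⁻¹ : GL (Fin 2) F) : M2 F) * ((g : M2 F) * (d • (g : M2 F).adjugate)) := by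
          rw [h1, mul_one]
      _ = _ := by rw [← mul_assoc, ← Units.val_mul, inv_mul_cancel, Units.val_one, one_mul]
  have hi : ∀ i j, ((g⁻¹ : GL (Fin 2) F) : M2 F) i j ∈ V.O := by
    intro i j
    rw [hinv, Matrix.adjugate_fin_two]
    refine V.O.mul_mem hd ?_
    fin_cases i <;> fin_cases j
    · exact hg0 1 1
    · exact V.O.neg_mem (hg0 0 1)
    · exact V.O.neg_mem (hg0 1 0)
    · exact hg0 0 0
  intro i j
  have h1 : ((g⁻¹ : GL (Fin 2) F) : M2 F) - 1 =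
      -(((g⁻¹ : GL (Fin 2) F) : M2 F) * ((g : M2 F) - 1)) := by
    rw [mul_sub, ← Units.val_mul, inv_mul_cancel, Units.val_one, mul_one, neg_sub]
  rw [h1, Matrix.neg_apply, Matrix.mul_apply]
  exact (dv.sum _ fun l _ => (hg l j).mul_left (hi i l)).neg

/-- the congruence subgroup in `PGL₂` -/
def pcg (V : Lev F) (n : ℕ) : Subgroup (PGL(2, F)) := (V.cg n).map ProjGenLinGroup.mk

theorem mem_pcg {g : PGL(2, F)} : g ∈ V.pcg n ↔ ∃ k ∈ V.cg n, ProjGenLinGroup.mk k = g := Iff.rfl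

theorem pcg_mono (h : m ≤ n) : V.pcg n ≤ V.pcg m := Subgroup.map_mono (cg_mono h)

theorem pcg_conj {c k : PGL(2, F)} (hc : c ∈ V.pcg m) (hk : k ∈ V.pcg n) :
    c⁻¹ * k * c ∈ V.pcg n := by
  obtain ⟨c, hc, rfl⟩ := hc
  obtain ⟨k, hk, rfl⟩ := hk
  exact ⟨c⁻¹ * k * c, cg_conj hc hk, by rw [map_mul, map_mul, map_inv]⟩

/-- the quotients are finite -/
def FinQ (V : Lev F) : Prop := ∀ n, Finite (V.O ⧸ Ideal.span {(⟨V.π, V.mem⟩ : V.O) ^ n})

theorem finite_cg (hV : V.FinQ) (m n : ℕ) :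
    Finite (V.cg m ⧸ (V.cg n).subgroupOf (V.cg m)) := by
  have := hV n
  let R := V.O ⧸ Ideal.span {(⟨V.π, V.mem⟩ : V.O) ^ n}
  let φ : V.cg m → M2 R := fun g => Matrix.of fun i j =>
    Ideal.Quotient.mk _ (⟨((g : GL (Fin 2) F) : M2 F) i j, g.2.1.mem i j⟩ : V.O)
  have key : ∀ a b : V.cg m, φ a = φ b → (a⁻¹ * b : V.cg m) ∈ (V.cg n).subgroupOf (V.cg m) := by
    have key' : ∀ a b : V.cg m, φ a = φ b →
        V.cgm n ((((a : GL (Fin 2) F)⁻¹ * b : GL (Fin 2) F)) : M2 F) := by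
      intro a b hab i j
      have h1 : (((a : GL (Fin 2) F)⁻¹ * b : GL (Fin 2) F) : M2 F) - 1 =
          (((a : GL (Fin 2) F)⁻¹ : GL (Fin 2) F) : M2 F) *
            (((b : GL (Fin 2) F) : M2 F) - ((a : GL (Fin 2) F) : M2 F)) := by
        rw [mul_sub, ← Units.val_mul, ← Units.val_mul, inv_mul_cancel, Units.val_one]
      rw [h1, Matrix.mul_apply]
      refine dv.sum _ fun l _ => dv.mul_left ?_ (a.2.2.mem i l)
      have h2 := congrFun (congrFun hab l) j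
      simp only [φ, Matrix.of_apply] at h2
      rw [eq_comm, Ideal.Quotient.eq, Ideal.mem_span_singleton'] at h2
      obtain ⟨c, hc⟩ := h2
      refine ⟨c, c.2, ?_⟩
      have h3 := congrArg Subtype.val hc
      simp only [Subring.coe_mul, SubmonoidClass.coe_pow, AddSubgroupClass.coe_sub] at h3
      rw [Matrix.sub_apply, ← h3, mul_comm]
    intro a b hab
    rw [Subgroup.mem_subgroupOf]
    refine ⟨key' a b hab, ?_⟩
    have h1 := key' b a hab.symm
    have h2 : (((a⁻¹ * b : V.cg m) : GL (Fin 2) F))⁻¹ = (b : GL (Fin 2) F)⁻¹ * a := by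
      simp
    rw [h2]
    exact h1
  refine Finite.of_injective (β := M2 R) (fun q => φ q.out) ?_
  intro a b hab
  rw [← Quotient.out_eq' a, ← Quotient.out_eq' b]
  exact QuotientGroup.eq.2 (key _ _ hab)

theorem finite_pcg (hV : V.FinQ) (m n : ℕ) :
    Finite (V.pcg m ⧸ (V.pcg n).subgroupOf (V.pcg m)) := by
  have := finite_cg hV m n
  let φ : (V.cg m ⧸ (V.cg n).subgroupOf (V.cg m)) →
      (V.pcg m ⧸ (V.pcg n).subgroupOf (V.pcg m)) := fun q => Quotient.liftOn' q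
    (fun g => ((⟨ProjGenLinGroup.mk (g : GL (Fin 2) F), ⟨g, g.2, rfl⟩⟩ : V.pcg m) :
      V.pcg m ⧸ (V.pcg n).subgroupOf (V.pcg m))) (by
      intro a b hab
      rw [QuotientGroup.leftRel_apply, Subgroup.mem_subgroupOf] at hab
      refine QuotientGroup.eq.2 ?_
      rw [Subgroup.mem_subgroupOf]
      exact ⟨_, hab, by simp⟩)
  refine Finite.of_surjective φ ?_
  intro q
  induction q using QuotientGroup.induction_on with
  | H q =>
  obtain ⟨q, g, hg, rfl⟩ := q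
  exact ⟨((⟨g, hg⟩ : V.cg m) : V.cg m ⧸ (V.cg n).subgroupOf (V.cg m)), rfl⟩

end Lev

end Fermat.Agent.LT.Loc
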