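import Fermat.Agent.LT.Loc.UniqPGL

/-!
# Cube roots near the identity are unique
-/

set_option autoImplicit false

open Matrix Filter Topology

namespace Fermat.Agent.LT.Loc

local notation "M2" => Matrix (Fin 2) (Fin 2)

theorem smul_cube {K : Type*} [Field K] (m : K) (x : M2 K) :
    (m • x) * (m • x) * (m • x) = (m ^ 3) • (x * x * x) := by
  rw [smul_mul_smul_comm, smul_mul_smul_comm]
  congr 1
  ring

theorem trace_cube {K : Type*} [Field K] (y : M2 K) :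
    (y * y * y).trace = y.trace ^ 3 - 3 * y.trace * y.det := by
  rw [cube_eq, Matrix.trace_sub, Matrix.trace_smul, Matrix.trace_smul, Matrix.trace_one,
    Fintype.card_fin, smul_eq_mul, smul_eq_mul]
  push_cast
  ring

/-- Cube roots near `1` are unique in `PGL₂`. -/
theorem exists_eps_cube {K : Type*} [NontriviallyNormedField K] [CompleteSpace K]
    (h6 : (6 : K) ≠ 0) : ∃ ε > 0, ∀ (x x' : M2 K) (c : K), Near ε x → Near ε x' →
      x * x * x = c • (x' * x' * x') → ∃ m : K, m ≠ 0 ∧ x = m • x' := by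
  have h3 : (3 : K) ≠ 0 := fun h => h6 (by linear_combination 2 * h)
  have h2 : (2 : K) ≠ 0 := fun h => h6 (by linear_combination 3 * h)
  -- everything by continuity
  obtain ⟨ε₁, hε₁, e1⟩ : ∃ ε₁ > 0, ∀ (t d t' d' m : K), ‖t - 2‖ < ε₁ → ‖d - 1‖ < ε₁ →
      ‖t' - 2‖ < ε₁ → ‖d' - 1‖ < ε₁ → ‖m - 1‖ < ε₁ →
      d ^ 2 + d * (m ^ 2 * d') + (m ^ 2 * d') ^ 2 ≠ 0 ∧
      t ^ 2 + t * (m * t') + (m * t') ^ 2 - 3 * d ≠ 0 ∧ t ^ 2 - d ≠ 0 := by
    have b1 : ∀ᶠ p : (K × K) × (K × K) × K in 𝓝 ((2, 1), (2, 1), 1),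
        p.1.2 ^ 2 + p.1.2 * (p.2.2 ^ 2 * p.2.1.2) + (p.2.2 ^ 2 * p.2.1.2) ^ 2 ≠ 0 := by
      have c : Continuous fun p : (K × K) × (K × K) × K =>
          p.1.2 ^ 2 + p.1.2 * (p.2.2 ^ 2 * p.2.1.2) + (p.2.2 ^ 2 * p.2.1.2) ^ 2 := by fun_prop
      refine c.continuousAt.eventually_ne ?_
      have : (1 : K) ^ 2 + 1 * (1 ^ 2 * 1) + (1 ^ 2 * 1) ^ 2 = 3 := by norm_num
      simp only [this]
      exact h3
    have b2 : ∀ᶠ p : (K × K) × (K × K) × K in 𝓝 ((2, 1), (2, 1), 1),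
        p.1.1 ^ 2 + p.1.1 * (p.2.2 * p.2.1.1) + (p.2.2 * p.2.1.1) ^ 2 - 3 * p.1.2 ≠ 0 := by
      have c : Continuous fun p : (K × K) × (K × K) × K =>
          p.1.1 ^ 2 + p.1.1 * (p.2.2 * p.2.1.1) + (p.2.2 * p.2.1.1) ^ 2 - 3 * p.1.2 := by
        fun_prop
      refine c.continuousAt.eventually_ne ?_
      have : (2 : K) ^ 2 + 2 * (1 * 2) + (1 * 2) ^ 2 - 3 * 1 = 3 * 3 := by norm_num
      simp only [this]
      exact mul_ne_zero h3 h3
    have b3 : ∀ᶠ p : (K × K) × (K × K) × K in 𝓝 ((2, 1), (2, 1), 1),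
        p.1.1 ^ 2 - p.1.2 ≠ 0 := by
      have c : Continuous fun p : (K × K) × (K × K) × K => p.1.1 ^ 2 - p.1.2 := by fun_prop
      refine c.continuousAt.eventually_ne ?_
      have : (2 : K) ^ 2 - 1 = 3 := by norm_num
      simp only [this]
      exact h3
    obtain ⟨ε₁, hε₁, hb⟩ := Metric.mem_nhds_iff.1 (b1.and (b2.and b3))
    refine ⟨ε₁, hε₁, fun t d t' d' m ht hd ht' hd' hm => ?_⟩
    have hmem : (((t, d), (t', d'), m) : (K × K) × (K × K) × K) ∈
        Metric.ball (((2, 1), (2, 1), 1) : (K × K) × (K × K) × K) ε₁ := by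
      rw [Metric.mem_ball, Prod.dist_eq, Prod.dist_eq, Prod.dist_eq, Prod.dist_eq, dist_eq_norm,
        dist_eq_norm, dist_eq_norm, dist_eq_norm, dist_eq_norm]
      exact max_lt (max_lt ht hd) (max_lt (max_lt ht' hd') hm)
    exact hb hmem
  obtain ⟨δ, hδ, e2⟩ := exists_cube_root h3 (lt_min hε₁ one_pos)
  obtain ⟨ε₂, hε₂, e3⟩ : ∃ ε₂ > 0, ∀ x x' : M2 K, Near ε₂ x → Near ε₂ x' →
      x'.trace ^ 3 - 3 * x'.trace * x'.det ≠ 0 ∧
      ‖(x.trace ^ 3 - 3 * x.trace * x.det) / (x'.trace ^ 3 - 3 * x'.trace * x'.det) - 1‖ < δ := by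
    have c1 : ContinuousAt (fun p : (K × K) × (K × K) =>
        (p.1.1 ^ 3 - 3 * p.1.1 * p.1.2) / (p.2.1 ^ 3 - 3 * p.2.1 * p.2.2)) ((2, 1), (2, 1)) := by
      refine ContinuousAt.div (by fun_prop) (by fun_prop) ?_
      have : (2 : K) ^ 3 - 3 * 2 * 1 = 2 := by norm_num
      simp only [this]
      exact h2
    have c2 : Continuous (fun p : (K × K) × (K × K) => p.2.1 ^ 3 - 3 * p.2.1 * p.2.2) := by
      fun_prop
    have v1 : (((2 : K) ^ 3 - 3 * 2 * 1) / ((2 : K) ^ 3 - 3 * 2 * 1)) = 1 := by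
      apply div_self
      have : (2 : K) ^ 3 - 3 * 2 * 1 = 2 := by norm_num
      rw [this]
      exact h2
    have b1 : ∀ᶠ p : (K × K) × (K × K) in 𝓝 ((2, 1), (2, 1)),
        ‖(p.1.1 ^ 3 - 3 * p.1.1 * p.1.2) / (p.2.1 ^ 3 - 3 * p.2.1 * p.2.2) - 1‖ < δ := by
      have := c1 (Metric.ball_mem_nhds _ hδ)
      filter_upwards [this] with p hp
      have h := mem_ball_iff_norm.1 (Set.mem_preimage.1 hp)
      rw [v1] at h
      exact h
    have b2 : ∀ᶠ p : (K × K) × (K × K) in 𝓝 ((2, 1), (2, 1)),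
        p.2.1 ^ 3 - 3 * p.2.1 * p.2.2 ≠ 0 := by
      refine c2.continuousAt.eventually_ne ?_
      have : (2 : K) ^ 3 - 3 * 2 * 1 = 2 := by norm_num
      simp only [this]
      exact h2
    obtain ⟨ε₂, hε₂, hb⟩ := Metric.mem_nhds_iff.1 (b2.and b1)
    refine ⟨ε₂, hε₂, fun x x' hx hx' => ?_⟩
    have hmem : (((x.trace, x.det), (x'.trace, x'.det)) : (K × K) × (K × K)) ∈
        Metric.ball (((2, 1), (2, 1)) : (K × K) × (K × K)) ε₂ := by
      rw [Metric.mem_ball, Prod.dist_eq, Prod.dist_eq, Prod.dist_eq, dist_eq_norm, dist_eq_norm,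
        dist_eq_norm, dist_eq_norm]
      exact max_lt (max_lt hx.1 hx.2) (max_lt hx'.1 hx'.2)
    exact hb hmem
  refine ⟨min ε₁ ε₂, lt_min hε₁ hε₂, ?_⟩
  intro x x' c hx hx' h
  have e5 : x.trace ^ 3 - 3 * x.trace * x.det = c * (x'.trace ^ 3 - 3 * x'.trace * x'.det) := by
    rw [← trace_cube, ← trace_cube, h, Matrix.trace_smul, smul_eq_mul]
  obtain ⟨n1, n2⟩ := e3 x x' (hx.mono (min_le_right _ _)) (hx'.mono (min_le_right _ _))
  have hc' : (x.trace ^ 3 - 3 * x.trace * x.det) / (x'.trace ^ 3 - 3 * x'.trace * x'.det) = c := by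
    rw [e5, mul_div_cancel_right₀ _ n1]
  rw [hc'] at n2
  obtain ⟨m, hm, hm'⟩ := e2 c n2
  have hm0 : m ≠ 0 := by
    rintro rfl
    rw [zero_sub, norm_neg, norm_one] at hm'
    exact absurd (hm'.trans_le (min_le_right _ _)) (lt_irrefl _)
  obtain ⟨p1, p2, p3⟩ := e1 x.trace x.det x'.trace x'.det m (hx.1.trans_le (min_le_left _ _))
    (hx.2.trans_le (min_le_left _ _)) (hx'.1.trans_le (min_le_left _ _))
    (hx'.2.trans_le (min_le_left _ _)) (hm'.trans_le (min_le_left _ _))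
  refine ⟨m, hm0, ?_⟩
  set y := m • x' with hy
  have hcube : x * x * x = y * y * y := by rw [h, hy, smul_cube, hm]
  have yt : y.trace = m * x'.trace := by rw [hy, Matrix.trace_smul, smul_eq_mul]
  have yd : y.det = m ^ 2 * x'.det := by rw [hy, Matrix.det_smul, Fintype.card_fin]
  have hd : x.det = y.det := by
    have h1 : x.det ^ 3 = y.det ^ 3 := by
      have := congrArg Matrix.det hcube
      simp only [Matrix.det_mul] at this
      linear_combination this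
    have h2 : (x.det - y.det) * (x.det ^ 2 + x.det * y.det + y.det ^ 2) = 0 := by
      linear_combination h1
    rw [yd] at h2 ⊢
    exact sub_eq_zero.1 ((mul_eq_zero.1 h2).resolve_right p1)
  have ht : x.trace = y.trace := by
    have h1 : x.trace ^ 3 - 3 * x.trace * x.det = y.trace ^ 3 - 3 * y.trace * y.det := by
      rw [← trace_cube, ← trace_cube, hcube]
    have h2 : (x.trace - y.trace) * (x.trace ^ 2 + x.trace * y.trace + y.trace ^ 2 - 3 * x.det) =
        0 := by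
      rw [← hd] at h1
      linear_combination h1
    rw [yt] at h2 ⊢
    exact sub_eq_zero.1 ((mul_eq_zero.1 h2).resolve_right p2)
  rw [cube_eq, cube_eq, ← hd, ← ht, sub_left_inj] at hcube
  exact smul_right_injective _ p3 hcube

end Fermat.Agent.LT.Loc
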