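import Fermat.Agent.LT.Loc.Cong
import Fermat.Agent.LT.Loc.Cube

/-!
# Congruence subgroups and base change
-/

set_option autoImplicit false

open Matrix
open scoped MatrixGroups

namespace Fermat.Agent.LT.Loc

namespace Lev

local notation "M2" => Matrix (Fin 2) (Fin 2)

/-- `1 + π O` consists of units -/
def Jac {F : Type*} [Field F] (V : Lev F) : Prop := ∀ a ∈ V.O, ∃ b ∈ V.O, (1 + V.π * a) * b = 1

theorem Jac.inv {F : Type*} [Field F] {V : Lev F} (hV : V.Jac) {n : ℕ} (hn : n ≠ 0) {x : F}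
    (hx : V.dv n (x - 1)) : ∃ b ∈ V.O, x * b = 1 := by
  obtain ⟨a, ha, h⟩ := hx.mono (Nat.one_le_iff_ne_zero.2 hn)
  obtain ⟨b, hb, hb'⟩ := hV a ha
  refine ⟨b, hb, ?_⟩
  rw [← hb']
  congr 1
  linear_combination h

theorem cgm.det {F : Type*} [Field F] {V : Lev F} {n : ℕ} {g : M2 F} (hg : V.cgm n g) :
    V.dv n (g.det - 1) := by
  have h00 := hg 0 0
  have h01 := hg 0 1
  have h10 := hg 1 0
  have h11 := hg 1 1
  simp only [Matrix.sub_apply, Matrix.one_apply_eq, ne_eq, zero_ne_one, one_ne_zero,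
    not_false_eq_true, Matrix.one_apply_ne, sub_zero] at h00 h01 h10 h11
  have h : g.det - 1 = (g 0 0 - 1) * (g 1 1 - 1) + (g 0 0 - 1) + (g 1 1 - 1) - g 0 1 * g 1 0 := by
    rw [Matrix.det_fin_two]; ring
  rw [h]
  exact (((h00.mul h11).add h00).add h11).sub (h01.mul h10)

/-- membership in the congruence subgroup -/
theorem Jac.mem_cg {F : Type*} [Field F] {V : Lev F} (hV : V.Jac) {n : ℕ} (hn : n ≠ 0)
    {g : GL (Fin 2) F} (hg : V.cgm n (g : M2 F)) : g ∈ V.cg n :=
  mem_cg_of hg (hV.inv hn hg.det)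

variable {K L : Type*} [Field K] [Field L] [Algebra K L] {VK : Lev K} {VL : Lev L}

/-- compatibility of subrings -/
structure Comp (VK : Lev K) (VL : Lev L) : Prop where
  π : algebraMap K L VK.π = VL.π
  O : ∀ a : K, algebraMap K L a ∈ VL.O ↔ a ∈ VK.O
  jacK : VK.Jac
  jacL : VL.Jac

/-- the base change map -/
noncomputable def bcP (K L : Type*) [Field K] [Field L] [Algebra K L] : PGL(2, K) →* PGL(2, L) :=
  ProjGenLinGroup.map (algebraMap K L)

/-- the base change map -/
noncomputable def bcG (K L : Type*) [Field K] [Field L] [Algebra K L] :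
    GL (Fin 2) K →* GL (Fin 2) L := GeneralLinearGroup.map (algebraMap K L)

theorem bcP_mk (g : GL (Fin 2) K) : bcP K L (ProjGenLinGroup.mk g) =
    ProjGenLinGroup.mk (bcG K L g) := rfl

theorem bcG_apply (g : GL (Fin 2) K) (i j : Fin 2) :
    (bcG K L g : M2 L) i j = algebraMap K L ((g : M2 K) i j) := rfl

theorem coe_bcG (g : GL (Fin 2) K) :
    (bcG K L g : M2 L) = (algebraMap K L).mapMatrix (g : M2 K) := rfl

theorem Comp.dv_iff (H : Comp VK VL) {n : ℕ} {x : K} :
    VL.dv n (algebraMap K L x) ↔ VK.dv n x := by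
  constructor
  · rintro ⟨a, ha, h⟩
    have hne := pow_ne_zero n VK.ne
    refine ⟨(VK.π ^ n)⁻¹ * x, ?_, by field_simp⟩
    rw [← H.O, map_mul, map_inv₀, map_pow, H.π, h]
    have hne' := pow_ne_zero n VL.ne
    rwa [inv_mul_cancel_left₀ hne']
  · rintro ⟨a, ha, rfl⟩
    exact ⟨algebraMap K L a, (H.O a).2 ha, by rw [map_mul, map_pow, H.π]⟩

theorem Comp.cgm_iff (H : Comp VK VL) {n : ℕ} {g : M2 K} :
    VL.cgm n ((algebraMap K L).mapMatrix g) ↔ VK.cgm n g := by
  refine forall_congr' fun i => forall_congr' fun j => ?_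
  rw [← H.dv_iff]
  have : ((algebraMap K L).mapMatrix g - 1) i j = algebraMap K L ((g - 1) i j) := by
    rw [← map_one (algebraMap K L).mapMatrix, ← map_sub]
    rfl
  rw [this]

theorem Comp.mem_cg_iff (H : Comp VK VL) {n : ℕ} {g : GL (Fin 2) K} :
    bcG K L g ∈ VL.cg n ↔ g ∈ VK.cg n := by
  rw [mem_cg, mem_cg, ← map_inv, coe_bcG, coe_bcG, H.cgm_iff, H.cgm_iff]

/-- scalars over `L` between matrices over `K` -/
theorem bcP_injective : Function.Injective (bcP K L) := by
  rw [injective_iff_map_eq_one]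
  intro g hg
  induction g using ProjGenLinGroup.induction_on with
  | mk g =>
  rw [bcP_mk, ← map_one ProjGenLinGroup.mk, ProjGenLinGroup.mk_eq_mk_iff] at hg
  obtain ⟨u, hu⟩ := hg
  have hne : (u : L) ≠ 0 := u.ne_zero
  have h : ∀ i j, algebraMap K L ((g : M2 K) i j) * u = (1 : M2 L) i j := by
    intro i j
    have h1 := congrArg (fun x : GL (Fin 2) L => (x : M2 L) i j) hu
    simp only [Units.val_mul, Units.val_one, GeneralLinearGroup.coe_scalar,
      Matrix.scalar_apply, Matrix.mul_diagonal] at h1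
    exact h1
  have h01 : (g : M2 K) 0 1 = 0 := by
    have := h 0 1
    rw [Matrix.one_apply_ne (by decide)] at this
    exact (map_eq_zero _).1 ((mul_eq_zero.1 this).resolve_right hne)
  have h10 : (g : M2 K) 1 0 = 0 := by
    have := h 1 0
    rw [Matrix.one_apply_ne (by decide)] at this
    exact (map_eq_zero _).1 ((mul_eq_zero.1 this).resolve_right hne)
  have h00 : (g : M2 K) 0 0 = (g : M2 K) 1 1 := by
    have h1 := h 0 0
    have h2 := h 1 1
    rw [Matrix.one_apply_eq] at h1 h2
    exact (algebraMap K L).injective (mul_right_cancel₀ hne (h1.trans h2.symm))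
  have hg0 : (g : M2 K) 0 0 ≠ 0 := by
    intro h0
    have := h 0 0
    rw [h0, map_zero, zero_mul, Matrix.one_apply_eq] at this
    exact zero_ne_one this
  have h2 : g = GeneralLinearGroup.scalar (Fin 2) (Units.mk0 _ hg0) := by
    apply Units.ext
    rw [GeneralLinearGroup.coe_scalar, Matrix.scalar_apply]
    ext i j
    fin_cases i <;> fin_cases j
    · simp
    · simpa using h01
    · simpa using h10
    · simpa using h00.symm
  rw [h2, ProjGenLinGroup.mk_scalar]

/-- the congruence subgroups are compatible with base change -/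
theorem Comp.comap (H : Comp VK VL) {n : ℕ} (hn : n ≠ 0) :
    (VL.pcg n).comap (bcP K L) = VK.pcg n := by
  ext u
  rw [Subgroup.mem_comap]
  constructor
  · rintro hu
    induction u using ProjGenLinGroup.induction_on with
    | mk u =>
    rw [bcP_mk, mem_pcg] at hu
    obtain ⟨g, hg, hu⟩ := hu
    rw [eq_comm, ProjGenLinGroup.mk_eq_mk_iff] at hu
    obtain ⟨c, hc⟩ := hu
    have h : ∀ i j, algebraMap K L ((u : M2 K) i j) * c = (g : M2 L) i j := by
      intro i j
      have h1 := congrArg (fun x : GL (Fin 2) L => (x : M2 L) i j) hc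
      simp only [Units.val_mul, GeneralLinearGroup.coe_scalar, Matrix.scalar_apply,
        Matrix.mul_diagonal] at h1
      exact h1
    have hg00 := hg.1 0 0
    rw [Matrix.sub_apply, Matrix.one_apply_eq] at hg00
    obtain ⟨b, hb, hb'⟩ := H.jacL.inv hn hg00
    have hu0 : (u : M2 K) 0 0 ≠ 0 := by
      intro h0
      rw [← h 0 0, h0, map_zero, zero_mul, zero_mul] at hb'
      exact zero_ne_one hb'
    set k : GL (Fin 2) K := u * GeneralLinearGroup.scalar (Fin 2) (Units.mk0 _ hu0)⁻¹ with hk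
    have hkm : ProjGenLinGroup.mk k = ProjGenLinGroup.mk u := by
      rw [hk, map_mul, ProjGenLinGroup.mk_scalar, mul_one]
    rw [← hkm, mem_pcg]
    refine ⟨k, H.jacK.mem_cg hn ?_, rfl⟩
    rw [← H.cgm_iff]
    have e1 : ∀ i j, ((algebraMap K L).mapMatrix (k : M2 K)) i j = b * (g : M2 L) i j := by
      intro i j
      have h1 : (k : M2 K) i j = (u : M2 K) i j * ((u : M2 K) 0 0)⁻¹ := by
        rw [hk]
        simp only [Units.val_mul, GeneralLinearGroup.coe_scalar, Matrix.scalar_apply,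
          Matrix.mul_diagonal, Units.val_inv_eq_inv_val, Units.val_mk0]
      rw [RingHom.mapMatrix_apply, Matrix.map_apply, h1, map_mul, map_inv₀, ← h i j]
      have h2 : algebraMap K L ((u : M2 K) 0 0) * (c : L) * b = 1 := by rw [h 0 0]; exact hb'
      have h3 : algebraMap K L ((u : M2 K) 0 0) ≠ 0 := (map_ne_zero _).2 hu0
      have h4 : b = (c : L)⁻¹ * (algebraMap K L ((u : M2 K) 0 0))⁻¹ := by
        have hc0 : (c : L) ≠ 0 := c.ne_zero
        field_simp
        linear_combination h2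
      rw [h4]
      have hc0 : (c : L) ≠ 0 := c.ne_zero
      field_simp
    intro i j
    have e2 : ((algebraMap K L).mapMatrix (k : M2 K) - 1) i j =
        b * (((g : M2 L) - 1) i j - ((g : M2 L) - 1) 0 0 * (1 : M2 L) i j) := by
      rw [Matrix.sub_apply, e1, Matrix.sub_apply, Matrix.sub_apply, Matrix.one_apply_eq]
      linear_combination ((1 : M2 L) i j) * hb'
    rw [e2]
    refine dv.mul_left (dv.sub (hg.1 i j) (dv.mul_right (hg.1 0 0) ?_)) hb
    rw [Matrix.one_apply]
    split_ifs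
    · exact VL.O.one_mem
    · exact VL.O.zero_mem
  · rintro ⟨k, hk, rfl⟩
    exact ⟨bcG K L k, H.mem_cg_iff.2 hk, rfl⟩

end Lev

end Fermat.Agent.LT.Loc
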