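import Fermat.Agent.LT.Loc.SplitRing

/-!
# The convolution algebra of `K`-bi-invariant functions
-/

set_option autoImplicit false

universe u

namespace Fermat.Agent.LT.Loc

section

variable {H : Type u} [Group H] {K : Subgroup H}

@[ext] theorem BiInv.ext' {F F' : BiInv K} (h : ∀ x, F.f x = F'.f x) : F = F' := by
  cases F; cases F'
  congr 1
  exact funext h

open Classical in
/-- the unit -/
noncomputable def BiInv.unit (K : Subgroup H) : BiInv K where
  f x := if x ∈ K then 1 else 0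
  inv k hk k' hk' y := by
    have : k * y * k' ∈ K ↔ y ∈ K := by
      rw [K.mul_mem_cancel_right hk', K.mul_mem_cancel_left hk]
    rw [if_congr this rfl rfl]

open Classical in
theorem BiInv.unit_f (x : H) : (BiInv.unit K).f x = if x ∈ K then 1 else 0 := rfl

theorem BiInv.unit_of_mem {x : H} (h : x ∈ K) : (BiInv.unit K).f x = 1 := by
  rw [BiInv.unit_f, if_pos h]

theorem BiInv.unit_of_not_mem {x : H} (h : x ∉ K) : (BiInv.unit K).f x = 0 := by
  rw [BiInv.unit_f, if_neg h]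

theorem BiInv.mem_of_unit_ne {x : H} (h : (BiInv.unit K).f x ≠ 0) : x ∈ K := by
  by_contra hx
  exact h (BiInv.unit_of_not_mem hx)

theorem BiInv.unit_fin : (BiInv.unit K).Fin := by
  refine (Set.finite_singleton ((1 : H) : H ⧸ K)).subset ?_
  rintro _ ⟨a, rfl, ha⟩
  rw [Set.mem_singleton_iff, QuotientGroup.eq, mul_one]
  exact K.inv_mem (BiInv.mem_of_unit_ne ha)

theorem BiInv.unit_conv (F : BiInv K) : (BiInv.unit K).conv F = F := by
  ext x
  rw [BiInv.conv_f, finsum_eq_single _ ((1 : H) : H ⧸ K)]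
  · rw [BiInv.convAux_mk, BiInv.unit_of_mem K.one_mem, inv_one, one_mul, one_mul]
  · intro a ha
    induction a using QuotientGroup.induction_on with
    | H a =>
    rw [BiInv.convAux_mk, BiInv.unit_of_not_mem, zero_mul]
    intro h
    apply ha
    rw [QuotientGroup.eq, mul_one]
    exact K.inv_mem h

theorem BiInv.conv_unit (F : BiInv K) : F.conv (BiInv.unit K) = F := by
  ext x
  rw [BiInv.conv_f, finsum_eq_single _ (x : H ⧸ K)]
  · rw [BiInv.convAux_mk, inv_mul_cancel, BiInv.unit_of_mem K.one_mem, mul_one]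
  · intro a ha
    induction a using QuotientGroup.induction_on with
    | H a =>
    rw [BiInv.convAux_mk, BiInv.unit_of_not_mem, mul_zero]
    intro h
    apply ha
    rw [QuotientGroup.eq]
    exact h

/-- the support modulo `K` -/
def BiInv.supp (F : BiInv K) : Set (H ⧸ K) := {y : H ⧸ K | ∃ a : H, (a : H ⧸ K) = y ∧ F.f a ≠ 0}

theorem BiInv.mk_mem_supp (F : BiInv K) {a : H} : (a : H ⧸ K) ∈ F.supp ↔ F.f a ≠ 0 := by
  refine ⟨?_, fun h => ⟨a, rfl, h⟩⟩
  rintro ⟨b, hb, h⟩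
  have h1 : a = b * (b⁻¹ * a) := by group
  rw [h1, F.mul_right _ (QuotientGroup.eq.1 hb)]
  exact h

theorem BiInv.support_convAux (F F' : BiInv K) (x : H) :
    (F.convAux F' x).support ⊆ F.supp := by
  intro a ha
  induction a using QuotientGroup.induction_on with
  | H a =>
  rw [Function.mem_support, BiInv.convAux_mk] at ha
  exact F.mk_mem_supp.2 (left_ne_zero_of_mul ha)

theorem BiInv.Fin.conv {F F' : BiInv K} (h : F.Fin) (h' : F'.Fin) : (F.conv F').Fin := by
  have h1 : ∀ a : H ⧸ K, {y : H ⧸ K | ∃ b c : H, (b : H ⧸ K) = a ∧ (c : H ⧸ K) = y ∧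
      F'.f (b⁻¹ * c) ≠ 0}.Finite := by
    intro a
    induction a using QuotientGroup.induction_on with
    | H a =>
    refine (h'.image fun y => a • y).subset ?_
    rintro _ ⟨b, c, hb, rfl, hc⟩
    refine ⟨((a⁻¹ * c : H) : H ⧸ K), ⟨_, rfl, ?_⟩, ?_⟩
    · have h2 : a⁻¹ * c = (b⁻¹ * a)⁻¹ * (b⁻¹ * c) := by group
      rw [h2, F'.mul_left _ (K.inv_mem (QuotientGroup.eq.1 hb))]
      exact hc
    · change ((a * (a⁻¹ * c) : H) : H ⧸ K) = _
      rw [mul_inv_cancel_left]
  refine (Set.Finite.biUnion h fun a _ => h1 a).subset ?_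
  rintro _ ⟨x, rfl, hx⟩
  rw [BiInv.conv_f] at hx
  obtain ⟨a, ha⟩ : ∃ a, F.convAux F' x a ≠ 0 := by
    by_contra h0
    push Not at h0
    exact hx (finsum_eq_zero_of_forall_eq_zero h0)
  have ha' := F.support_convAux F' x ha
  rw [Set.mem_iUnion₂]
  refine ⟨a, ha', ?_⟩
  induction a using QuotientGroup.induction_on with
  | H a =>
  rw [BiInv.convAux_mk] at ha
  exact ⟨a, x, rfl, rfl, right_ne_zero_of_mul ha⟩

/-- associativity -/
theorem BiInv.conv_assoc {F F' : BiInv K} (h : F.Fin) (h' : F'.Fin) (F'' : BiInv K) :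
    (F.conv F').conv F'' = F.conv (F'.conv F'') := by
  classical
  ext x
  rw [BiInv.conv_f, BiInv.conv_f]
  -- both sides are sums over pairs
  have hs : ((F.conv F').supp).Finite := h.conv h'
  have e1 : ∀ b : H, ((F.conv F').convAux F'' x (b : H ⧸ K)) =
      ∑ᶠ a : H ⧸ K, F.convAux F' b a * F''.f (b⁻¹ * x) := by
    intro b
    rw [BiInv.convAux_mk, BiInv.conv_f, finsum_mul']
    exact h.subset (F.support_convAux F' b)
  -- the function of two variables
  let Φ : H ⧸ K → H ⧸ K → ℂ := fun a b => Quotient.liftOn' b (fun b =>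
    F.convAux F' b a * F''.f (b⁻¹ * x)) (by
      intro b c hbc
      rw [QuotientGroup.leftRel_apply] at hbc
      have h1 : c⁻¹ * x = (b⁻¹ * c)⁻¹ * (b⁻¹ * x) := by group
      rw [h1, F''.mul_left _ (K.inv_mem hbc)]
      congr 1
      induction a using QuotientGroup.induction_on with
      | H a =>
      rw [BiInv.convAux_mk, BiInv.convAux_mk]
      have h2 : a⁻¹ * c = (a⁻¹ * b) * (b⁻¹ * c) := by group
      rw [h2, F'.mul_right _ hbc])
  have hΦ : ∀ a b : H, Φ (a : H ⧸ K) (b : H ⧸ K) = F.f a * F'.f (a⁻¹ * b) * F''.f (b⁻¹ * x) :=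
    fun a b => rfl
  have e2 : ∀ b : H ⧸ K, (F.conv F').convAux F'' x b = ∑ᶠ a : H ⧸ K, Φ a b := by
    intro b
    induction b using QuotientGroup.induction_on with
    | H b => exact e1 b
  have e3 : ∀ a : H ⧸ K, F.convAux (F'.conv F'') x a = ∑ᶠ b : H ⧸ K, Φ a b := by
    intro a
    induction a using QuotientGroup.induction_on with
    | H a =>
    rw [BiInv.convAux_mk, BiInv.conv_f, mul_finsum']
    · rw [← finsum_comp_equiv (MulAction.toPerm a⁻¹ : Equiv.Perm (H ⧸ K))]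
      refine finsum_congr fun b => ?_
      induction b using QuotientGroup.induction_on with
      | H b =>
      change F.f a * F'.convAux F'' (a⁻¹ * x) ((a⁻¹ * b : H) : H ⧸ K) = _
      rw [BiInv.convAux_mk, hΦ, ← mul_assoc]
      congr 2
      group
    · exact h'.subset (F'.support_convAux F'' _)
  rw [finsum_congr e2, finsum_congr e3]
  -- interchange
  have hfin : (Function.support (fun p : (H ⧸ K) × (H ⧸ K) => Φ p.1 p.2)).Finite := by
    have h1 : ∀ a : H ⧸ K, {b : H ⧸ K | Φ a b ≠ 0}.Finite := by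
      intro a
      induction a using QuotientGroup.induction_on with
      | H a =>
      refine (h'.image fun y => a • y).subset ?_
      intro b hb
      induction b using QuotientGroup.induction_on with
      | H b =>
      rw [Set.mem_ofPred_eq, hΦ] at hb
      refine ⟨((a⁻¹ * b : H) : H ⧸ K), ⟨_, rfl, right_ne_zero_of_mul (left_ne_zero_of_mul hb)⟩, ?_⟩
      change ((a * (a⁻¹ * b) : H) : H ⧸ K) = _
      rw [mul_inv_cancel_left]
    refine (Set.Finite.biUnion h fun a _ => ((h1 a).image fun b => (a, b))).subset ?_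
    rintro ⟨a, b⟩ hab
    rw [Function.mem_support] at hab
    rw [Set.mem_iUnion₂]
    refine ⟨a, ?_, b, hab, rfl⟩
    induction a using QuotientGroup.induction_on with
    | H a =>
    induction b using QuotientGroup.induction_on with
    | H b =>
    have hab' : Φ (a : H ⧸ K) (b : H ⧸ K) ≠ 0 := hab
    rw [hΦ] at hab'
    exact F.mk_mem_supp.2 (left_ne_zero_of_mul (left_ne_zero_of_mul hab'))
  have hfin' : (Function.support (fun p : (H ⧸ K) × (H ⧸ K) => Φ p.2 p.1)).Finite := by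
    refine (hfin.image Prod.swap).subset ?_
    rintro ⟨a, b⟩ hab
    exact ⟨(b, a), hab, rfl⟩
  rw [← finsum_curry (fun p : (H ⧸ K) × (H ⧸ K) => Φ p.1 p.2) hfin,
    ← finsum_curry (fun p : (H ⧸ K) × (H ⧸ K) => Φ p.2 p.1) hfin',
    ← finsum_comp_equiv (Equiv.prodComm (H ⧸ K) (H ⧸ K))]
  rfl

end

section Tensor

variable {G H : Type u} [Group G] [Group H] {σ : G →* G} {ι : H →* G} {π : G →* H}
  {K : Subgroup G} {K' : Subgroup H}

theorem tens3_fin (S : Split3 σ ι π) (hK : IsProd3 σ π K K') {F₁ F₂ F₃ : BiInv K'}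
    (h₁ : F₁.Fin) (h₂ : F₂.Fin) (h₃ : F₃.Fin) : (tens3 hK F₁ F₂ F₃).Fin := by
  refine Set.Finite.of_finite_image (f := fun y : G ⧸ K => (proj3 hK y, proj3' hK y, proj3'' hK y))
    ((h₁.prod (h₂.prod h₃)).subset ?_) (proj3_bijective S hK).1.injOn
  rintro _ ⟨_, ⟨g, rfl, hg⟩, rfl⟩
  rw [tens3_f] at hg
  exact ⟨⟨_, rfl, left_ne_zero_of_mul (left_ne_zero_of_mul hg)⟩,
    ⟨_, rfl, right_ne_zero_of_mul (left_ne_zero_of_mul hg)⟩, ⟨_, rfl, right_ne_zero_of_mul hg⟩⟩

theorem tens3_unit (hK : IsProd3 σ π K K') :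
    tens3 hK (BiInv.unit K') (BiInv.unit K') (BiInv.unit K') = BiInv.unit K := by
  ext g
  rw [tens3_f]
  by_cases h : g ∈ K
  · obtain ⟨h1, h2, h3⟩ := (hK g).1 h
    rw [BiInv.unit_of_mem h, BiInv.unit_of_mem h1, BiInv.unit_of_mem h2, BiInv.unit_of_mem h3]
    norm_num
  · rw [BiInv.unit_of_not_mem h]
    by_contra hne
    exact h ((hK g).2 ⟨BiInv.mem_of_unit_ne (left_ne_zero_of_mul (left_ne_zero_of_mul hne)),
      BiInv.mem_of_unit_ne (right_ne_zero_of_mul (left_ne_zero_of_mul hne)),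
      BiInv.mem_of_unit_ne (right_ne_zero_of_mul hne)⟩)

/-- convolution of tensor products -/
theorem tens3_conv (S : Split3 σ ι π) (hK : IsProd3 σ π K K') {F₁ F₂ F₃ : BiInv K'}
    (h₁ : F₁.Fin) (h₂ : F₂.Fin) (h₃ : F₃.Fin) (F₁' F₂' F₃' : BiInv K') :
    (tens3 hK F₁ F₂ F₃).conv (tens3 hK F₁' F₂' F₃') =
      tens3 hK (F₁.conv F₁') (F₂.conv F₂') (F₃.conv F₃') := by
  classical
  ext x
  rw [BiInv.conv_f, tens3_f, BiInv.conv_f, BiInv.conv_f, BiInv.conv_f]
  let e : G ⧸ K ≃ (H ⧸ K') × (H ⧸ K') × (H ⧸ K') := Equiv.ofBijective _ (proj3_bijective S hK)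
  let Ψ : (H ⧸ K') × (H ⧸ K') × (H ⧸ K') → ℂ := fun p =>
    F₁.convAux F₁' (π x) p.1 * (F₂.convAux F₂' (π (σ x)) p.2.1 *
      F₃.convAux F₃' (π (σ (σ x))) p.2.2)
  have h1 : ∀ a : G ⧸ K, (tens3 hK F₁ F₂ F₃).convAux (tens3 hK F₁' F₂' F₃') x a = Ψ (e a) := by
    intro a
    induction a using QuotientGroup.induction_on with
    | H a =>
    change _ = F₁.convAux F₁' (π x) ((π a : H) : H ⧸ K') *
      (F₂.convAux F₂' (π (σ x)) ((π (σ a) : H) : H ⧸ K') *
      F₃.convAux F₃' (π (σ (σ x))) ((π (σ (σ a)) : H) : H ⧸ K'))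
    simp only [BiInv.convAux_mk, tens3_f, map_mul, map_inv]
    ring
  rw [finsum_congr h1, finsum_comp_equiv e]
  have hf : (Function.support Ψ).Finite := by
    refine ((h₁.prod (h₂.prod h₃))).subset ?_
    rintro ⟨a, b, c⟩ h
    have h' : F₁.convAux F₁' (π x) a * (F₂.convAux F₂' (π (σ x)) b *
      F₃.convAux F₃' (π (σ (σ x))) c) ≠ 0 := h
    exact ⟨F₁.support_convAux F₁' _ (left_ne_zero_of_mul h'),
      F₂.support_convAux F₂' _ (left_ne_zero_of_mul (right_ne_zero_of_mul h')),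
      F₃.support_convAux F₃' _ (right_ne_zero_of_mul (right_ne_zero_of_mul h'))⟩
  rw [finsum_curry Ψ hf, mul_assoc, finsum_mul]
  refine finsum_congr fun a => ?_
  rw [finsum_curry]
  · calc ∑ᶠ b, ∑ᶠ c, Ψ (a, b, c) = ∑ᶠ b, F₁.convAux F₁' (π x) a *
          (F₂.convAux F₂' (π (σ x)) b * ∑ᶠ c, F₃.convAux F₃' (π (σ (σ x))) c) :=
        finsum_congr fun b => by rw [mul_finsum, mul_finsum]
      _ = F₁.convAux F₁' (π x) a * ∑ᶠ b, (F₂.convAux F₂' (π (σ x)) b *
          ∑ᶠ c, F₃.convAux F₃' (π (σ (σ x))) c) := (mul_finsum _ _).symm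
      _ = _ := by rw [finsum_mul]
  · refine ((h₂.prod h₃)).subset ?_
    rintro ⟨b, c⟩ h
    have h' : F₁.convAux F₁' (π x) a * (F₂.convAux F₂' (π (σ x)) b *
      F₃.convAux F₃' (π (σ (σ x))) c) ≠ 0 := h
    exact ⟨F₂.support_convAux F₂' _ (left_ne_zero_of_mul (right_ne_zero_of_mul h')),
      F₃.support_convAux F₃' _ (right_ne_zero_of_mul (right_ne_zero_of_mul h'))⟩

end Tensor

end Fermat.Agent.LT.Loc
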