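import Mathlib

/-!
# Local correspondences
-/

set_option autoImplicit false

universe u

open scoped Pointwise

namespace Fermat.Agent.LT.Loc

/-- An equivariant correspondence between two weighted `T`-sets. -/
structure LocalCorr (T : Type*) [Group T] (Y Y' : Type*) [MulAction T Y] [MulAction T Y']
    (φ : Y → ℂ) (φ' : Y' → ℂ) where
  /-- the correspondence -/
  Z : Type u
  [act : MulAction T Z]
  p : Z → Y
  q : Z → Y'
  p_smul : ∀ (t : T) (z : Z), p (t • z) = t • p z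
  q_smul : ∀ (t : T) (z : Z), q (t • z) = t • q z
  w : Z → ℂ
  w_smul : ∀ (t : T) (z : Z), w (t • z) = w z
  fin_p : ∀ y, {z | p z = y}.Finite
  fin_q : ∀ y, {z | q z = y}.Finite
  sum_p : ∀ y, ∑ᶠ z ∈ {z | p z = y}, w z = φ y
  sum_q : ∀ y, ∑ᶠ z ∈ {z | q z = y}, w z = φ' y

attribute [instance] LocalCorr.act

/-- a function on `G`, invariant under `K` on both sides -/
structure BiInv {G : Type*} [Group G] (K : Subgroup G) where
  f : G → ℂ
  inv : ∀ k ∈ K, ∀ k' ∈ K, ∀ y, f (k * y * k') = f y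

/-- the function `y ↦ f (y⁻¹ X σ(y))` on `G ⧸ K` -/
def BiInv.tw {G : Type*} [Group G] {K : Subgroup G} (F : BiInv K) (σ : G →* G)
    (hσ : ∀ k ∈ K, σ k ∈ K) (X : G) : G ⧸ K → ℂ := fun y =>
  Quotient.liftOn' y (fun y => F.f (y⁻¹ * X * σ y)) (by
    intro a b hab
    rw [QuotientGroup.leftRel_apply] at hab
    have h1 := F.inv (a⁻¹ * b) hab (σ (a⁻¹ * b)⁻¹) (by
      rw [map_inv]; exact K.inv_mem (hσ _ hab)) (b⁻¹ * X * σ b)
    change F.f (a⁻¹ * X * σ a) = F.f (b⁻¹ * X * σ b)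
    rw [← h1]
    congr 1
    rw [map_inv, map_mul, map_inv]
    group)

theorem BiInv.tw_mk {G : Type*} [Group G] {K : Subgroup G} (F : BiInv K) (σ : G →* G)
    (hσ : ∀ k ∈ K, σ k ∈ K) (X y : G) : F.tw σ hσ X (y : G ⧸ K) = F.f (y⁻¹ * X * σ y) := rfl

section Transfer

variable {G H : Type*} [Group G] [Group H] (σ : G →* G) (ι : H →* G)
  {C K : Subgroup G} (F : BiInv K)

/-- Data for the transfer near the identity. -/
structure NearData (σ : G →* G) (ι : H →* G) (C K : Subgroup G) (F : BiInv K) : Prop where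
  /-- `ι` identifies `H` with the fixed points of `σ` -/
  inj : Function.Injective ι
  fixed : ∀ g, σ g = g ↔ ∃ h, ι h = g
  sC : ∀ c ∈ C, σ c ∈ C
  sK : ∀ c ∈ K, σ c ∈ K
  le : K ≤ C
  normal : ∀ c ∈ C, ∀ k ∈ K, c⁻¹ * k * c ∈ K
  fin : Finite (C ⧸ K.subgroupOf C)
  /-- the support of `f` -/
  supp : ∀ X, F.f X ≠ 0 → ∃ c ∈ C, ∃ u : H, ι u ∈ C ∧ X = c⁻¹ * ι u * σ c
  /-- uniqueness of twisted conjugacy -/
  uniq : ∀ (h x u : H) (g : G), ι (h⁻¹ * x * h) ∈ C → ι u ∈ C → g⁻¹ * ι x * σ g = ι u → σ g = g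
  /-- uniqueness of cube roots -/
  cube : ∀ (h x u : H), ι (h⁻¹ * x * h) ∈ C → ι u ∈ C → x ^ 3 = u ^ 3 → x = u

variable {σ ι F}

/-- the embedding of the quotients -/
def qmap (C K : Subgroup G) (c : C ⧸ K.subgroupOf C) : G ⧸ K :=
  Quotient.liftOn' c (fun c => ((c : G) : G ⧸ K)) (by
    intro a b hab
    rw [QuotientGroup.leftRel_apply] at hab
    exact QuotientGroup.eq.2 hab)

theorem qmap_mk (C K : Subgroup G) (c : C) : qmap C K (c : C ⧸ K.subgroupOf C) = ((c : G) : G ⧸ K) :=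
  rfl

/-- the average -/
noncomputable def avg (F : BiInv K) (σ : G →* G) (hσ : ∀ k ∈ K, σ k ∈ K) (C : Subgroup G)
    (X : G) : ℂ := ∑ᶠ c : C ⧸ K.subgroupOf C, F.tw σ hσ X (qmap C K c)

open Classical in
/-- the transfer -/
noncomputable def trf (F : BiInv K) (σ : G →* G) (ι : H →* G) (hσ : ∀ k ∈ K, σ k ∈ K)
    (C : Subgroup G) (n : ℂ) (g : H) : ℂ :=
  if h : ∃ u : H, ι u ∈ C ∧ u ^ 3 = g then n⁻¹ * avg F σ hσ C (ι h.choose) else 0


theorem trf_cube (D : NearData σ ι C K F) (n : ℂ) {u : H} (hu : ι u ∈ C) :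
    trf F σ ι D.sK C n (u ^ 3) = n⁻¹ * avg F σ D.sK C (ι u) := by
  have h : ∃ v : H, ι v ∈ C ∧ v ^ 3 = u ^ 3 := ⟨u, hu, rfl⟩
  rw [trf, dif_pos h]
  obtain ⟨h1, h2⟩ := h.choose_spec
  rw [D.cube 1 h.choose u (by simpa using h1) hu h2]

theorem trf_eq_zero (D : NearData σ ι C K F) (n : ℂ) {g : H}
    (h : ¬ ∃ u : H, ι u ∈ C ∧ u ^ 3 = g) : trf F σ ι D.sK C n g = 0 := by
  rw [trf, dif_neg h]

theorem avg_eq_zero (D : NearData σ ι C K F) {u : H} (hu : ι u ∉ C) :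
    avg F σ D.sK C (ι u) = 0 := by
  rw [avg]
  apply finsum_eq_zero_of_forall_eq_zero
  intro c
  induction c using QuotientGroup.induction_on with
  | H c =>
    rw [qmap_mk, BiInv.tw_mk]
    by_contra hne
    obtain ⟨c', hc', v, hv, h⟩ := D.supp _ hne
    apply hu
    have h1 : ι u = c * (c'⁻¹ * ι v * σ c') * (σ c)⁻¹ := by rw [← h]; group
    rw [h1]
    exact C.mul_mem (C.mul_mem c.2 (C.mul_mem (C.mul_mem (C.inv_mem hc') hv) (D.sC _ hc')))
      (C.inv_mem (D.sC _ c.2))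

theorem avg_mul_right (D : NearData σ ι C K F) {X k : G} (hk : k ∈ K) :
    avg F σ D.sK C (X * k) = avg F σ D.sK C X := by
  rw [avg, avg]
  congr 1
  ext c
  induction c using QuotientGroup.induction_on with
  | H c =>
    rw [qmap_mk, BiInv.tw_mk, BiInv.tw_mk]
    have h1 : (c : G)⁻¹ * (X * k) * σ c = 1 * ((c : G)⁻¹ * X * σ c) * ((σ c)⁻¹ * k * σ c) := by
      group
    rw [h1, F.inv 1 K.one_mem _ (D.normal _ (D.sC _ c.2) _ hk)]

/-- the level of the transfer -/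
structure Level (ι : H →* G) (C K : Subgroup G) (K' : Subgroup H) : Prop where
  le : ∀ k ∈ K', ι k ∈ K
  normal : ∀ u : H, ι u ∈ C → ∀ k ∈ K', u⁻¹ * k * u ∈ K'
  cube : ∀ u : H, ι u ∈ C → ∀ k ∈ K', ∃ k₁ : H, ι k₁ ∈ K ∧ (u * k₁) ^ 3 = u ^ 3 * k
  fin : Finite ((C.comap ι) ⧸ K'.subgroupOf (C.comap ι))

variable {K' : Subgroup H}

theorem trf_mul_right (D : NearData σ ι C K F) (L : Level ι C K K') (n : ℂ) {g k : H}
    (hk : k ∈ K') : trf F σ ι D.sK C n (g * k) = trf F σ ι D.sK C n g := by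
  have key : ∀ g k : H, k ∈ K' → (∃ u : H, ι u ∈ C ∧ u ^ 3 = g) →
      trf F σ ι D.sK C n (g * k) = trf F σ ι D.sK C n g := by
    rintro _ k hk ⟨u, hu, rfl⟩
    obtain ⟨k₁, hk₁, h⟩ := L.cube u hu k hk
    rw [← h, trf_cube D n hu, trf_cube D n (u := u * k₁) (by
      rw [map_mul]; exact C.mul_mem hu (D.le hk₁)), map_mul, avg_mul_right D hk₁]
  by_cases h : ∃ u : H, ι u ∈ C ∧ u ^ 3 = g
  · exact key g k hk h
  · by_cases h' : ∃ u : H, ι u ∈ C ∧ u ^ 3 = g * k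
    · have := key (g * k) k⁻¹ (K'.inv_mem hk) h'
      rw [mul_inv_cancel_right] at this
      exact this.symm
    · rw [trf_eq_zero D n h, trf_eq_zero D n h']

theorem trf_mul_left (D : NearData σ ι C K F) (L : Level ι C K K') (n : ℂ) {g k : H}
    (hk : k ∈ K') : trf F σ ι D.sK C n (k * g) = trf F σ ι D.sK C n g := by
  have key : ∀ g k : H, k ∈ K' → (∃ u : H, ι u ∈ C ∧ u ^ 3 = g) →
      trf F σ ι D.sK C n (k * g) = trf F σ ι D.sK C n g := by
    rintro _ k hk ⟨u, hu, rfl⟩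
    have h1 : k * u ^ 3 = u ^ 3 * (u⁻¹ * (u⁻¹ * (u⁻¹ * k * u) * u) * u) := by
      simp only [pow_succ, pow_zero]; group
    rw [h1]
    exact trf_mul_right D L n (L.normal u hu _ (L.normal u hu _ (L.normal u hu _ hk)))
  by_cases h : ∃ u : H, ι u ∈ C ∧ u ^ 3 = g
  · exact key g k hk h
  · by_cases h' : ∃ u : H, ι u ∈ C ∧ u ^ 3 = k * g
    · have := key (k * g) k⁻¹ (K'.inv_mem hk) h'
      rw [inv_mul_cancel_left] at this
      exact this.symm
    · rw [trf_eq_zero D n h, trf_eq_zero D n h']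

/-- the transfer as a bi-invariant function -/
noncomputable def trfBi (D : NearData σ ι C K F) (L : Level ι C K K') (n : ℂ) : BiInv K' where
  f := trf F σ ι D.sK C n
  inv k hk k' hk' y := by rw [trf_mul_right D L n hk', trf_mul_left D L n hk]

theorem trfBi_f (D : NearData σ ι C K F) (L : Level ι C K K') (n : ℂ) :
    (trfBi D L n).f = trf F σ ι D.sK C n := rfl

/-- the local index -/
noncomputable def idx (ι : H →* G) (C : Subgroup G) (K' : Subgroup H) : ℂ :=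
  Nat.card ((C.comap ι) ⧸ K'.subgroupOf (C.comap ι))

theorem idx_ne_zero (L : Level ι C K K') : idx ι C K' ≠ 0 := by
  have := L.fin
  rw [idx, Nat.cast_ne_zero]
  exact Nat.card_pos.ne'

/-- the first projection of the correspondence -/
def pmap (D : NearData σ ι C K F) (L : Level ι C K K') (s : G)
    (z : (H ⧸ K') × (C ⧸ K.subgroupOf C)) : G ⧸ K :=
  Quotient.liftOn₂' z.1 z.2 (fun h c => ((s * ι h * c : G) : G ⧸ K)) (by
    intro h₁ c₁ h₂ c₂ hh hc
    rw [QuotientGroup.leftRel_apply] at hh hc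
    rw [QuotientGroup.eq]
    have h1 : (s * ι h₁ * (c₁ : G))⁻¹ * (s * ι h₂ * c₂) =
        ((c₁ : G)⁻¹ * ι (h₁⁻¹ * h₂) * c₁) * ((c₁ : G)⁻¹ * c₂) := by
      rw [map_mul, map_inv]; group
    rw [h1]
    exact K.mul_mem (D.normal _ c₁.2 _ (L.le _ hh)) hc)

theorem pmap_mk (D : NearData σ ι C K F) (L : Level ι C K K') (s : G) (h : H) (c : C) :
    pmap D L s ((h : H ⧸ K'), (c : C ⧸ K.subgroupOf C)) = ((s * ι h * c : G) : G ⧸ K) := rfl

/-- the fibre of the first projection -/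
def fibmap (D : NearData σ ι C K F) (L : Level ι C K K') (h : H) (c : C)
    (u : (C.comap ι) ⧸ K'.subgroupOf (C.comap ι)) : (H ⧸ K') × (C ⧸ K.subgroupOf C) :=
  Quotient.liftOn' u (fun u => (((h * u : H) : H ⧸ K'),
    ((⟨(ι u)⁻¹ * c, C.mul_mem (C.inv_mem u.2) c.2⟩ : C) : C ⧸ K.subgroupOf C))) (by
    intro a b hab
    rw [QuotientGroup.leftRel_apply] at hab
    refine Prod.ext ?_ ?_
    · refine QuotientGroup.eq.2 ?_
      have h1 : (h * (a : H))⁻¹ * (h * b) = (a : H)⁻¹ * b := by group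
      rw [h1]
      exact hab
    · refine QuotientGroup.eq.2 ?_
      rw [Subgroup.mem_subgroupOf]
      have h1 : ι ((b : H)⁻¹ * a)⁻¹ ∈ K := by
        have h2 : ((b : H)⁻¹ * a)⁻¹ = (a : H)⁻¹ * b := by group
        rw [h2]
        exact L.le _ hab
      have h3 : ((((⟨(ι a)⁻¹ * c, C.mul_mem (C.inv_mem a.2) c.2⟩ : C))⁻¹ *
          (⟨(ι b)⁻¹ * c, C.mul_mem (C.inv_mem b.2) c.2⟩ : C) : C) : G) =
          (c : G)⁻¹ * ((ι b * (ι (((b : H)⁻¹ * a)⁻¹))⁻¹ * (ι b)⁻¹)) * c := by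
        simp only [Subgroup.coe_mul, Subgroup.coe_inv, map_inv, map_mul]
        group
      rw [h3]
      refine D.normal _ c.2 _ ?_
      have h4 := D.normal (ι b)⁻¹ (C.inv_mem b.2) _ (K.inv_mem h1)
      rwa [inv_inv] at h4)

theorem fibmap_mk (D : NearData σ ι C K F) (L : Level ι C K K') (h : H) (c : C) (u : C.comap ι) :
    fibmap D L h c (u : (C.comap ι) ⧸ K'.subgroupOf (C.comap ι)) = (((h * u : H) : H ⧸ K'),
      ((⟨(ι u)⁻¹ * c, C.mul_mem (C.inv_mem u.2) c.2⟩ : C) : C ⧸ K.subgroupOf C)) := rfl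

theorem fibmap_injective (D : NearData σ ι C K F) (L : Level ι C K K') (h : H) (c : C) :
    Function.Injective (fibmap D L h c) := by
  intro a b hab
  induction a using QuotientGroup.induction_on with
  | H a =>
  induction b using QuotientGroup.induction_on with
  | H b =>
  rw [fibmap_mk, fibmap_mk] at hab
  have h1 := QuotientGroup.eq.1 (congrArg Prod.fst hab)
  refine QuotientGroup.eq.2 ?_
  rw [Subgroup.mem_subgroupOf]
  have h2 : (h * (a : H))⁻¹ * (h * b) = (a : H)⁻¹ * b := by group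
  rw [h2] at h1
  exact h1

theorem range_fibmap (D : NearData σ ι C K F) (L : Level ι C K K') (s : G) (h : H) (c : C) :
    Set.range (fibmap D L h c) = {z | pmap D L s z = ((s * ι h * c : G) : G ⧸ K)} := by
  ext z
  constructor
  · rintro ⟨u, rfl⟩
    induction u using QuotientGroup.induction_on with
    | H u =>
    rw [fibmap_mk]
    refine congrArg (fun g : G => (g : G ⧸ K)) ?_
    change s * ι (h * u) * ((ι u)⁻¹ * c) = s * ι h * c
    rw [map_mul]
    group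
  · intro hz
    obtain ⟨z1, z2⟩ := z
    induction z1 using QuotientGroup.induction_on with
    | H h₁ =>
    induction z2 using QuotientGroup.induction_on with
    | H c₁ =>
    rw [Set.mem_ofPred_eq, pmap_mk, QuotientGroup.eq] at hz
    have h1 : (s * ι h₁ * (c₁ : G))⁻¹ * (s * ι h * c) = (c₁ : G)⁻¹ * (ι (h⁻¹ * h₁))⁻¹ * c := by
      rw [map_mul, map_inv]; group
    rw [h1] at hz
    have hu : ι (h⁻¹ * h₁) ∈ C := by
      have h2 : ι (h⁻¹ * h₁) = c * ((c₁ : G)⁻¹ * (ι (h⁻¹ * h₁))⁻¹ * c)⁻¹ * (c₁ : G)⁻¹ := by group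
      rw [h2]
      exact C.mul_mem (C.mul_mem c.2 (C.inv_mem (D.le hz))) (C.inv_mem c₁.2)
    refine ⟨((⟨h⁻¹ * h₁, hu⟩ : C.comap ι) : (C.comap ι) ⧸ K'.subgroupOf (C.comap ι)), ?_⟩
    rw [fibmap_mk]
    refine Prod.ext ?_ ?_
    · change ((h * (h⁻¹ * h₁) : H) : H ⧸ K') = (h₁ : H ⧸ K')
      rw [mul_inv_cancel_left]
    · refine QuotientGroup.eq.2 ?_
      rw [Subgroup.mem_subgroupOf]
      have h3 : (((⟨(ι (h⁻¹ * h₁))⁻¹ * c, C.mul_mem (C.inv_mem hu) c.2⟩ : C)⁻¹ * c₁ : C) : G) =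
          ((c₁ : G)⁻¹ * (ι (h⁻¹ * h₁))⁻¹ * c)⁻¹ := by
        simp only [Subgroup.coe_mul, Subgroup.coe_inv]
        group
      rw [h3]
      exact K.inv_mem hz

end Transfer

end Fermat.Agent.LT.Loc
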