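import Fermat.Agent.LT.Loc.ConvAlg
import Fermat.Agent.LT.Loc.Match

/-!
# The matching predicate at the split places
-/

set_option autoImplicit false
universe u t
namespace Fermat.Agent.LT.Loc
open Matrix Fermat.Agent.LT.Glob
open scoped MatrixGroups

theorem disc_aux {R : Type*} [CommRing R] {a b c d x y z w x' y' z' w' : R}
    (hu : IsUnit ((a + d) ^ 2 - 4 * (a * d - b * c)))
    (h0 : y * c = b * z) (h1 : b * (x - w) = (a - d) * y) (h2 : (a - d) * z = c * (x - w))
    (h0' : y' * c = b * z') (h1' : b * (x' - w') = (a - d) * y')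
    (h2' : (a - d) * z' = c * (x' - w')) :
    y * z' = y' * z ∧ y * (x' - w') = y' * (x - w) ∧ z * (x' - w') = z' * (x - w) := by
  obtain ⟨u, hu⟩ := hu
  have k1 : y * z' = y' * z := by
    have : (u : R) * (y * z' - y' * z) = 0 := by
      rw [hu]
      linear_combination (-((a - d) * z')) * h1 + (b * (x - w)) * h2' + ((a - d) * z) * h1' -
        (b * (x' - w')) * h2 - 4 * c * y * h0' + 4 * c * y' * h0
    exact sub_eq_zero.1 ((Units.mul_right_eq_zero u).1 this)
  refine ⟨k1, ?_, ?_⟩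
  · have : (u : R) * (y * (x' - w') - y' * (x - w)) = 0 := by
      rw [hu]
      linear_combination (-((a - d) * (x' - w'))) * h1 + ((a - d) * (x - w)) * h1' +
        4 * b * (a - d) * k1 - 4 * b * y * h2' + 4 * b * y' * h2
    exact sub_eq_zero.1 ((Units.mul_right_eq_zero u).1 this)
  · have : (u : R) * (z * (x' - w') - z' * (x - w)) = 0 := by
      rw [hu]
      linear_combination ((a - d) * (x' - w')) * h2 - ((a - d) * (x - w)) * h2' -
        4 * c * (a - d) * k1 + 4 * c * z * h1' - 4 * c * z' * h1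
    exact sub_eq_zero.1 ((Units.mul_right_eq_zero u).1 this)

/-- two matrices commuting with a regular matrix commute -/
theorem mul_comm_of_disc {R : Type*} [CommRing R] {C A B : Matrix (Fin 2) (Fin 2) R}
    (hC : IsUnit (C.trace ^ 2 - 4 * C.det)) (hA : A * C = C * A) (hB : B * C = C * B) :
    A * B = B * A := by
  rw [Matrix.trace_fin_two, Matrix.det_fin_two] at hC
  have e : ∀ (X Y : Matrix (Fin 2) (Fin 2) R) (i j : Fin 2), (X * Y) i j =
      X i 0 * Y 0 j + X i 1 * Y 1 j := fun X Y i j => by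
    rw [Matrix.mul_apply, Fin.sum_univ_two]
  have a00 := congrFun (congrFun hA 0) 0
  have a01 := congrFun (congrFun hA 0) 1
  have a10 := congrFun (congrFun hA 1) 0
  have b00 := congrFun (congrFun hB 0) 0
  have b01 := congrFun (congrFun hB 0) 1
  have b10 := congrFun (congrFun hB 1) 0
  rw [e, e] at a00 a01 a10 b00 b01 b10
  obtain ⟨k1, k2, k3⟩ := disc_aux (a := C 0 0) (b := C 0 1) (c := C 1 0) (d := C 1 1)
    (x := A 0 0) (y := A 0 1) (z := A 1 0) (w := A 1 1)
    (x' := B 0 0) (y' := B 0 1) (z' := B 1 0) (w' := B 1 1) hC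
    (by linear_combination a00) (by linear_combination a01) (by linear_combination a10)
    (by linear_combination b00) (by linear_combination b01) (by linear_combination b10)
  ext i j
  rw [e, e]
  fin_cases i <;> fin_cases j
  · simp only [Fin.zero_eta, Fin.isValue]; linear_combination k1
  · simp only [Fin.zero_eta, Fin.isValue, Fin.mk_one]; linear_combination -k2
  · simp only [Fin.zero_eta, Fin.isValue, Fin.mk_one]; linear_combination k3
  · simp only [Fin.isValue, Fin.mk_one]; linear_combination -k1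

theorem BiInv.unit_eq_ind {G : Type*} [Group G] (K : Subgroup G) :
    BiInv.unit K = BiInv.ind K := by
  ext x
  by_cases h : x ∈ K
  · rw [BiInv.unit_of_mem h, BiInv.ind_of_mem h]
  · rw [BiInv.unit_of_not_mem h, BiInv.ind_of_not_mem h]

section

variable {K L : Type u} [CommRing K] [CommRing L] {i : K →+* L} {s : L ≃+* L} {π : L →+* K}
  (S : SplitRing s i π) {U : Subgroup PGL(2, L)} {V : Subgroup PGL(2, K)}
  (hU : IsProd3 (ProjGenLinGroup.map (n := Fin 2) (s : L →+* L))
    (ProjGenLinGroup.map (n := Fin 2) π) U V)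

include S in
theorem commute_of_norm {γ g : GL (Fin 2) K} {X : GL (Fin 2) L}
    (hd : IsUnit ((γ : Matrix (Fin 2) (Fin 2) K).trace ^ 2 -
      4 * (γ : Matrix (Fin 2) (Fin 2) K).det))
    (hX : X * GeneralLinearGroup.map (s : L →+* L) X *
      GeneralLinearGroup.map (s : L →+* L) (GeneralLinearGroup.map (s : L →+* L) X) =
      GeneralLinearGroup.map i γ) (hg : g * γ = γ * g) :
    GeneralLinearGroup.map i g * X = X * GeneralLinearGroup.map i g := by
  have h1 : GeneralLinearGroup.map (s : L →+* L) (GeneralLinearGroup.map i γ) =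
      GeneralLinearGroup.map i γ := S.gl_split3.fix γ
  have h2 : GeneralLinearGroup.map (s : L →+* L) (GeneralLinearGroup.map (s : L →+* L)
    (GeneralLinearGroup.map (s : L →+* L) X)) = X := S.gl_split3.cube X
  have h3 : X * GeneralLinearGroup.map i γ = GeneralLinearGroup.map i γ * X := by
    conv_lhs => rw [← h1, ← hX]
    conv_rhs => rw [← hX]
    rw [map_mul, map_mul, h2]
    group
  apply Units.ext
  rw [Units.val_mul, Units.val_mul]
  refine mul_comm_of_disc (C := (GeneralLinearGroup.map i γ : GL (Fin 2) L)) ?_ ?_ ?_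
  · have e1 : ((GeneralLinearGroup.map i γ : GL (Fin 2) L) : Matrix (Fin 2) (Fin 2) L) =
        (γ : Matrix (Fin 2) (Fin 2) K).map i := rfl
    have e2 : ((γ : Matrix (Fin 2) (Fin 2) K).map i).trace =
        i (γ : Matrix (Fin 2) (Fin 2) K).trace := by
      rw [Matrix.trace_fin_two, Matrix.trace_fin_two, map_add]; rfl
    have e3 : ((γ : Matrix (Fin 2) (Fin 2) K).map i).det =
        i (γ : Matrix (Fin 2) (Fin 2) K).det := (RingHom.map_det i _).symm
    rw [e1, e2, e3]
    have := hd.map i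
    rwa [map_sub, map_pow, map_mul, map_ofNat] at this
  · rw [← Units.val_mul, ← Units.val_mul, ← map_mul, ← map_mul, hg]
  · rw [← Units.val_mul, ← Units.val_mul, h3]

include S in
theorem exists_norm_split (γ : GL (Fin 2) K) :
    ∃ x : GL (Fin 2) L, x * GeneralLinearGroup.map i γ = GeneralLinearGroup.map i γ * x ∧
      x * GeneralLinearGroup.map (s : L →+* L) x *
        GeneralLinearGroup.map (s : L →+* L) (GeneralLinearGroup.map (s : L →+* L) x) =
      GeneralLinearGroup.map i γ := by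
  obtain ⟨x, h1, h2, h3⟩ := S.gl_surj γ 1 1
  have hc := S.gl_split3.cube x
  have hr := S.gl_split3.ret γ
  have hf := S.gl_split3.fix γ
  refine ⟨x, S.gl_split3.inj _ _ ?_ ?_ ?_, S.gl_split3.inj _ _ ?_ ?_ ?_⟩
  · rw [map_mul, map_mul, h1, hr]
  · rw [map_mul, map_mul, map_mul, map_mul, h2, hf, hr, one_mul, mul_one]
  · rw [map_mul, map_mul, map_mul, map_mul, map_mul, map_mul, h3, hf, hf, hr, one_mul, mul_one]
  · rw [map_mul, map_mul, h1, h2, h3, hr, mul_one, mul_one]
  · rw [map_mul, map_mul, map_mul, map_mul, hc, h2, h3, h1, hf, hr, one_mul, one_mul]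
  · rw [map_mul, map_mul, map_mul, map_mul, map_mul, map_mul, hc, h3, h1, h2, hf, hf, hr,
      one_mul, mul_one]

/-- the correspondence at the split places -/
theorem exists_corr_split (hf : IsField K) (F₁ F₂ F₃ : BiInv V) (h₁ : F₁.Fin) (h₂ : F₂.Fin)
    {T : Type t} [Group T] (j : T →* GL (Fin 2) K) (γ : GL (Fin 2) K) (X : GL (Fin 2) L)
    (hd : (γ : Matrix (Fin 2) (Fin 2) K).trace ^ 2 - 4 * (γ : Matrix (Fin 2) (Fin 2) K).det ≠ 0)
    (hX : X * GeneralLinearGroup.map (s : L →+* L) X *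
      GeneralLinearGroup.map (s : L →+* L) (GeneralLinearGroup.map (s : L →+* L) X) =
      GeneralLinearGroup.map i γ)
    (hT : ∀ t, j t * γ = γ * j t) :
    ∃ C : @LocalCorr.{u} T _ (PGL(2, L) ⧸ U) (PGL(2, K) ⧸ V) (actVia (jL i j) U)
      (actVia (jK j) V) ((tens3 hU F₁ F₂ F₃).tw (ProjGenLinGroup.map (s : L →+* L))
        (hU.stable S.pgl_split3) (ProjGenLinGroup.mk X))
      ((F₁.conv (F₂.conv F₃)).tw (MonoidHom.id _) (fun _ h => h) (ProjGenLinGroup.mk γ)),
      @LocalCorr.NC T _ _ _ (actVia (jL i j) U) (actVia (jK j) V) _ _ C ∧ (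
      (∀ a ∈ V, F₁.f a = 1 ∧ F₂.f a = 1 ∧ F₃.f a = 1) →
      (∀ a, F₁.f a ≠ 0 → a ∈ V) → (∀ a, F₃.f a ≠ 0 → a ∈ V) → ProjGenLinGroup.mk X ∈ U →
      @LocalCorr.Based T _ _ _ (actVia (jL i j) U) (actVia (jK j) V) _ _ C
        ((1 : PGL(2, L)) : PGL(2, L) ⧸ U) ((1 : PGL(2, K)) : PGL(2, K) ⧸ V)) := by
  let a1 : MulAction T (PGL(2, L) ⧸ U) := actVia (jL i j) U
  let a2 : MulAction T (PGL(2, K) ⧸ V) := actVia (jK j) V
  have hdu : IsUnit ((γ : Matrix (Fin 2) (Fin 2) K).trace ^ 2 -
      4 * (γ : Matrix (Fin 2) (Fin 2) K).det) := by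
    let := hf.toField
    exact isUnit_iff_ne_zero.2 hd
  refine split_corr_good S.pgl_split3 hU F₁ F₂ F₃ h₁ h₂ (jK j) (fun t g => rfl) (fun t g => rfl)
    (ProjGenLinGroup.mk γ) (ProjGenLinGroup.mk X) ?_ fun t => ?_
  · rw [ProjGenLinGroup.map_mk, ProjGenLinGroup.map_mk, ← map_mul, ← map_mul, hX]
    rfl
  · change ProjGenLinGroup.mk (GeneralLinearGroup.map i (j t)) * ProjGenLinGroup.mk X =
      ProjGenLinGroup.mk X * ProjGenLinGroup.mk (GeneralLinearGroup.map i (j t))
    rw [← map_mul, ← map_mul, commute_of_norm S hdu hX (hT t)]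

/-- **matching at the split places** -/
theorem isMatch_split (hf : IsField K) {F₁ F₂ F₃ : BiInv V} (h₁ : F₁.Fin) (h₂ : F₂.Fin) :
    IsMatch.{u, t} i (s : L →+* L) (hU.stable S.pgl_split3) (tens3 hU F₁ F₂ F₃)
      (F₁.conv (F₂.conv F₃)) where
  corr j γ X hd hX hT := by
    obtain ⟨C, hC, -⟩ := exists_corr_split S hU hf F₁ F₂ F₃ h₁ h₂ j γ X hd hX hT
    exact ⟨C, hC⟩
  norm γ h hd hne := by
    obtain ⟨x, hx1, hx2⟩ := exists_norm_split S γ
    exact ⟨x, 1, hx1, by rw [hx2, map_one, one_mul]⟩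

end

section

variable {K L : Type u} [CommRing K] [CommRing L] {i : K →+* L} {s : L ≃+* L} {π : L →+* K}
  (S : SplitRing s i π) {O' : Subring L} {O : Subring K}
  (hU : IsProd3 (ProjGenLinGroup.map (n := Fin 2) (s : L →+* L))
    (ProjGenLinGroup.map (n := Fin 2) π) (PO O') (PO O))

/-- **matching of the units at the unramified split places** -/
theorem isMatchU_split (hf : IsField K) :
    IsMatchU.{u, t} i (s : L →+* L) (hU.stable S.pgl_split3) (BiInv.ind (PO O'))
      (BiInv.ind (PO O)) := by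
  have e1 : tens3 hU (BiInv.unit (PO O)) (BiInv.unit (PO O)) (BiInv.unit (PO O)) =
      BiInv.ind (PO O') := by rw [tens3_unit, BiInv.unit_eq_ind]
  have e2 : (BiInv.unit (PO O)).conv ((BiInv.unit (PO O)).conv (BiInv.unit (PO O))) =
      BiInv.ind (PO O) := by rw [BiInv.unit_conv, BiInv.unit_conv, BiInv.unit_eq_ind]
  rw [← e1, ← e2]
  refine { isMatch_split S hU hf BiInv.unit_fin BiInv.unit_fin with
    based := fun j γ X hd hX hT hXO hγ hr => ?_ }
  obtain ⟨C, hC, hb⟩ := exists_corr_split S hU hf _ _ _ BiInv.unit_fin BiInv.unit_fin j γ X hd hX hT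
  exact ⟨C, hC, hb (fun a ha => ⟨BiInv.unit_of_mem ha, BiInv.unit_of_mem ha, BiInv.unit_of_mem ha⟩)
    (fun a ha => BiInv.mem_of_unit_ne ha) (fun a ha => BiInv.mem_of_unit_ne ha) (mk_mem_PO hXO)⟩

end

end Fermat.Agent.LT.Loc
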