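import Mathlib

/-!
# Two by two matrices: commutants and cube roots of the identity
-/

set_option autoImplicit false

open Matrix

namespace Fermat.Agent.LT.Loc

variable {L : Type*} [Field L]

local notation "M2" => Matrix (Fin 2) (Fin 2)

theorem sq_eq (A : M2 L) : A * A = A.trace • A - A.det • (1 : M2 L) := by
  ext i j
  fin_cases i <;> fin_cases j <;>
    simp [Matrix.mul_apply, Fin.sum_univ_two, Matrix.trace_fin_two, Matrix.det_fin_two] <;> ring

theorem cube_eq (A : M2 L) : A * A * A =
    (A.trace ^ 2 - A.det) • A - (A.trace * A.det) • (1 : M2 L) := by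
  rw [sq_eq, sub_mul, smul_mul_assoc, smul_mul_assoc, one_mul, sq_eq A]
  ext i j
  simp only [Matrix.sub_apply, Matrix.smul_apply, smul_eq_mul]
  ring

/-- the commutant of a non-scalar matrix -/
theorem exists_of_commute {A B : M2 L} (h : B * A = A * B) (hA : ∀ c : L, A ≠ c • 1) :
    ∃ a b : L, B = a • (1 : M2 L) + b • A := by
  have h00 := congrFun (congrFun h 0) 0
  have h01 := congrFun (congrFun h 0) 1
  have h10 := congrFun (congrFun h 1) 0
  simp only [Matrix.mul_apply, Fin.sum_univ_two] at h00 h01 h10
  by_cases h1 : A 0 1 = 0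
  · by_cases h2 : A 1 0 = 0
    · have h3 : A 0 0 ≠ A 1 1 := by
        intro h3
        refine hA (A 0 0) ?_
        ext i j
        fin_cases i <;> fin_cases j <;> simp [h1, h2, h3]
      have h4 : A 0 0 - A 1 1 ≠ 0 := sub_ne_zero.2 h3
      have b01 : B 0 1 = 0 := by
        rw [h1] at h01
        have : B 0 1 * (A 0 0 - A 1 1) = 0 := by linear_combination -h01
        exact (mul_eq_zero.1 this).resolve_right h4
      have b10 : B 1 0 = 0 := by
        rw [h2] at h10
        have : B 1 0 * (A 0 0 - A 1 1) = 0 := by linear_combination h10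
        exact (mul_eq_zero.1 this).resolve_right h4
      refine ⟨B 0 0 - (B 0 0 - B 1 1) / (A 0 0 - A 1 1) * A 0 0,
        (B 0 0 - B 1 1) / (A 0 0 - A 1 1), ?_⟩
      ext i j
      fin_cases i <;> fin_cases j <;> simp [h1, h2, b01, b10]
      field_simp
      ring
    · refine ⟨B 0 0 - B 1 0 / A 1 0 * A 0 0, B 1 0 / A 1 0, ?_⟩
      ext i j
      fin_cases i <;> fin_cases j <;> simp [h1, h2]
      · rw [h1] at h00
        have : B 0 1 * A 1 0 = 0 := by linear_combination h00
        exact (mul_eq_zero.1 this).resolve_right h2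
      · rw [h1] at h01
        field_simp
        linear_combination h10
  · refine ⟨B 0 0 - B 0 1 / A 0 1 * A 0 0, B 0 1 / A 0 1, ?_⟩
    ext i j
    fin_cases i <;> fin_cases j <;> simp [h1]
    · field_simp
      linear_combination -h00
    · field_simp
      linear_combination -h01

/-- a non-scalar cube root of `1` of determinant `1` -/
theorem trace_of_cube_eq_one {s : M2 L} (h3 : s * s * s = 1) (hd : s.det = 1)
    (hs : ∀ c : L, s ≠ c • 1) : s.trace = -1 := by
  rw [cube_eq, hd, mul_one] at h3
  have h1 : (s.trace ^ 2 - 1) • s = (1 + s.trace) • (1 : M2 L) := by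
    rw [add_smul, one_smul]
    rw [sub_eq_iff_eq_add] at h3
    exact h3
  by_cases h2 : s.trace ^ 2 - 1 = 0
  · rw [h2, zero_smul] at h1
    have h4 := congrFun (congrFun h1 0) 0
    simp at h4
    linear_combination -h4
  · exfalso
    refine hs ((s.trace ^ 2 - 1)⁻¹ * (1 + s.trace)) ?_
    rw [mul_smul, ← h1, smul_smul, inv_mul_cancel₀ h2, one_smul]

end Fermat.Agent.LT.Loc
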