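import Fermat.Agent.LT.Loc.TwoMat

/-!
# Uniqueness in twisted conjugacy near the identity
-/

set_option autoImplicit false

open Matrix

namespace Fermat.Agent.LT.Loc

variable {L : Type*} [NormedField L]

local notation "M2" => Matrix (Fin 2) (Fin 2)

/-- `x` is close to `1`, up to conjugacy -/
def Near (ε : ℝ) (x : M2 L) : Prop := ‖x.trace - 2‖ < ε ∧ ‖x.det - 1‖ < ε

theorem norm_two_le : ‖(2 : L)‖ ≤ 2 := by
  have h : (2 : L) = 1 + 1 := by norm_num
  calc ‖(2 : L)‖ = ‖(1 : L) + 1‖ := by rw [h]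
    _ ≤ ‖(1 : L)‖ + ‖(1 : L)‖ := norm_add_le _ _
    _ = 2 := by rw [norm_one]; norm_num

theorem norm_three_le : ‖(3 : L)‖ ≤ 3 := by
  have h : (3 : L) = 2 + 1 := by norm_num
  calc ‖(3 : L)‖ = ‖(2 : L) + 1‖ := by rw [h]
    _ ≤ ‖(2 : L)‖ + ‖(1 : L)‖ := norm_add_le _ _
    _ ≤ 2 + 1 := by rw [norm_one]; gcongr; exact norm_two_le
    _ = 3 := by norm_num

theorem norm_four_le : ‖(4 : L)‖ ≤ 4 := by
  have h : (4 : L) = 2 * 2 := by norm_num
  rw [h, norm_mul]
  nlinarith [norm_two_le (L := L), norm_nonneg (2 : L)]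

theorem exists_eps (h6 : (6 : L) ≠ 0) : ∃ ε : ℝ, 0 < ε ∧
    (∀ x : M2 L, Near ε x → x.trace ^ 2 - x.det ≠ 0 ∧ x.det ≠ 0 ∧ x.trace ≠ 0) ∧
    ∀ x x' s : M2 L, Near ε x → Near ε x' → s * s * s = 1 → s * x = x * s →
      s.det * x'.det = x.det → (x * (s * s)).trace = x'.trace → s = 1 := by
  have h2 : (2 : L) ≠ 0 := fun h => h6 (by linear_combination 3 * h)
  have h3 : (3 : L) ≠ 0 := fun h => h6 (by linear_combination 2 * h)
  have n6 : 0 < ‖(6 : L)‖ := norm_pos_iff.2 h6
  have n3 : 0 < ‖(3 : L)‖ := norm_pos_iff.2 h3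
  have n2 : 0 < ‖(2 : L)‖ := norm_pos_iff.2 h2
  obtain ⟨ε, hε, e1, e2, e3, e4, e5⟩ : ∃ ε : ℝ, 0 < ε ∧ ε ≤ 1 / 2 ∧ 28 * ε < ‖(3 : L)‖ ∧
      12 * ε ≤ ‖(6 : L)‖ ∧ 400 * ε < ‖(3 : L)‖ * ‖(6 : L)‖ ^ 2 ∧ ε < ‖(2 : L)‖ := by
    refine ⟨min (1 / 2) (min (‖(3 : L)‖ / 29) (min (‖(6 : L)‖ / 12)
      (min (‖(3 : L)‖ * ‖(6 : L)‖ ^ 2 / 401) (‖(2 : L)‖ / 2)))), ?_, ?_, ?_, ?_, ?_, ?_⟩
    · positivity
    · exact min_le_left _ _
    · have : min (1 / 2) (min (‖(3 : L)‖ / 29) (min (‖(6 : L)‖ / 12)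
        (min (‖(3 : L)‖ * ‖(6 : L)‖ ^ 2 / 401) (‖(2 : L)‖ / 2)))) ≤ ‖(3 : L)‖ / 29 :=
        (min_le_right _ _).trans (min_le_left _ _)
      linarith
    · have : min (1 / 2) (min (‖(3 : L)‖ / 29) (min (‖(6 : L)‖ / 12)
        (min (‖(3 : L)‖ * ‖(6 : L)‖ ^ 2 / 401) (‖(2 : L)‖ / 2)))) ≤ ‖(6 : L)‖ / 12 :=
        (min_le_right _ _).trans ((min_le_right _ _).trans (min_le_left _ _))
      linarith
    · have : min (1 / 2) (min (‖(3 : L)‖ / 29) (min (‖(6 : L)‖ / 12)
        (min (‖(3 : L)‖ * ‖(6 : L)‖ ^ 2 / 401) (‖(2 : L)‖ / 2)))) ≤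
          ‖(3 : L)‖ * ‖(6 : L)‖ ^ 2 / 401 :=
        (min_le_right _ _).trans ((min_le_right _ _).trans ((min_le_right _ _).trans
          (min_le_left _ _)))
      have hp : 0 < ‖(3 : L)‖ * ‖(6 : L)‖ ^ 2 := by positivity
      linarith
    · have : min (1 / 2) (min (‖(3 : L)‖ / 29) (min (‖(6 : L)‖ / 12)
        (min (‖(3 : L)‖ * ‖(6 : L)‖ ^ 2 / 401) (‖(2 : L)‖ / 2)))) ≤ ‖(2 : L)‖ / 2 :=
        (min_le_right _ _).trans ((min_le_right _ _).trans ((min_le_right _ _).trans
          (min_le_right _ _)))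
      linarith
  have hT : ∀ x : M2 L, Near ε x → ‖x.trace‖ ≤ 3 := by
    intro x hx
    calc ‖x.trace‖ = ‖(x.trace - 2) + 2‖ := by rw [sub_add_cancel]
      _ ≤ ‖x.trace - 2‖ + ‖(2 : L)‖ := norm_add_le _ _
      _ ≤ 1 / 2 + 2 := add_le_add (hx.1.le.trans e1) norm_two_le
      _ ≤ 3 := by norm_num
  refine ⟨ε, hε, ?_, ?_⟩
  · intro x hx
    refine ⟨?_, ?_, ?_⟩
    · intro h
      have h1 : (3 : L) = -((x.trace - 2) * (x.trace + 2) - (x.det - 1)) := by
        linear_combination h
      have h2 : ‖(3 : L)‖ ≤ ε * 5 + ε := by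
        rw [h1, norm_neg]
        refine (norm_sub_le _ _).trans (add_le_add ?_ hx.2.le)
        rw [norm_mul]
        refine mul_le_mul hx.1.le ?_ (norm_nonneg _) hε.le
        refine (norm_add_le _ _).trans ?_
        linarith [hT x hx, norm_two_le (L := L)]
      linarith
    · intro h
      have h1 := hx.2
      rw [h, zero_sub, norm_neg, norm_one] at h1
      linarith
    · intro h
      have h1 := hx.1
      rw [h, zero_sub, norm_neg] at h1
      linarith
  · intro x x' s hx hx' hs3 hsx hdet htr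
    -- the determinant of `s`
    have hd3 : s.det * s.det * s.det = 1 := by
      rw [← Matrix.det_mul, ← Matrix.det_mul, hs3, Matrix.det_one]
    have hd : s.det = 1 := by
      by_contra hne
      have h1 : s.det ^ 2 + s.det + 1 = 0 := by
        have h2 : (s.det - 1) * (s.det ^ 2 + s.det + 1) = 0 := by linear_combination hd3
        exact (mul_eq_zero.1 h2).resolve_left (sub_ne_zero.2 hne)
      have hx'd : 1 / 2 ≤ ‖x'.det‖ := by
        have h2 : ‖(1 : L)‖ ≤ ‖x'.det‖ + ‖x'.det - 1‖ := by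
          calc ‖(1 : L)‖ = ‖x'.det - (x'.det - 1)‖ := by rw [sub_sub_cancel]
            _ ≤ _ := norm_sub_le _ _
        rw [norm_one] at h2
        linarith [hx'.2]
      have h3 : ‖s.det - 1‖ ≤ 4 * ε := by
        have h4 : (s.det - 1) * x'.det = (x.det - 1) - (x'.det - 1) := by
          linear_combination hdet
        have h5 : ‖s.det - 1‖ * ‖x'.det‖ ≤ 2 * ε := by
          rw [← norm_mul, h4]
          refine (norm_sub_le _ _).trans ?_
          linarith [hx.2, hx'.2]
        have h6 : ‖s.det - 1‖ * (1 / 2) ≤ ‖s.det - 1‖ * ‖x'.det‖ :=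
          mul_le_mul_of_nonneg_left hx'd (norm_nonneg _)
        linarith
      have h7 : -((s.det - 1) * ((s.det - 1) + 3)) = (3 : L) := by linear_combination -h1
      have h8 : ‖(3 : L)‖ ≤ 4 * ε * (4 * ε + 3) := by
        have h9 : ‖s.det - 1 + 3‖ ≤ 4 * ε + 3 :=
          (norm_add_le _ _).trans (add_le_add h3 norm_three_le)
        calc ‖(3 : L)‖ = ‖s.det - 1‖ * ‖s.det - 1 + 3‖ := by
              rw [← norm_mul, ← norm_neg ((s.det - 1) * (s.det - 1 + 3)), h7]
          _ ≤ _ := mul_le_mul h3 h9 (norm_nonneg _) (by linarith)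
      nlinarith
    by_cases hsc : ∀ c : L, s ≠ c • 1
    · exfalso
      have ht : s.trace = -1 := trace_of_cube_eq_one hs3 hd hsc
      obtain ⟨a, b, hab⟩ := exists_of_commute hsx.symm hsc
      have h01 : s 0 0 + s 1 1 = -1 := by rw [← Matrix.trace_fin_two]; exact ht
      have h02 : s 0 0 * s 1 1 - s 0 1 * s 1 0 = 1 := by rw [← Matrix.det_fin_two]; exact hd
      have hxt : x.trace = 2 * a - b := by
        rw [hab]
        simp [Matrix.trace_fin_two]
        linear_combination b * h01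
      have hxd : x.det = a ^ 2 - a * b + b ^ 2 := by
        rw [hab]
        simp [Matrix.det_fin_two]
        linear_combination a * b * h01 + b ^ 2 * h02
      have hss : s * s = -s - 1 := by
        rw [sq_eq, ht, hd, one_smul, neg_one_smul]
      have hxt' : x'.trace = -a + 2 * b := by
        rw [← htr, hss, hab]
        have h5 : (a • (1 : M2 L) + b • s) * (-s - 1) = (-a) • s - a • 1 - b • (s * s) - b • s := by
          rw [add_mul, smul_mul_assoc, smul_mul_assoc, one_mul, mul_sub, mul_neg, mul_one,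
            neg_smul, smul_sub, smul_sub, smul_neg, smul_neg]
          abel
        rw [h5, hss]
        simp [Matrix.trace_fin_two]
        linear_combination (-a) * h01
      have hb2 : ‖(3 : L)‖ * ‖b‖ ^ 2 ≤ 9 * ε := by
        have h5 : (3 : L) * b ^ 2 = -((x.trace - 2) * (x.trace + 2) - 4 * (x.det - 1)) := by
          rw [hxt, hxd]; ring
        rw [← norm_pow, ← norm_mul, h5, norm_neg]
        refine (norm_sub_le _ _).trans ?_
        have h6 : ‖(x.trace - 2) * (x.trace + 2)‖ ≤ ε * 5 := by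
          rw [norm_mul]
          refine mul_le_mul hx.1.le ?_ (norm_nonneg _) hε.le
          refine (norm_add_le _ _).trans ?_
          linarith [hT x hx, norm_two_le (L := L)]
        have h7 : ‖(4 : L) * (x.det - 1)‖ ≤ 4 * ε := by
          rw [norm_mul]
          exact mul_le_mul norm_four_le hx.2.le (norm_nonneg _) (by norm_num)
        linarith
      have h8 : (6 : L) = 3 * b - (2 * (x'.trace - 2) + (x.trace - 2)) := by
        rw [hxt, hxt']; ring
      have h9 : ‖(6 : L)‖ ≤ 3 * ‖b‖ + 3 * ε := by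
        rw [h8]
        refine (norm_sub_le _ _).trans (add_le_add ?_ ?_)
        · rw [norm_mul]
          exact mul_le_mul_of_nonneg_right norm_three_le (norm_nonneg _)
        · refine (norm_add_le _ _).trans ?_
          have h10 : ‖(2 : L) * (x'.trace - 2)‖ ≤ 2 * ε := by
            rw [norm_mul]
            exact mul_le_mul norm_two_le hx'.1.le (norm_nonneg _) (by norm_num)
          linarith [hx.1]
      have h11 : ‖(6 : L)‖ * (3 / 4) ≤ 3 * ‖b‖ := by linarith
      have h12 : ‖(6 : L)‖ ^ 2 * (9 / 16) ≤ 9 * ‖b‖ ^ 2 := by nlinarith [norm_nonneg b]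
      have h13 : ‖(3 : L)‖ * (‖(6 : L)‖ ^ 2 * (9 / 16)) ≤ 9 * (9 * ε) := by
        calc ‖(3 : L)‖ * (‖(6 : L)‖ ^ 2 * (9 / 16)) ≤ ‖(3 : L)‖ * (9 * ‖b‖ ^ 2) :=
              mul_le_mul_of_nonneg_left h12 n3.le
          _ = 9 * (‖(3 : L)‖ * ‖b‖ ^ 2) := by ring
          _ ≤ 9 * (9 * ε) := by linarith
      nlinarith
    · push Not at hsc
      obtain ⟨c, hc⟩ := hsc
      have h1 : c * c = 1 := by
        have h2 := hd
        rw [hc, Matrix.det_fin_two] at h2
        have e1 : (1 : M2 L) 0 1 = 0 := rfl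
        simp only [Matrix.smul_apply, Matrix.one_apply_eq, smul_eq_mul, mul_one, e1,
          mul_zero, zero_mul, sub_zero] at h2
        exact h2
      have h2 : c * c * c = 1 := by
        have h3 := congrFun (congrFun hs3 0) 0
        rw [hc] at h3
        simp only [smul_mul_smul_comm, mul_one, Matrix.smul_apply, Matrix.one_apply_eq,
          smul_eq_mul] at h3
        exact h3
      have h3 : c = 1 := by rw [h1, one_mul] at h2; exact h2
      rw [hc, h3, one_smul]

variable (L) in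
/-- a good radius -/
structure GoodEps (ε : ℝ) : Prop where
  pos : 0 < ε
  nz : ∀ x : M2 L, Near ε x → x.trace ^ 2 - x.det ≠ 0 ∧ x.det ≠ 0 ∧ x.trace ≠ 0
  uniq : ∀ x x' s : M2 L, Near ε x → Near ε x' → s * s * s = 1 → s * x = x * s →
      s.det * x'.det = x.det → (x * (s * s)).trace = x'.trace → s = 1

theorem exists_goodEps (h6 : (6 : L) ≠ 0) : ∃ ε, GoodEps L ε := by
  obtain ⟨ε, h1, h2, h3⟩ := exists_eps h6
  exact ⟨ε, h1, h2, h3⟩

theorem Near.mono {ε ε' : ℝ} (h : ε' ≤ ε) {x : M2 L} (hx : Near ε' x) : Near ε x :=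
  ⟨hx.1.trans_le h, hx.2.trans_le h⟩

theorem GoodEps.mono {ε ε' : ℝ} (h : GoodEps L ε) (h1 : 0 < ε') (h2 : ε' ≤ ε) : GoodEps L ε' :=
  ⟨h1, fun x hx => h.nz x (hx.mono h2), fun x x' s hx hx' => h.uniq x x' s (hx.mono h2)
    (hx'.mono h2)⟩

/-- commuting with the cube -/
theorem commute_of_cube {x s : M2 L} (h0 : x.trace ^ 2 - x.det ≠ 0)
    (h : s * (x * x * x) = x * x * x * s) : s * x = x * s := by
  rw [cube_eq, mul_sub, sub_mul, mul_smul_comm, mul_smul_comm, smul_mul_assoc, smul_mul_assoc,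
    mul_one, one_mul, sub_left_inj] at h
  exact smul_right_injective _ h0 h

/-- **Uniqueness**: elements near `1` fixed by `τ` which are twisted conjugate are conjugate by a
fixed element. -/
theorem fixed_of_conj {ε : ℝ} (h : GoodEps L ε) (τ : M2 L →+* M2 L) (hτ : ∀ x, τ (τ (τ x)) = x)
    {x x' g gi : M2 L} (hg : g * gi = 1) (hx : Near ε x) (hx' : Near ε x') (fx : τ x = x)
    (fx' : τ x' = x') (hc : x * τ g = g * x') : τ g = g := by
  have hg' : gi * g = 1 := mul_eq_one_comm.1 hg
  have tg : τ g * τ gi = 1 := by rw [← map_mul, hg, map_one]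
  have tg' : τ gi * τ g = 1 := by rw [← map_mul, hg', map_one]
  have hc1 : x * τ (τ g) = τ g * x' := by
    have := congrArg τ hc
    rwa [map_mul, map_mul, fx, fx'] at this
  have hc2 : x * g = τ (τ g) * x' := by
    have := congrArg τ hc1
    rwa [map_mul, map_mul, fx, fx', hτ] at this
  have e1 : x * x * x * g = g * (x' * x' * x') := by
    calc x * x * x * g = x * (x * (x * g)) := by simp only [mul_assoc]
      _ = x * (x * τ (τ g)) * x' := by rw [hc2]; simp only [mul_assoc]
      _ = (x * τ g) * x' * x' := by rw [hc1]; simp only [mul_assoc]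
      _ = g * (x' * x' * x') := by rw [hc]; simp only [mul_assoc]
  have e2 : x * x * x * τ g = τ g * (x' * x' * x') := by
    have := congrArg τ e1
    simpa only [map_mul, fx, fx'] using this
  obtain ⟨n1, n2, -⟩ := h.nz x hx
  set s := g * τ gi with hs
  set r := τ g * gi with hr
  have rs : r * s = 1 := by
    rw [hr, hs, mul_assoc, ← mul_assoc gi, hg', one_mul, tg]
  have sr : s * r = 1 := mul_eq_one_comm.1 rs
  have e3 : τ gi * (x * x * x) = x' * x' * x' * τ gi := by
    calc τ gi * (x * x * x) = τ gi * (x * x * x) * (τ g * τ gi) := by rw [tg, mul_one]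
      _ = τ gi * (x * x * x * τ g) * τ gi := by simp only [mul_assoc]
      _ = (τ gi * τ g) * (x' * x' * x') * τ gi := by rw [e2]; simp only [mul_assoc]
      _ = _ := by rw [tg', one_mul]
  have hsx3 : s * (x * x * x) = x * x * x * s := by
    rw [hs, mul_assoc, e3, ← mul_assoc, ← e1, mul_assoc]
  have hsx : s * x = x * s := commute_of_cube n1 hsx3
  have hrx : r * x = x * r := by
    calc r * x = r * x * (s * r) := by rw [sr, mul_one]
      _ = r * (x * s) * r := by simp only [mul_assoc]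
      _ = (r * s) * x * r := by rw [← hsx]; simp only [mul_assoc]
      _ = x * r := by rw [rs, one_mul]
  have hxr : x * r = g * x' * gi := by rw [hr, ← mul_assoc, hc]
  have hr3 : r * r * r = 1 := by
    have e4 : x * x * x * (r * r * r) = x * x * x := by
      calc x * x * x * (r * r * r) = x * x * (x * r) * r * r := by simp only [mul_assoc]
        _ = x * x * (r * x) * r * r := by rw [hrx]
        _ = x * (x * r) * (x * r) * r := by simp only [mul_assoc]
        _ = x * (r * x) * (x * r) * r := by rw [hrx]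
        _ = (x * r) * x * (x * r) * r := by simp only [mul_assoc]
        _ = (x * r) * x * (r * x) * r := by rw [hrx]
        _ = (x * r) * (x * r) * (x * r) := by simp only [mul_assoc]
        _ = g * x' * (gi * g) * x' * (gi * g) * x' * gi := by rw [hxr]; simp only [mul_assoc]
        _ = g * (x' * x' * x') * gi := by rw [hg']; simp only [mul_assoc, mul_one]
        _ = x * x * x := by rw [← e1, mul_assoc, hg, mul_one]
    have hu : IsUnit (x * x * x) := by
      rw [Matrix.isUnit_iff_isUnit_det, Matrix.det_mul, Matrix.det_mul]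
      exact (n2.isUnit.mul n2.isUnit).mul n2.isUnit
    have e5 : x * x * x * (r * r * r) = x * x * x * 1 := by rw [e4, mul_one]
    exact hu.mul_left_cancel e5
  have hs3 : s * s * s = 1 := by
    calc s * s * s = s * s * s * (r * r * r) := by rw [hr3, mul_one]
      _ = s * (s * (s * r) * r) * r := by simp only [mul_assoc]
      _ = 1 := by rw [sr, mul_one, sr, mul_one, sr]
  have hss : s * s = r := by
    calc s * s = s * s * (s * r) := by rw [sr, mul_one]
      _ = (s * s * s) * r := by simp only [mul_assoc]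
      _ = r := by rw [hs3, one_mul]
  have hdet : s.det * x'.det = x.det := by
    have e4 : x.det * r.det = x'.det := by
      rw [← Matrix.det_mul, hxr, Matrix.det_mul, Matrix.det_mul, mul_comm g.det, mul_assoc,
        ← Matrix.det_mul, hg, Matrix.det_one, mul_one]
    have e5 : s.det * r.det = 1 := by rw [← Matrix.det_mul, sr, Matrix.det_one]
    rw [← e4, mul_comm x.det, ← mul_assoc, e5, one_mul]
  have htr : (x * (s * s)).trace = x'.trace := by
    rw [hss, hxr, Matrix.trace_mul_comm, ← mul_assoc, hg', one_mul]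
  have h1 := h.uniq x x' s hx hx' hs3 hsx hdet htr
  calc τ g = s * τ g := by rw [h1, one_mul]
    _ = g := by rw [hs, mul_assoc, tg', mul_one]

end Fermat.Agent.LT.Loc
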